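/-
MLT stream Crit (helper6): balanced elements (Tate's element) in `S ⊗[O] S`.
-/
import Mathlib

set_option autoImplicit false

open scoped TensorProduct

namespace Fermat.Agent.MLT

universe u v w

section Delta

variable {O : Type u} [CommRing O] {S : Type v} [CommRing S] [Algebra O S]

/-- `δ s = s ⊗ 1 - 1 ⊗ s`. -/
def mltc_delta (O : Type u) [CommRing O] {S : Type v} [CommRing S] [Algebra O S] (s : S) :
    S ⊗[O] S :=
  s ⊗ₜ[O] (1 : S) - (1 : S) ⊗ₜ[O] s

theorem mltc_delta_mul (s s' : S) :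
    mltc_delta O (s * s') =
      ((1 : S) ⊗ₜ[O] s) * mltc_delta O s' + (s' ⊗ₜ[O] (1 : S)) * mltc_delta O s := by
  simp only [mltc_delta, mul_sub, Algebra.TensorProduct.tmul_mul_tmul, one_mul, mul_one]
  rw [mul_comm s' s]
  abel

theorem mltc_delta_add (s s' : S) :
    mltc_delta O (s + s') = mltc_delta O s + mltc_delta O s' := by
  simp only [mltc_delta, TensorProduct.add_tmul, TensorProduct.tmul_add]
  abel

theorem mltc_delta_algebraMap (o : O) : mltc_delta O (algebraMap O S o) = 0 := by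
  simp only [mltc_delta, Algebra.algebraMap_eq_smul_one]
  rw [TensorProduct.smul_tmul, sub_self]

theorem mltc_delta_zero : mltc_delta O (0 : S) = 0 := by
  simp [mltc_delta]

theorem mltc_delta_sum {ι : Type*} (s : Finset ι) (f : ι → S) :
    mltc_delta O (∑ i ∈ s, f i) = ∑ i ∈ s, mltc_delta O (f i) := by
  classical
  induction s using Finset.induction_on with
  | empty => simp [mltc_delta_zero]
  | insert a s ha ih => rw [Finset.sum_insert ha, Finset.sum_insert ha, mltc_delta_add, ih]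

/-- If `S` is generated by the `x i` as an `O`-algebra, every `δ s` lies in the ideal generated by
the `δ (x i)`. -/
theorem mltc_delta_mem {ι : Type*} (x : ι → S) (hx : Algebra.adjoin O (Set.range x) = ⊤) (s : S) :
    mltc_delta O s ∈ Ideal.span (Set.range fun i => mltc_delta O (x i)) := by
  have hs : s ∈ Algebra.adjoin O (Set.range x) := by rw [hx]; trivial
  induction hs using Algebra.adjoin_induction with
  | mem y hy =>
    obtain ⟨i, rfl⟩ := hy
    exact Ideal.subset_span ⟨i, rfl⟩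
  | algebraMap o => rw [mltc_delta_algebraMap]; exact Ideal.zero_mem _
  | add a b _ _ iha ihb => rw [mltc_delta_add]; exact Ideal.add_mem _ iha ihb
  | mul a b _ _ iha ihb =>
    rw [mltc_delta_mul]
    exact Ideal.add_mem _ (Ideal.mul_mem_left _ _ ihb) (Ideal.mul_mem_left _ _ iha)

end Delta

section Bal

variable {O : Type u} [CommRing O] {S : Type v} [CommRing S] [Algebra O S]

/-- `s ⊗ s' ↦ ε s • s'` as an algebra map `S ⊗[O] S → S`. -/
noncomputable def mltc_epsL (ε : S →ₐ[O] O) : S ⊗[O] S →ₐ[O] S :=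
  Algebra.TensorProduct.productMap ((Algebra.ofId O S).comp ε) (AlgHom.id O S)

theorem mltc_epsL_tmul (ε : S →ₐ[O] O) (s s' : S) :
    mltc_epsL ε (s ⊗ₜ[O] s') = algebraMap O S (ε s) * s' := by
  simp [mltc_epsL, Algebra.ofId_apply]

/-- From a matrix `ρ` of relations `ρ x = 0` among algebra generators `x i` killed by the
augmentation `ε`, one gets a matrix `a` over `S ⊗ S` with `a (δ x) = 0` lifting `ρ`. -/
theorem mltc_bal_matrix {ι : Type*} [Fintype ι] [DecidableEq ι] (x : ι → S)
    (hx : Algebra.adjoin O (Set.range x) = ⊤) (ε : S →ₐ[O] O) (hε : ∀ i, ε (x i) = 0)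
    (ρ : Matrix ι ι S) (hρ : ρ.mulVec x = 0) :
    ∃ a : Matrix ι ι (S ⊗[O] S), a.mulVec (fun i => mltc_delta O (x i)) = 0 ∧
      ∀ i j, mltc_epsL ε (a i j) = ρ i j := by
  classical
  have hc : ∀ i j, ∃ c : ι → S ⊗[O] S,
      ∑ l, c l * mltc_delta O (x l) = mltc_delta O (ρ i j) := fun i j =>
    (Ideal.mem_span_range_iff_exists_fun).1 (mltc_delta_mem x hx (ρ i j))
  choose c hc using hc
  refine ⟨fun i l => (1 : S) ⊗ₜ[O] ρ i l + ∑ j, (x j ⊗ₜ[O] (1 : S)) * c i j l, ?_, ?_⟩
  · funext i
    simp only [Matrix.mulVec, dotProduct, Pi.zero_apply]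
    have h0 : mltc_delta O (∑ j, ρ i j * x j) = 0 := by
      have := congrFun hρ i
      simp only [Matrix.mulVec, dotProduct, Pi.zero_apply] at this
      rw [this, mltc_delta_zero]
    rw [mltc_delta_sum] at h0
    rw [← h0]
    simp only [add_mul, Finset.sum_add_distrib, Finset.sum_mul]
    rw [Finset.sum_comm]
    rw [← Finset.sum_add_distrib]
    refine Finset.sum_congr rfl fun j _ => ?_
    rw [mltc_delta_mul, ← hc i j, Finset.mul_sum]
    congr 1
    refine Finset.sum_congr rfl fun l _ => ?_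
    ring
  · intro i j
    rw [map_add, mltc_epsL_tmul, map_one, map_one, one_mul, map_sum]
    rw [Finset.sum_eq_zero, add_zero]
    intro l _
    rw [map_mul, mltc_epsL_tmul, hε, map_zero, zero_mul, zero_mul]

/-- Tate's balanced element: `Θ δ(s) = 0` for all `s`, and `(ε ⊗ 1) Θ = det ρ`. -/
theorem mltc_bal_exists {ι : Type*} [Fintype ι] [DecidableEq ι] (x : ι → S)
    (hx : Algebra.adjoin O (Set.range x) = ⊤) (ε : S →ₐ[O] O) (hε : ∀ i, ε (x i) = 0)
    (ρ : Matrix ι ι S) (hρ : ρ.mulVec x = 0) :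
    ∃ Θ : S ⊗[O] S, (∀ s, Θ * mltc_delta O s = 0) ∧ mltc_epsL ε Θ = ρ.det := by
  classical
  obtain ⟨a, ha, haρ⟩ := mltc_bal_matrix x hx ε hε ρ hρ
  refine ⟨a.det, ?_, ?_⟩
  · have hx' : ∀ l, a.det * mltc_delta O (x l) = 0 := by
      intro l
      have h1 : (a.adjugate * a).mulVec (fun i => mltc_delta O (x i)) = 0 := by
        rw [← Matrix.mulVec_mulVec, ha, Matrix.mulVec_zero]
      rw [Matrix.adjugate_mul, Matrix.smul_mulVec, Matrix.one_mulVec] at h1
      have := congrFun h1 l
      simpa using this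
    intro s
    obtain ⟨c, hc⟩ := (Ideal.mem_span_range_iff_exists_fun).1 (mltc_delta_mem x hx s)
    rw [← hc, Finset.mul_sum]
    refine Finset.sum_eq_zero fun l _ => ?_
    rw [mul_left_comm, hx', mul_zero]
  · rw [AlgHom.map_det]
    congr 1
    ext i j
    simp [haρ]

end Bal

end Fermat.Agent.MLT
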