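/-
MLT stream Crit (helper6): finite-length modules over a DVR: cyclic generators with
annihilating scalars whose product computes the length.
-/
import Mathlib

set_option autoImplicit false
set_option linter.unusedSectionVars false

namespace Fermat.Agent.MLT

universe u v

open scoped DirectSum

section FinLen

variable {O : Type u} [CommRing O] [IsDomain O] [IsDiscreteValuationRing O]

/-- A DVR has infinite length over itself. -/
theorem mltc_length_self : Module.length O O = ⊤ := by
  by_contra h
  have h := Module.length_ne_top_iff.1 h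
  have hart : IsArtinianRing O := (isFiniteLength_iff_isNoetherian_isArtinian.1 h).2
  exact IsDiscreteValuationRing.not_isField O (IsArtinianRing.isField_of_isDomain O)

/-- Finite length modules over a DVR are torsion. -/
theorem mltc_isTorsion_of_length {Φ : Type v} [AddCommGroup Φ] [Module O Φ]
    (h : Module.length O Φ ≠ ⊤) : Module.IsTorsion O Φ := by
  intro x
  by_contra hx
  have hinj : Function.Injective (LinearMap.toSpanSingleton O Φ x) := by
    rw [injective_iff_map_eq_zero]
    intro a ha
    by_contra ha0
    exact hx ⟨⟨a, mem_nonZeroDivisors_of_ne_zero ha0⟩, by simpa using ha⟩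
  have := Module.length_le_of_injective _ hinj
  rw [mltc_length_self] at this
  exact h (top_le_iff.1 this)

/-- `ord` of a product of nonzero elements. -/
theorem mltc_ord_prod {ι : Type*} (s : Finset ι) (c : ι → O) (hc : ∀ i ∈ s, c i ≠ 0) :
    Module.length O (O ⧸ Ideal.span {∏ i ∈ s, c i}) =
      ∑ i ∈ s, Module.length O (O ⧸ Ideal.span {c i}) := by
  classical
  induction s using Finset.induction_on with
  | empty =>
    simp only [Finset.prod_empty, Finset.sum_empty]
    exact Ring.ord_one O
  | insert a s ha ih =>
    rw [Finset.prod_insert ha, Finset.sum_insert ha]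
    have h1 : (∏ i ∈ s, c i) ∈ nonZeroDivisors O :=
      mem_nonZeroDivisors_of_ne_zero
        (Finset.prod_ne_zero_iff.2 fun i hi => hc i (Finset.mem_insert_of_mem hi))
    have := Ring.ord_mul (R := O) (a := c a) h1
    rw [Ring.ord] at this
    rw [this, ← ih fun i hi => hc i (Finset.mem_insert_of_mem hi)]
    rfl

/-- Cyclic presentation of a finite length module over a DVR. -/
theorem mltc_finLen_presentation {Φ : Type v} [AddCommGroup Φ] [Module O Φ]
    (h : Module.length O Φ ≠ ⊤) :
    ∃ (ι : Type u) (_ : Fintype ι) (ξ : ι → Φ) (c : ι → O),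
      (∀ y : Φ, ∃ o : ι → O, y = ∑ i, o i • ξ i) ∧ (∀ i, c i • ξ i = 0) ∧ (∀ i, c i ≠ 0) ∧
      Module.length O (O ⧸ Ideal.span {∏ i, c i}) = Module.length O Φ := by
  classical
  have hfl : IsFiniteLength O Φ := Module.length_ne_top_iff.1 h
  have hfin : Module.Finite O Φ :=
    have := (isFiniteLength_iff_isNoetherian_isArtinian.1 hfl).1
    inferInstance
  obtain ⟨ι, hι, p, hp, e, ⟨E⟩⟩ :=
    Module.equiv_directSum_of_isTorsion (mltc_isTorsion_of_length h)
  let E' : Φ ≃ₗ[O] (∀ i, O ⧸ Submodule.span O {p i ^ e i}) :=
    E.trans (DirectSum.linearEquivFunOnFintype O ι _)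
  refine ⟨ι, hι, fun i => E'.symm (Pi.single i (Submodule.Quotient.mk 1)),
    fun i => p i ^ e i, ?_, ?_, ?_, ?_⟩
  · intro y
    choose o ho using fun i => Submodule.Quotient.mk_surjective _ (E' y i)
    refine ⟨o, ?_⟩
    apply E'.injective
    rw [map_sum]
    funext i
    simp only [map_smul, LinearEquiv.apply_symm_apply, Finset.sum_apply, Pi.smul_apply]
    rw [Finset.sum_eq_single i]
    · rw [Pi.single_eq_same, ← ho i, ← Submodule.Quotient.mk_smul, smul_eq_mul, mul_one]
    · intro j _ hji
      rw [Pi.single_eq_of_ne hji.symm, smul_zero]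
    · intro hi; exact absurd (Finset.mem_univ i) hi
  · intro i
    rw [← map_smul, ← Pi.single_smul, ← Submodule.Quotient.mk_smul, smul_eq_mul, mul_one]
    have : (Submodule.Quotient.mk (p i ^ e i) : O ⧸ Submodule.span O {p i ^ e i}) = 0 := by
      rw [Submodule.Quotient.mk_eq_zero]
      exact Submodule.mem_span_singleton_self _
    rw [this, Pi.single_zero, map_zero]
  · intro i
    exact pow_ne_zero _ (hp i).ne_zero
  · rw [mltc_ord_prod Finset.univ _ fun i _ => pow_ne_zero _ (hp i).ne_zero]
    rw [E'.length_eq, Module.length_pi_of_fintype]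

end FinLen

end Fermat.Agent.MLT
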