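/-
MLT stream Crit (helper6): presentation of a finite length cotangent space `p/p²` (`p = ker ε`)
by generators `x i` of `p` and a square matrix of relations `ρ x = 0` with
`length (O/(ε (det ρ))) = length (p/p²)`.
-/
import Fermat.Agent.Lib.MLT.Contracts.Crit
import Fermat.Agent.Lib.MLT.Crit.FinLen

set_option autoImplicit false
set_option linter.unusedSectionVars false

namespace Fermat.Agent.MLT

universe u v

section Cot

variable {O : Type u} [CommRing O] [IsDomain O] [IsDiscreteValuationRing O]
  {R : Type v} [CommRing R] [IsLocalRing R] [IsNoetherianRing R] [Algebra O R]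

theorem mltc_ker_aug_le_maximalIdeal (ε : R →ₐ[O] O) :
    RingHom.ker ε ≤ IsLocalRing.maximalIdeal R :=
  IsLocalRing.le_maximalIdeal (RingHom.ker_ne_top ε)

/-- Generators of `p = ker ε` and a square matrix of relations computing `length (p/p²)`. -/
theorem mltc_cot_presentation (ε : R →ₐ[O] O) (hfin : mltc_phiLen ε ≠ ⊤) :
    ∃ (ι : Type u) (_ : Fintype ι) (_ : DecidableEq ι) (x : ι → R) (ρ : Matrix ι ι R),
      Ideal.span (Set.range x) = RingHom.ker ε ∧ ρ.mulVec x = 0 ∧ ε ρ.det ≠ 0 ∧
      Module.length O (O ⧸ Ideal.span {ε ρ.det}) = mltc_phiLen ε := by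
  classical
  set p : Ideal R := RingHom.ker ε with hp
  obtain ⟨ι, hι, ξ, c, hspan, hann, hc0, hlen⟩ :=
    mltc_finLen_presentation (O := O) (Φ := p.Cotangent) hfin
  choose x' hx' using fun i => p.toCotangent_surjective (ξ i)
  let x : ι → R := fun i => (x' i : R)
  have hxp : ∀ i, x i ∈ p := fun i => (x' i).2
  -- (i) the `x i` generate `p`
  have hgen : Ideal.span (Set.range x) = p := by
    apply le_antisymm
    · rw [Ideal.span_le]; rintro _ ⟨i, rfl⟩; exact hxp i
    · apply Submodule.le_of_le_smul_of_le_jacobson_bot (I := p) (IsNoetherian.noetherian p)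
      · rw [IsLocalRing.jacobson_eq_maximalIdeal ⊥ bot_ne_top]
        exact mltc_ker_aug_le_maximalIdeal ε
      · intro y hy
        obtain ⟨o, ho⟩ := hspan (p.toCotangent ⟨y, hy⟩)
        have h1 : p.toCotangent ⟨y, hy⟩ =
            p.toCotangent (∑ i, (algebraMap O R (o i)) • x' i) := by
          rw [ho, map_sum]
          refine Finset.sum_congr rfl fun i _ => ?_
          rw [map_smul, hx', algebraMap_smul]
        rw [Ideal.toCotangent_eq] at h1
        have h2 : y = (∑ i, algebraMap O R (o i) * x i) +
            (y - ∑ i, algebraMap O R (o i) * x i) := by ring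
        rw [h2]
        apply Submodule.add_mem_sup
        · refine Ideal.sum_mem _ fun i _ => Ideal.mul_mem_left _ _ (Ideal.subset_span ⟨i, rfl⟩)
        · rw [Ideal.smul_eq_mul, ← pow_two]
          convert h1 using 1
          simp [x, Algebra.smul_def]
  -- (ii) relations
  have hrel : ∀ i, algebraMap O R (c i) * x i ∈ p • Submodule.span R (Set.range x) := by
    intro i
    have h1 : p.toCotangent ((algebraMap O R (c i)) • x' i) = 0 := by
      rw [map_smul, hx', algebraMap_smul, hann]
    rw [Ideal.toCotangent_eq_zero] at h1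
    have h2 : Submodule.span R (Set.range x) = p := hgen
    rw [h2, Ideal.smul_eq_mul, ← pow_two]
    simpa [x, Algebra.smul_def] using h1
  choose s hs hsum using fun i =>
    (Submodule.mem_ideal_smul_span_iff_exists_sum p x _).1 (hrel i)
  let ρ : Matrix ι ι R :=
    Matrix.diagonal (fun i => algebraMap O R (c i)) - Matrix.of (fun i j => s i j)
  have hρx : ρ.mulVec x = 0 := by
    funext i
    have h3 := hsum i
    rw [Finsupp.sum_fintype _ _ (by simp)] at h3
    simp only [ρ, Matrix.sub_mulVec, Pi.sub_apply, Matrix.mulVec_diagonal, Pi.zero_apply]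
    rw [← h3]
    simp [Matrix.mulVec, dotProduct]
  have hdet : ε ρ.det = ∏ i, c i := by
    rw [AlgHom.map_det]
    have : ε.mapMatrix ρ = Matrix.diagonal c := by
      ext i j
      simp only [AlgHom.mapMatrix_apply, Matrix.map_apply, ρ, Matrix.sub_apply, Matrix.of_apply,
        map_sub]
      have hsij : ε (s i j) = 0 := hs i j
      rw [hsij, sub_zero]
      by_cases hij : i = j
      · subst hij; simp
      · simp [Matrix.diagonal_apply_ne _ hij]
    rw [this, Matrix.det_diagonal]
  refine ⟨ι, hι, inferInstance, x, ρ, hgen, hρx, ?_, ?_⟩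
  · rw [hdet]; exact Finset.prod_ne_zero_iff.2 fun i _ => hc0 i
  · rw [hdet, hlen]; rfl

end Cot

end Fermat.Agent.MLT
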