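/-
MLT stream Crit (helper6): a balanced element of `R ⊗[O] R` whose image induces a surjection
`Hom_O(T, O) → T` forces `R → T` to be injective.
-/
import Fermat.Agent.Lib.MLT.Crit.Bal

set_option autoImplicit false

open scoped TensorProduct

namespace Fermat.Agent.MLT

universe u v w

section Inj

variable {O : Type u} [CommRing O] {R : Type v} [CommRing R] [Algebra O R]
  {T : Type w} [CommRing T] [Algebra O T]

/-- `Λ_ℓ : R ⊗ R → R`, `r ⊗ r' ↦ ℓ (φ r) • r'`. -/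
noncomputable def mltc_lam (φ : R →ₐ[O] T) (ℓ : T →ₗ[O] O) : R ⊗[O] R →ₗ[O] R :=
  TensorProduct.lift ((LinearMap.lsmul O R).comp (ℓ.comp φ.toLinearMap))

@[simp] theorem mltc_lam_tmul (φ : R →ₐ[O] T) (ℓ : T →ₗ[O] O) (r r' : R) :
    mltc_lam φ ℓ (r ⊗ₜ[O] r') = ℓ (φ r) • r' := by
  simp [mltc_lam]

theorem mltc_lam_add (φ : R →ₐ[O] T) (ℓ ℓ' : T →ₗ[O] O) :
    mltc_lam φ (ℓ + ℓ') = mltc_lam φ ℓ + mltc_lam φ ℓ' := by
  apply TensorProduct.ext'
  intro r r'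
  simp [add_smul]

theorem mltc_lam_smul (φ : R →ₐ[O] T) (o : O) (ℓ : T →ₗ[O] O) :
    mltc_lam φ (o • ℓ) = o • mltc_lam φ ℓ := by
  apply TensorProduct.ext'
  intro r r'
  simp [mul_smul]

theorem mltc_lam_mul_right (φ : R →ₐ[O] T) (ℓ : T →ₗ[O] O) (z : R ⊗[O] R) (s : R) :
    mltc_lam φ ℓ (z * ((1 : R) ⊗ₜ[O] s)) = mltc_lam φ ℓ z * s := by
  induction z using TensorProduct.induction_on with
  | zero => simp
  | tmul r r' => simp [Algebra.TensorProduct.tmul_mul_tmul]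
  | add a b ha hb => rw [add_mul, map_add, ha, hb, map_add, add_mul]

theorem mltc_lam_mul_left (φ : R →ₐ[O] T) (ℓ : T →ₗ[O] O) (z : R ⊗[O] R) (s : R) :
    mltc_lam φ ℓ (z * (s ⊗ₜ[O] (1 : R))) =
      mltc_lam φ (ℓ.comp (LinearMap.mulLeft O (φ s))) z := by
  induction z using TensorProduct.induction_on with
  | zero => simp
  | tmul r r' => simp [Algebra.TensorProduct.tmul_mul_tmul, mul_comm]
  | add a b ha hb => rw [add_mul, map_add, ha, hb, map_add]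

/-- Balancedness transported through `Λ_ℓ`. -/
theorem mltc_lam_bal (φ : R →ₐ[O] T) (ℓ : T →ₗ[O] O) (Θ : R ⊗[O] R)
    (hΘ : ∀ s, Θ * mltc_delta O s = 0) (s : R) :
    mltc_lam φ (ℓ.comp (LinearMap.mulLeft O (φ s))) Θ = mltc_lam φ ℓ Θ * s := by
  rw [← mltc_lam_mul_left, ← mltc_lam_mul_right]
  congr 1
  have := hΘ s
  rw [mltc_delta, mul_sub, sub_eq_zero] at this
  exact this

/-- `θ : Hom_O(T, O) → T`, `ℓ ↦ φ (Λ_ℓ Θ)`. -/
noncomputable def mltc_theta (φ : R →ₐ[O] T) (Θ : R ⊗[O] R) : (T →ₗ[O] O) →ₗ[O] T where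
  toFun ℓ := φ (mltc_lam φ ℓ Θ)
  map_add' ℓ ℓ' := by rw [mltc_lam_add, LinearMap.add_apply, map_add]
  map_smul' o ℓ := by
    rw [mltc_lam_smul, LinearMap.smul_apply, map_smul, RingHom.id_apply]

theorem mltc_theta_apply (φ : R →ₐ[O] T) (Θ : R ⊗[O] R) (ℓ : T →ₗ[O] O) :
    mltc_theta φ Θ ℓ = φ (mltc_lam φ ℓ Θ) := rfl

/-- `θ` is `T`-linear. -/
theorem mltc_theta_mul (φ : R →ₐ[O] T) (hφ : Function.Surjective φ) (Θ : R ⊗[O] R)
    (hΘ : ∀ s, Θ * mltc_delta O s = 0) (ℓ : T →ₗ[O] O) (t : T) :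
    mltc_theta φ Θ (ℓ.comp (LinearMap.mulLeft O t)) = t * mltc_theta φ Θ ℓ := by
  obtain ⟨s, rfl⟩ := hφ t
  rw [mltc_theta_apply, mltc_lam_bal φ ℓ Θ hΘ s, map_mul, mltc_theta_apply, mul_comm]

/-- `θ π = φ ((ε ⊗ 1) Θ)` for the augmentation `ε = π ∘ φ`. -/
theorem mltc_theta_aug (φ : R →ₐ[O] T) (π : T →ₐ[O] O) (Θ : R ⊗[O] R) :
    mltc_theta φ Θ π.toLinearMap = φ (mltc_epsL (π.comp φ) Θ) := by
  rw [mltc_theta_apply]
  congr 1
  induction Θ using TensorProduct.induction_on with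
  | zero => simp
  | tmul r r' => simp [mltc_epsL_tmul, Algebra.smul_def]
  | add a b ha hb => rw [map_add, ha, hb, map_add]

/-- **Injectivity from a balanced element.** -/
theorem mltc_inj_of_bal [IsLocalRing R] [Nontrivial T] (φ : R →ₐ[O] T) (Θ : R ⊗[O] R)
    (hΘ : ∀ s, Θ * mltc_delta O s = 0) (ℓ : T →ₗ[O] O) (hℓ : mltc_theta φ Θ ℓ = 1) :
    Function.Injective φ := by
  rw [injective_iff_map_eq_zero]
  intro r hr
  have h1 := mltc_lam_bal φ ℓ Θ hΘ r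
  rw [hr] at h1
  have h0 : ℓ.comp (LinearMap.mulLeft O (0 : T)) = 0 := by
    ext t; simp
  rw [h0] at h1
  have h2 : mltc_lam φ (0 : T →ₗ[O] O) Θ = 0 := by
    have := mltc_lam_smul φ (0 : O) (0 : T →ₗ[O] O)
    rw [zero_smul, zero_smul] at this
    rw [this, LinearMap.zero_apply]
  rw [h2] at h1
  -- `ρ := Λ_ℓ Θ` is a unit
  set ρ := mltc_lam φ ℓ Θ with hρ
  have hφρ : φ ρ = 1 := hℓ
  have hu : IsUnit ρ := by
    have hnu : (1 - ρ) ∈ nonunits R := by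
      intro hunit
      have := hunit.map φ
      rw [map_sub, map_one, hφρ, sub_self] at this
      exact not_isUnit_zero this
    have := IsLocalRing.isUnit_one_sub_self_of_mem_nonunits (1 - ρ) hnu
    simpa using this
  exact (hu.mul_right_eq_zero).1 h1.symm |> fun h => by simpa using h

end Inj

end Fermat.Agent.MLT
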