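/-
MLT stream Crit (helper6): a `T`-linear map `θ : Hom_O(T, O) → T` with `θ π ∉ 𝔪_O T` is bijective
(`T` finite free local over the DVR `O`, `π : T → O` an augmentation).
-/
import Mathlib

set_option autoImplicit false
set_option linter.style.haveILetI false
set_option linter.unusedSectionVars false

namespace Fermat.Agent.MLT

universe u w

open IsLocalRing Module

section Surj

variable {O : Type u} [CommRing O] [IsDomain O] [IsDiscreteValuationRing O]
  {T : Type w} [CommRing T] [IsLocalRing T] [Algebra O T] [Module.Finite O T] [Module.Free O T]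

/-- A linear functional maps `𝔪_O T` into `𝔪_O`. -/
theorem mltc_dual_map_mem (ℓ : T →ₗ[O] O) {t : T}
    (ht : t ∈ Ideal.map (algebraMap O T) (maximalIdeal O)) : ℓ t ∈ maximalIdeal O := by
  have ht' : t ∈ (maximalIdeal O) • (⊤ : Submodule O T) := by
    rw [Ideal.smul_top_eq_map]; exact ht
  refine Submodule.smul_induction_on ht' ?_ ?_
  · intro o ho s _
    rw [map_smul, smul_eq_mul]
    exact Ideal.mul_mem_right _ _ ho
  · intro x y hx hy
    rw [map_add]; exact Ideal.add_mem _ hx hy

omit [Module.Free O T] in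
theorem mltc_exists_pow_le :
    ∃ M : ℕ, maximalIdeal T ^ M ≤ Ideal.map (algebraMap O T) (maximalIdeal O) := by
  letI : Field (O ⧸ maximalIdeal O) := Ideal.Quotient.field _
  haveI : Module.Finite (O ⧸ maximalIdeal O)
      (T ⧸ Ideal.map (algebraMap O T) (maximalIdeal O)) :=
    Module.Finite.of_restrictScalars_finite O _ _
  haveI : IsArtinianRing (T ⧸ Ideal.map (algebraMap O T) (maximalIdeal O)) :=
    IsArtinianRing.of_finite (O ⧸ maximalIdeal O) _
  exact IsLocalRing.exists_maximalIdeal_pow_le_of_isArtinianRing_quotient _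

/-- A functional all of whose values lie in `𝔪_O` is mapped into `𝔪_O T` by any linear map. -/
theorem mltc_theta_mem_of_vals (θ : (T →ₗ[O] O) →ₗ[O] T) (ℓ : T →ₗ[O] O)
    (hℓ : ∀ t, ℓ t ∈ maximalIdeal O) :
    θ ℓ ∈ Ideal.map (algebraMap O T) (maximalIdeal O) := by
  classical
  let b := Module.Free.chooseBasis O T
  have h : ℓ = ∑ i, ℓ (b i) • b.coord i := (b.sum_dual_apply_smul_coord ℓ).symm
  rw [h, map_sum]
  refine Ideal.sum_mem _ fun i _ => ?_
  rw [map_smul, Algebra.smul_def]
  exact Ideal.mul_mem_right _ _ (Ideal.mem_map_of_mem _ (hℓ _))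

/-- Injectivity of `θ` modulo `𝔪_O`. -/
theorem mltc_theta_inj_mod (π : T →ₐ[O] O) (θ : (T →ₗ[O] O) →ₗ[O] T)
    (hθ : ∀ (ℓ : T →ₗ[O] O) (t : T), θ (ℓ.comp (LinearMap.mulLeft O t)) = t * θ ℓ)
    (hπ : θ π.toLinearMap ∉ Ideal.map (algebraMap O T) (maximalIdeal O))
    (ℓ : T →ₗ[O] O) (hℓ : θ ℓ ∈ Ideal.map (algebraMap O T) (maximalIdeal O)) (t : T) :
    ℓ t ∈ maximalIdeal O := by
  classical
  by_contra hcon
  obtain ⟨M, hM⟩ := mltc_exists_pow_le (O := O) (T := T)
  -- `P j`: some element of `𝔪_T^j ℓ` has a unit value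
  let P : ℕ → Prop := fun j => ∃ m ∈ maximalIdeal T ^ j, ∃ s : T, ℓ (m * s) ∉ maximalIdeal O
  have hP0 : P 0 := ⟨1, by simp, t, by simpa using hcon⟩
  have hPM : ¬ P M := by
    rintro ⟨m, hm, s, hs⟩
    exact hs (mltc_dual_map_mem ℓ (Ideal.mul_mem_right _ _ (hM hm)))
  -- find `j` with `P j` and `¬ P (j+1)`
  have hex : ∃ j, P j ∧ ¬ P (j + 1) := by
    by_contra hno
    have hno' : ∀ j, P j → P (j + 1) := by
      intro j hj
      by_contra hc
      exact hno ⟨j, hj, hc⟩
    have : ∀ j, P j := fun j => Nat.rec hP0 (fun j hj => hno' j hj) j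
    exact hPM (this M)
  obtain ⟨j, ⟨m, hm, s, hs⟩, hnext⟩ := hex
  set ℓ' : T →ₗ[O] O := ℓ.comp (LinearMap.mulLeft O (m * s)) with hℓ'
  have hθℓ' : θ ℓ' ∈ Ideal.map (algebraMap O T) (maximalIdeal O) := by
    rw [hℓ', hθ]; exact Ideal.mul_mem_left _ _ hℓ
  have h1 : ℓ' 1 ∉ maximalIdeal O := by simpa [hℓ'] using hs
  have hmax : ∀ y ∈ maximalIdeal T, ℓ' y ∈ maximalIdeal O := by
    intro y hy
    by_contra hc
    apply hnext
    refine ⟨m * y, ?_, s, ?_⟩
    · rw [pow_succ]; exact Ideal.mul_mem_mul hm hy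
    · have : ℓ' y = ℓ (m * y * s) := by
        simp only [hℓ', LinearMap.comp_apply, LinearMap.mulLeft_apply]
        congr 1; ring
      rwa [this] at hc
  set u : O := ℓ' 1 with hu
  have huu : IsUnit u := by
    by_contra h
    exact h1 ((IsLocalRing.mem_maximalIdeal _).2 h)
  -- `ℓ' - u • π` has values in `𝔪_O`
  have hdiff : ∀ y, (ℓ' - u • π.toLinearMap) y ∈ maximalIdeal O := by
    intro y
    have hy : y - algebraMap O T (π y) ∈ maximalIdeal T := by
      rw [IsLocalRing.mem_maximalIdeal, mem_nonunits_iff]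
      intro hunit
      have := hunit.map π
      rw [map_sub, AlgHom.commutes, Algebra.algebraMap_self_apply, sub_self] at this
      exact not_isUnit_zero this
    have h2 := hmax _ hy
    have h3 : (ℓ' - u • π.toLinearMap) y = ℓ' (y - algebraMap O T (π y)) := by
      rw [map_sub, Algebra.algebraMap_eq_smul_one, map_smul, LinearMap.sub_apply,
        LinearMap.smul_apply, AlgHom.toLinearMap_apply, smul_eq_mul, smul_eq_mul, mul_comm]
    rw [h3]; exact h2
  have h4 := mltc_theta_mem_of_vals θ _ hdiff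
  rw [map_sub, map_smul] at h4
  have h5 : u • θ π.toLinearMap ∈ Ideal.map (algebraMap O T) (maximalIdeal O) := by
    have := Ideal.sub_mem _ hθℓ' h4
    simpa using this
  apply hπ
  obtain ⟨v, hv⟩ := huu.exists_left_inv
  have : θ π.toLinearMap = v • (u • θ π.toLinearMap) := by
    rw [smul_smul, hv, one_smul]
  rw [this, Algebra.smul_def]
  exact Ideal.mul_mem_left _ _ h5

/-- **Bijectivity of `θ`.** -/
theorem mltc_theta_bij (π : T →ₐ[O] O) (θ : (T →ₗ[O] O) →ₗ[O] T)
    (hθ : ∀ (ℓ : T →ₗ[O] O) (t : T), θ (ℓ.comp (LinearMap.mulLeft O t)) = t * θ ℓ)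
    (hπ : θ π.toLinearMap ∉ Ideal.map (algebraMap O T) (maximalIdeal O)) :
    Function.Bijective θ := by
  classical
  let b := Module.Free.chooseBasis O T
  let A := LinearMap.toMatrix b.dualBasis b θ
  have hA : IsUnit A.det := by
    by_contra hdet
    have hmem : A.det ∈ maximalIdeal O := (IsLocalRing.mem_maximalIdeal _).2 hdet
    have hdet0 : (A.map (residue O)).det = 0 := by
      have h := RingHom.map_det (residue O) A
      rw [RingHom.mapMatrix_apply] at h
      rw [← h]
      exact (IsLocalRing.residue_eq_zero_iff _).2 hmem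
    obtain ⟨vbar, hvbar0, hvbar⟩ := Matrix.exists_mulVec_eq_zero_iff.2 hdet0
    choose v hv using fun i => IsLocalRing.residue_surjective (vbar i)
    let ℓ : T →ₗ[O] O := ∑ i, v i • b.dualBasis i
    have hrepr : ∀ i, b.dualBasis.repr ℓ i = v i := by
      intro i
      have : b.dualBasis.repr ℓ = Finsupp.equivFunOnFinite.symm v := by
        apply b.dualBasis.repr.symm.injective
        rw [LinearEquiv.symm_apply_apply, Basis.repr_symm_apply,
          Finsupp.linearCombination_apply, Finsupp.sum_fintype _ _ (by simp)]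
        simp [ℓ]
      rw [this]; rfl
    have hcoord : ∀ j, b.repr (θ ℓ) j ∈ maximalIdeal O := by
      intro j
      have h1 := LinearMap.toMatrix_mulVec_repr b.dualBasis b θ ℓ
      have h2 : b.repr (θ ℓ) j = ∑ i, A j i * v i := by
        rw [← h1]
        simp only [Matrix.mulVec, dotProduct, hrepr]
        rfl
      rw [h2, ← IsLocalRing.residue_eq_zero_iff, map_sum]
      have h3 := congrFun hvbar j
      simp only [Matrix.mulVec, dotProduct, Matrix.map_apply, Pi.zero_apply] at h3
      rw [← h3]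
      refine Finset.sum_congr rfl fun i _ => ?_
      rw [map_mul, hv]
    have hθℓ : θ ℓ ∈ Ideal.map (algebraMap O T) (maximalIdeal O) := by
      rw [← b.sum_repr (θ ℓ)]
      refine Ideal.sum_mem _ fun j _ => ?_
      rw [Algebra.smul_def]
      exact Ideal.mul_mem_right _ _ (Ideal.mem_map_of_mem _ (hcoord j))
    have hvals := mltc_theta_inj_mod π θ hθ hπ ℓ hθℓ
    obtain ⟨i, hi⟩ : ∃ i, vbar i ≠ 0 := Function.ne_iff.1 hvbar0
    apply hi
    have h4 : ℓ (b i) = v i := by
      simp [ℓ, Finset.sum_apply, Finsupp.single_apply]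
    have h5 := hvals (b i)
    rw [h4, ← IsLocalRing.residue_eq_zero_iff, hv] at h5
    exact h5
  have : (LinearEquiv.ofIsUnitDet hA : (T →ₗ[O] O) →ₗ[O] T) = θ := LinearEquiv.coe_ofIsUnitDet hA
  have hb := (LinearEquiv.ofIsUnitDet hA).bijective
  have hcoe : ⇑(LinearEquiv.ofIsUnitDet hA) = ⇑θ := by
    funext x
    exact LinearMap.congr_fun this x
  rwa [hcoe] at hb

end Surj

end Fermat.Agent.MLT
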