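/-
MLT stream Crit (helper6): the Wiles--Lenstra criterion for `R` finite over `O`.
-/
import Fermat.Agent.Lib.MLT.Crit.Inj
import Fermat.Agent.Lib.MLT.Crit.Surj
import Fermat.Agent.Lib.MLT.Crit.Cot

set_option autoImplicit false
set_option linter.unusedSectionVars false

open scoped TensorProduct

namespace Fermat.Agent.MLT

universe u v w

open IsLocalRing

section Eta

variable {O : Type u} [CommRing O] [IsDomain O] [IsDiscreteValuationRing O]
  {T : Type w} [CommRing T] [Algebra O T] [Module.Finite O T] [Module.Free O T]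

/-- An element killing `ker π` has augmentation in `η`. -/
theorem mltc_aug_mem_eta (π : T →ₐ[O] O) (D : T) (hD : ∀ t ∈ RingHom.ker π, D * t = 0) :
    π D ∈ mltc_eta π := by
  apply Ideal.mem_map_of_mem
  rw [Submodule.mem_annihilator]
  intro t ht
  exact hD t ht

theorem mltc_length_le_of_ideal_le {I J : Ideal O} (h : I ≤ J) :
    Module.length O (O ⧸ J) ≤ Module.length O (O ⧸ I) :=
  Module.length_le_of_surjective (Submodule.factor h) (Submodule.factor_surjective h)

theorem mltc_length_eta_le (π : T →ₐ[O] O) (D : T) (hD : ∀ t ∈ RingHom.ker π, D * t = 0) :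
    Module.length O (O ⧸ mltc_eta π) ≤ Module.length O (O ⧸ Ideal.span {π D}) := by
  apply mltc_length_le_of_ideal_le
  rw [Ideal.span_le, Set.singleton_subset_iff]
  exact mltc_aug_mem_eta π D hD

/-- If `D` kills `ker π` and `length (O/(π D)) = length (O/η) < ∞` then `D ∉ 𝔪_O T`. -/
theorem mltc_not_mem_of_length_eq (π : T →ₐ[O] O) (D : T)
    (hD : ∀ t ∈ RingHom.ker π, D * t = 0)
    (hfin : Module.length O (O ⧸ Ideal.span {π D}) ≠ ⊤)
    (heq : Module.length O (O ⧸ Ideal.span {π D}) = Module.length O (O ⧸ mltc_eta π)) :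
    D ∉ Ideal.map (algebraMap O T) (maximalIdeal O) := by
  intro hmem
  obtain ⟨ϖ, hϖ⟩ := IsDiscreteValuationRing.exists_irreducible O
  rw [hϖ.maximalIdeal_eq, Ideal.map_span, Set.image_singleton,
    Ideal.mem_span_singleton'] at hmem
  obtain ⟨t, ht⟩ := hmem
  have hϖ0 : ϖ ≠ 0 := hϖ.ne_zero
  -- `t` kills `ker π`
  have htD : ∀ s ∈ RingHom.ker π, t * s = 0 := by
    intro s hs
    have h1 := hD s hs
    have h1' : ϖ • (t * s) = 0 := by
      rw [Algebra.smul_def, ← h1, ← ht]; ring
    rcases smul_eq_zero.1 h1' with h | h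
    · exact absurd h hϖ0
    · exact h
  have h2 := mltc_length_eta_le π t htD
  have h3 : π D = π t * ϖ := by
    rw [← ht, map_mul, AlgHom.commutes, Algebra.algebraMap_self_apply]
  have hπD0 : π D ≠ 0 := by
    intro h0
    apply hfin
    rw [h0]
    have : Ideal.span {(0 : O)} = ⊥ := by simp
    rw [this]
    have e : (O ⧸ (⊥ : Ideal O)) ≃ₗ[O] O := Submodule.quotEquivOfEqBot ⊥ rfl
    rw [e.length_eq, mltc_length_self]
  have hπt0 : π t ≠ 0 := by
    intro h0; apply hπD0; rw [h3, h0, zero_mul]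
  have h4 : Module.length O (O ⧸ Ideal.span {π D}) =
      Module.length O (O ⧸ Ideal.span {π t}) + 1 := by
    rw [h3]
    have := Ring.ord_mul (R := O) (a := π t) (mem_nonZeroDivisors_of_ne_zero hϖ0)
    rw [Ring.ord, Ring.ord, Ring.ord_of_irreducible hϖ] at this
    exact this
  rw [heq] at h4 hfin
  have h5 : Module.length O (O ⧸ mltc_eta π) + 1 ≤ Module.length O (O ⧸ mltc_eta π) := by
    calc Module.length O (O ⧸ mltc_eta π) + 1
        ≤ Module.length O (O ⧸ Ideal.span {π t}) + 1 := by gcongr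
      _ = Module.length O (O ⧸ mltc_eta π) := h4.symm
  exact absurd h5 (by
    rw [not_le]
    exact ENat.lt_add_one_iff hfin |>.2 le_rfl)

end Eta

section Adjoin

variable {O : Type u} [CommRing O] [IsDomain O] [IsDiscreteValuationRing O]
  {R : Type v} [CommRing R] [IsLocalRing R] [Algebra O R] [Module.Finite O R]

/-- A local `O`-algebra which is finite over `O` is generated as an `O`-algebra by any set of
generators of the kernel of an augmentation. -/
theorem mltc_adjoin_eq_top (ε : R →ₐ[O] O) {ι : Type*} [Fintype ι] (x : ι → R)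
    (hx : Ideal.span (Set.range x) = RingHom.ker ε) :
    Algebra.adjoin O (Set.range x) = ⊤ := by
  classical
  set S := Algebra.adjoin O (Set.range x) with hS
  set p : Ideal R := RingHom.ker ε with hp
  have hxS : ∀ i, x i ∈ S := fun i => Algebra.subset_adjoin ⟨i, rfl⟩
  have hA' : ∀ j : ℕ, ∀ z ∈ p ^ j, ∃ s ∈ S, z - s ∈ p ^ (j + 1) := by
    intro j
    induction j with
    | zero =>
      intro z _
      refine ⟨algebraMap O R (ε z), Subalgebra.algebraMap_mem _ _, ?_⟩
      rw [zero_add, pow_one, hp, RingHom.mem_ker, map_sub, AlgHom.commutes,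
        Algebra.algebraMap_self_apply, sub_self]
    | succ j ih =>
      intro z hz
      have hz' : z ∈ (p ^ j) • Submodule.span R (Set.range x) := by
        have h2 : Submodule.span R (Set.range x) = p := hx
        rw [h2, Ideal.smul_eq_mul, ← pow_succ]; exact hz
      obtain ⟨a, ha, hsum⟩ := (Submodule.mem_ideal_smul_span_iff_exists_sum (p ^ j) x z).1 hz'
      rw [Finsupp.sum_fintype _ _ (by simp)] at hsum
      choose s hsS hs using fun i => ih (a i) (ha i)
      refine ⟨∑ i, s i * x i, Subalgebra.sum_mem _ fun i _ => Subalgebra.mul_mem _ (hsS i) (hxS i),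
        ?_⟩
      rw [← hsum, ← Finset.sum_sub_distrib]
      refine Ideal.sum_mem _ fun i _ => ?_
      rw [smul_eq_mul, ← sub_mul, pow_succ (n := j + 1)]
      have hxi : x i ∈ p := by rw [← hx]; exact Ideal.subset_span ⟨i, rfl⟩
      exact Ideal.mul_mem_mul (hs i) hxi
  have hA : ∀ j : ℕ, ∀ r : R, ∃ s ∈ S, r - s ∈ p ^ j := by
    intro j
    induction j with
    | zero => intro r; exact ⟨0, Subalgebra.zero_mem _, by simp⟩
    | succ j ih =>
      intro r
      obtain ⟨s0, hs0, h0⟩ := ih r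
      obtain ⟨s1, hs1, h1⟩ := hA' j _ h0
      exact ⟨s0 + s1, Subalgebra.add_mem _ hs0 hs1, by rwa [← sub_sub]⟩
  obtain ⟨M, hM⟩ := mltc_exists_pow_le (O := O) (T := R)
  have hpM : p ^ M ≤ Ideal.map (algebraMap O R) (maximalIdeal O) :=
    (Ideal.pow_right_mono (IsLocalRing.le_maximalIdeal (RingHom.ker_ne_top ε)) M).trans hM
  have htop : (⊤ : Submodule O R) ≤ Subalgebra.toSubmodule S := by
    apply Submodule.le_of_le_smul_of_le_jacobson_bot (I := maximalIdeal O)
      (Module.finite_def.1 inferInstance)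
    · rw [IsLocalRing.jacobson_eq_maximalIdeal ⊥ bot_ne_top]
    · intro r _
      obtain ⟨s, hs, hrs⟩ := hA M r
      have : r = s + (r - s) := by ring
      rw [this]
      apply Submodule.add_mem_sup
      · exact hs
      · rw [Ideal.smul_top_eq_map]
        exact hpM hrs
  rw [eq_top_iff]
  intro r _
  exact htop (Submodule.mem_top)

end Adjoin

section FinCrit

variable {O : Type u} [CommRing O] [IsDomain O] [IsDiscreteValuationRing O]
  {R : Type v} [CommRing R] [IsLocalRing R] [IsNoetherianRing R] [Algebra O R]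
  {T : Type w} [CommRing T] [Algebra O T] [Module.Finite O T] [Module.Free O T]

omit [IsLocalRing R] [IsNoetherianRing R] in
/-- Cramer: the determinant of a matrix of relations kills the generated ideal. -/
theorem mltc_det_kills {ι : Type*} [Fintype ι] [DecidableEq ι] (x : ι → R) (ρ : Matrix ι ι R)
    (hρ : ρ.mulVec x = 0) (r : R) (hr : r ∈ Ideal.span (Set.range x)) : ρ.det * r = 0 := by
  have hx' : ∀ l, ρ.det * x l = 0 := by
    intro l
    have h1 : (ρ.adjugate * ρ).mulVec x = 0 := by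
      rw [← Matrix.mulVec_mulVec, hρ, Matrix.mulVec_zero]
    rw [Matrix.adjugate_mul, Matrix.smul_mulVec, Matrix.one_mulVec] at h1
    have := congrFun h1 l
    simpa using this
  obtain ⟨c, hc⟩ := (Ideal.mem_span_range_iff_exists_fun).1 hr
  rw [← hc, Finset.mul_sum]
  refine Finset.sum_eq_zero fun l _ => ?_
  rw [mul_left_comm, hx', mul_zero]

theorem mltc_D_kills (φ : R →ₐ[O] T) (hφ : Function.Surjective φ) (π : T →ₐ[O] O)
    {ι : Type*} [Fintype ι] [DecidableEq ι] (x : ι → R) (ρ : Matrix ι ι R)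
    (hgen : Ideal.span (Set.range x) = RingHom.ker (π.comp φ)) (hρ : ρ.mulVec x = 0) :
    ∀ t ∈ RingHom.ker π, φ ρ.det * t = 0 := by
  intro t ht
  obtain ⟨r, rfl⟩ := hφ t
  have hr : r ∈ Ideal.span (Set.range x) := by
    rw [hgen, RingHom.mem_ker]; exact ht
  rw [← map_mul, mltc_det_kills x ρ hρ r hr, map_zero]

/-- The easy inequality `length (O/η_T) ≤ length Φ_R`. -/
theorem mltc_length_eta_le_phiLen (φ : R →ₐ[O] T) (hφ : Function.Surjective φ)
    (π : T →ₐ[O] O) :
    Module.length O (O ⧸ mltc_eta π) ≤ mltc_phiLen (π.comp φ) := by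
  by_cases hfin : mltc_phiLen (π.comp φ) = ⊤
  · rw [hfin]; exact le_top
  obtain ⟨ι, hι, hdec, x, ρ, hgen, hρx, -, hlen⟩ := mltc_cot_presentation (π.comp φ) hfin
  have := mltc_length_eta_le π (φ ρ.det) (mltc_D_kills φ hφ π x ρ hgen hρx)
  rw [← hlen]
  exact this

/-- **Wiles--Lenstra criterion, `R` finite over `O`.** -/
theorem mltc_crit_fin [Module.Finite O R] (φ : R →ₐ[O] T) (hφ : Function.Surjective φ)
    (π : T →ₐ[O] O) (hfin : mltc_phiLen (π.comp φ) ≠ ⊤)
    (hle : mltc_phiLen (π.comp φ) ≤ Module.length O (O ⧸ mltc_eta π)) :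
    Function.Injective φ := by
  classical
  obtain ⟨ι, hι, hdec, x, ρ, hgen, hρx, hne, hlen⟩ := mltc_cot_presentation (π.comp φ) hfin
  have hkill := mltc_D_kills φ hφ π x ρ hgen hρx
  have hπD : π (φ ρ.det) = (π.comp φ) ρ.det := rfl
  have heq : Module.length O (O ⧸ Ideal.span {π (φ ρ.det)}) =
      Module.length O (O ⧸ mltc_eta π) := by
    apply le_antisymm
    · rw [hπD, hlen]; exact hle
    · exact mltc_length_eta_le π _ hkill
  have hfin' : Module.length O (O ⧸ Ideal.span {π (φ ρ.det)}) ≠ ⊤ := by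
    rw [hπD, hlen]; exact hfin
  have hnot := mltc_not_mem_of_length_eq π (φ ρ.det) hkill hfin' heq
  -- the balanced element
  have hadj := mltc_adjoin_eq_top (π.comp φ) x hgen
  have hεx : ∀ i, (π.comp φ) (x i) = 0 := by
    intro i
    have : x i ∈ RingHom.ker (π.comp φ) := by rw [← hgen]; exact Ideal.subset_span ⟨i, rfl⟩
    exact this
  obtain ⟨Θ, hΘ, hΘε⟩ := mltc_bal_exists x hadj (π.comp φ) hεx ρ hρx
  haveI : Nontrivial T := π.toRingHom.domain_nontrivial
  haveI : IsLocalRing T := IsLocalRing.of_surjective' (φ : R →+* T) hφ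
  have hθπ : mltc_theta φ Θ π.toLinearMap = φ ρ.det := by
    rw [mltc_theta_aug, hΘε]
  have hbij := mltc_theta_bij π (mltc_theta φ Θ)
    (fun ℓ t => mltc_theta_mul φ hφ Θ hΘ ℓ t) (by rw [hθπ]; exact hnot)
  obtain ⟨ℓ, hℓ⟩ := hbij.2 1
  exact mltc_inj_of_bal φ Θ hΘ ℓ hℓ

end FinCrit

end Fermat.Agent.MLT
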