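/-
MLT stream Crit (helper6): `length (O^n / γ O^n) = length (O / det γ)` over a DVR.
-/
import Fermat.Agent.Lib.MLT.Crit.FinLen

set_option autoImplicit false
set_option linter.unusedSectionVars false

namespace Fermat.Agent.MLT

universe u

open Module Submodule

section Latt

variable {O : Type u} [CommRing O] [IsDomain O] [IsDiscreteValuationRing O]

theorem mltc_length_coker {ι : Type*} [Fintype ι] [DecidableEq ι] (γ : Matrix ι ι O)
    (hγ : γ.det ≠ 0) :
    Module.length O ((ι → O) ⧸ LinearMap.range γ.mulVecLin) =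
      Module.length O (O ⧸ Ideal.span {γ.det}) := by
  classical
  set N : Submodule O (ι → O) := LinearMap.range γ.mulVecLin with hN
  have hinj : Function.Injective γ.mulVecLin := by
    rw [injective_iff_map_eq_zero]
    intro v hv
    by_contra hne
    exact hγ (Matrix.exists_mulVec_eq_zero_iff.1 ⟨v, hne, hv⟩)
  let e : (ι → O) ≃ₗ[O] N := LinearEquiv.ofInjective γ.mulVecLin hinj
  let b := Pi.basisFun O ι
  have h : Module.finrank O N = Module.finrank O (ι → O) := e.symm.finrank_eq
  let a := smithNormalFormCoeffs b h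
  let b' := smithNormalFormTopBasis b h
  let ab := smithNormalFormBotBasis b h
  have ab_eq := smithNormalFormBotBasis_def b h
  let e' : (ι → O) ≃ₗ[O] N := b'.equiv ab (Equiv.refl _)
  let f : (ι → O) →ₗ[O] (ι → O) := N.subtype.comp (e' : (ι → O) →ₗ[O] N)
  have ha : ∀ i, f (b' i) = a i • b' i := by
    intro i
    change (N.subtype (b'.equiv ab (Equiv.refl _) (b' i))) = _
    rw [b'.equiv_apply, Equiv.refl_apply]
    exact ab_eq i
  have hdetf : LinearMap.det f = ∏ i, a i := by
    rw [← LinearMap.det_toMatrix b']
    have : LinearMap.toMatrix b' b' f = Matrix.diagonal a := by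
      ext i j
      rw [LinearMap.toMatrix_apply, ha, map_smul, Basis.repr_self, Finsupp.smul_single,
        smul_eq_mul, mul_one]
      by_cases hij : i = j
      · rw [hij, Matrix.diagonal_apply_eq, Finsupp.single_eq_same]
      · rw [Matrix.diagonal_apply_ne _ hij, Finsupp.single_eq_of_ne hij]
    rw [this, Matrix.det_diagonal]
  have hassoc : Associated γ.det (∏ i, a i) := by
    rw [← hdetf]
    have h1 : LinearMap.det (N.subtype.comp (e : (ι → O) →ₗ[O] N)) = γ.det := by
      have : N.subtype.comp (e : (ι → O) →ₗ[O] N) = Matrix.toLin' γ := by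
        ext v : 1
        rfl
      rw [this, LinearMap.det_toLin']
    rw [← h1]
    exact LinearMap.associated_det_comp_equiv _ _ _
  have hprod0 : ∏ i, a i ≠ 0 := fun h0 => hγ (by
    rw [h0] at hassoc; exact hassoc.eq_zero_iff.2 rfl) -- may need adjusting
  have ha0 : ∀ i, a i ≠ 0 := fun i hi => hprod0 (Finset.prod_eq_zero (Finset.mem_univ i) hi)
  have hlen := (N.quotientEquivPiSpan b h).length_eq
  rw [hlen, Module.length_pi_of_fintype, ← mltc_ord_prod Finset.univ a fun i _ => ha0 i]
  exact (Ring.ord_eq_of_associated hassoc).symm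

/-- A module generated by `ξ` subject to (at least) the relations given by the rows of a square
matrix `γ` with `det γ ≠ 0` has length at most `length (O / det γ)`. -/
theorem mltc_length_le_of_relations {Φ : Type*} [AddCommGroup Φ] [Module O Φ] {ι : Type*}
    [Fintype ι] [DecidableEq ι] (ξ : ι → Φ) (hspan : ∀ y : Φ, ∃ w : ι → O, y = ∑ j, w j • ξ j)
    (γ : Matrix ι ι O) (hγ : γ.det ≠ 0) (hrel : ∀ i, ∑ j, γ i j • ξ j = 0) :
    Module.length O Φ ≤ Module.length O (O ⧸ Ideal.span {γ.det}) := by
  classical
  let q : (ι → O) →ₗ[O] Φ := Fintype.linearCombination O ξ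
  have hq : ∀ w, q w = ∑ j, w j • ξ j := fun w => Fintype.linearCombination_apply O ξ w
  have hle : LinearMap.range γ.transpose.mulVecLin ≤ LinearMap.ker q := by
    rintro _ ⟨v, rfl⟩
    rw [LinearMap.mem_ker, hq]
    simp only [Matrix.mulVecLin_apply, Matrix.mulVec, dotProduct, Matrix.transpose_apply,
      Finset.sum_smul]
    rw [Finset.sum_comm]
    refine Finset.sum_eq_zero fun i _ => ?_
    have := hrel i
    calc ∑ j, (γ i j * v i) • ξ j = v i • ∑ j, γ i j • ξ j := by
          rw [Finset.smul_sum]
          refine Finset.sum_congr rfl fun j _ => ?_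
          rw [smul_smul, mul_comm]
      _ = 0 := by rw [this, smul_zero]
  let Q := Submodule.liftQ _ q hle
  have hQ : Function.Surjective Q := by
    intro y
    obtain ⟨w, rfl⟩ := hspan y
    exact ⟨Submodule.Quotient.mk w, by simp [Q, hq]⟩
  have h1 := Module.length_le_of_surjective Q hQ
  rw [mltc_length_coker γ.transpose (by rwa [Matrix.det_transpose]), Matrix.det_transpose] at h1
  exact h1

end Latt

end Fermat.Agent.MLT
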