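/-
MLT stream Crit (helper6): the bound `length Ω_H ≤ rank(H[p]) · length (O/η)`.
-/
import Fermat.Agent.Lib.MLT.Contracts.Crit
import Fermat.Agent.Lib.MLT.Crit.FinLen

set_option autoImplicit false
set_option linter.unusedSectionVars false
set_option linter.style.haveILetI false

namespace Fermat.Agent.MLT

universe u w x

open IsLocalRing

section Gen

variable {O : Type u} [CommRing O] [IsDomain O] [IsDiscreteValuationRing O]

/-- `length (M / c M) ≤ rank M · length (O/c)` for a finite free module `M`. -/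
theorem mltc_length_quot_smul_le {M : Type x} [AddCommGroup M] [Module O M] {d : ℕ}
    (b : Module.Basis (Fin d) O M) (c : O) :
    Module.length O (M ⧸ LinearMap.range (LinearMap.lsmul O M c)) ≤
      (d : ℕ∞) * Module.length O (O ⧸ Ideal.span {c}) := by
  classical
  set N := LinearMap.range (LinearMap.lsmul O M c) with hN
  have hker : ∀ i, Ideal.span {c} ≤
      LinearMap.ker (LinearMap.toSpanSingleton O (M ⧸ N) (N.mkQ (b i))) := by
    intro i
    rw [Ideal.span_le, Set.singleton_subset_iff]
    change c ∈ LinearMap.ker _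
    rw [LinearMap.mem_ker, LinearMap.toSpanSingleton_apply, ← map_smul, Submodule.mkQ_apply,
      Submodule.Quotient.mk_eq_zero]
    exact ⟨b i, rfl⟩
  let g : Fin d → (O ⧸ Ideal.span {c}) →ₗ[O] (M ⧸ N) := fun i =>
    Submodule.liftQ _ (LinearMap.toSpanSingleton O (M ⧸ N) (N.mkQ (b i))) (hker i)
  let G : (Fin d → O ⧸ Ideal.span {c}) →ₗ[O] (M ⧸ N) :=
    ∑ i, (g i).comp (LinearMap.proj i)
  have hG : Function.Surjective G := by
    intro y
    obtain ⟨m, rfl⟩ := Submodule.mkQ_surjective N y
    refine ⟨fun i => Submodule.Quotient.mk (b.repr m i), ?_⟩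
    simp only [G, LinearMap.sum_apply, LinearMap.comp_apply, LinearMap.proj_apply, g]
    conv_rhs => rw [← b.sum_repr m]
    rw [map_sum]
    refine Finset.sum_congr rfl fun i _ => ?_
    rw [map_smul]
    rfl
  calc Module.length O (M ⧸ N) ≤ Module.length O (Fin d → O ⧸ Ideal.span {c}) :=
        Module.length_le_of_surjective G hG
    _ = (d : ℕ∞) * Module.length O (O ⧸ Ideal.span {c}) := by
        rw [Module.length_pi_of_fintype]
        simp

end Gen

section Omega

variable {O : Type u} [CommRing O] [IsDomain O] [IsDiscreteValuationRing O]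
  {T : Type w} [CommRing T] [Algebra O T] [Module.Finite O T] [Module.Free O T]

/-- If `η ≠ 0`, the annihilator `I` of `p = ker π` is `O e` with `η = (π e)`. -/
theorem mltc_exists_gen_ann (π : T →ₐ[O] O) (hη : mltc_eta π ≠ ⊥) :
    ∃ e : T, (∀ t ∈ RingHom.ker π, e * t = 0) ∧ π e ≠ 0 ∧ mltc_eta π = Ideal.span {π e} ∧
      ∀ t : T, (∀ s ∈ RingHom.ker π, t * s = 0) → ∃ o : O, t = o • e := by
  have hsurj : Function.Surjective π := fun o => ⟨algebraMap O T o, by simp⟩
  obtain ⟨c₀, hc₀⟩ := (IsPrincipalIdealRing.principal (mltc_eta π)).principal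
  have hc₀' : mltc_eta π = Ideal.span {c₀} := hc₀
  have hc₀mem : c₀ ∈ mltc_eta π := by rw [hc₀']; exact Ideal.mem_span_singleton_self _
  obtain ⟨e, heI, hec⟩ := (Ideal.mem_map_iff_of_surjective π hsurj).1 hc₀mem
  rw [Submodule.mem_annihilator] at heI
  replace heI : ∀ n ∈ RingHom.ker π, e * n = 0 := fun n hn => by
    simpa [smul_eq_mul] using heI n hn
  have hc₀ne : c₀ ≠ 0 := by
    intro h0; apply hη; rw [hc₀', h0]; simp
  refine ⟨e, fun t ht => heI t ht, by rw [hec]; exact hc₀ne, by rw [hec]; exact hc₀', ?_⟩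
  intro t ht
  have htη : π t ∈ mltc_eta π := by
    apply Ideal.mem_map_of_mem
    rw [Submodule.mem_annihilator]
    exact ht
  rw [hc₀', Ideal.mem_span_singleton'] at htη
  obtain ⟨o, ho⟩ := htη
  refine ⟨o, ?_⟩
  -- `s := t - o • e` lies in `I ∩ ker π = 0`
  set s := t - o • e with hs
  have hsker : s ∈ RingHom.ker π := by
    rw [RingHom.mem_ker, hs, map_sub, map_smul, hec, smul_eq_mul, ho, sub_self]
  have hsI : ∀ r ∈ RingHom.ker π, s * r = 0 := by
    intro r hr
    rw [hs, sub_mul, ht r hr, smul_mul_assoc, heI r hr]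
    simp
  have h1 : e * s = 0 := heI s hsker
  have h2 : e - algebraMap O T c₀ ∈ RingHom.ker π := by
    rw [RingHom.mem_ker, map_sub, hec, AlgHom.commutes, Algebra.algebraMap_self_apply, sub_self]
  have h3 : s * (e - algebraMap O T c₀) = 0 := hsI _ h2
  have h4 : c₀ • s = 0 := by
    rw [Algebra.smul_def]
    have : algebraMap O T c₀ * s = e * s - s * (e - algebraMap O T c₀) := by ring
    rw [this, h1, h3, sub_zero]
  rcases smul_eq_zero.1 h4 with h | h
  · exact absurd h hc₀ne
  · exact sub_eq_zero.1 h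

variable {H : Type x} [AddCommGroup H] [Module O H] [Module T H] [IsScalarTower O T H]

theorem mltc_mem_torsP (π : T →ₐ[O] O) (y : H) :
    y ∈ mltc_torsP π H ↔ ∀ t ∈ RingHom.ker π, t • y = 0 := by
  simp only [mltc_torsP, Submodule.restrictScalars_mem, Submodule.mem_torsionBySet_iff]
  constructor
  · intro h t ht; exact h ⟨t, ht⟩
  · intro h t; exact h t.1 t.2

theorem mltc_mem_torsI (π : T →ₐ[O] O) (y : H) :
    y ∈ mltc_torsI π H ↔ ∀ t : T, (∀ s ∈ RingHom.ker π, t * s = 0) → t • y = 0 := by
  simp only [mltc_torsI, Submodule.restrictScalars_mem, Submodule.mem_torsionBySet_iff]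
  constructor
  · intro h t ht
    exact h ⟨t, by rw [SetLike.mem_coe, Submodule.mem_annihilator]; exact ht⟩
  · intro h t
    have := t.2
    rw [SetLike.mem_coe, Submodule.mem_annihilator] at this
    exact h t.1 this

/-- `length Ω_H ≤ d · length (O/η)`, `d = rank_O H[p] > 0`. -/
theorem mltc_omegaLen_le (π : T →ₐ[O] O) [Module.Finite O H] [Module.Free O H] (d : ℕ)
    (hd : Module.finrank O (mltc_torsP π H) = d) (hd0 : 0 < d) :
    mltc_omegaLen π H ≤ (d : ℕ∞) * Module.length O (O ⧸ mltc_eta π) := by
  classical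
  by_cases hη : mltc_eta π = ⊥
  · rw [hη]
    have e : (O ⧸ (⊥ : Ideal O)) ≃ₗ[O] O := Submodule.quotEquivOfEqBot ⊥ rfl
    rw [e.length_eq, mltc_length_self, ENat.mul_top (by exact_mod_cast hd0.ne')]
    exact le_top
  obtain ⟨e, he, hc, hηe, hgen⟩ := mltc_exists_gen_ann π hη
  set c : O := π e with hcdef
  set P := mltc_torsP π H with hP
  set Q := mltc_torsI π H with hQ
  set N : Submodule O ↥P := LinearMap.range (LinearMap.lsmul O ↥P c) with hN
  have heP : ∀ y ∈ P, e • y = c • y := by
    intro y hy
    have h1 : e - algebraMap O T c ∈ RingHom.ker π := by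
      rw [RingHom.mem_ker, map_sub, AlgHom.commutes, Algebra.algebraMap_self_apply, sub_self]
    have h2 := (mltc_mem_torsP π y).1 hy _ h1
    rw [sub_smul, algebraMap_smul, sub_eq_zero] at h2
    exact h2
  let f₀ : H →ₗ[O] ↥P := LinearMap.codRestrict P ((LinearMap.lsmul T H e).restrictScalars O)
    (fun x => by
      rw [mltc_mem_torsP]
      intro t ht
      change t • (e • x) = 0
      rw [smul_smul, mul_comm, he t ht, zero_smul])
  let f : H →ₗ[O] ↥P ⧸ N := N.mkQ.comp f₀
  have hf₀ : ∀ x, ((f₀ x : ↥P) : H) = e • x := fun x => rfl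
  have hker : LinearMap.ker f = P ⊔ Q := by
    apply le_antisymm
    · intro x hx
      rw [LinearMap.mem_ker, LinearMap.comp_apply, Submodule.mkQ_apply,
        Submodule.Quotient.mk_eq_zero] at hx
      obtain ⟨y, hy⟩ := hx
      have hy' : c • (y : H) = e • x := by
        have := congrArg (fun z : ↥P => (z : H)) hy
        simpa [hf₀] using this
      have hxy : x - (y : H) ∈ Q := by
        rw [mltc_mem_torsI]
        intro t ht
        obtain ⟨o, rfl⟩ := hgen t ht
        rw [smul_assoc, smul_sub, ← hy', heP y y.2, sub_self, smul_zero]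
      have : x = (y : H) + (x - (y : H)) := by abel
      rw [this]
      exact Submodule.add_mem_sup y.2 hxy
    · apply sup_le
      · intro y hy
        rw [LinearMap.mem_ker, LinearMap.comp_apply, Submodule.mkQ_apply,
          Submodule.Quotient.mk_eq_zero]
        refine ⟨⟨y, hy⟩, ?_⟩
        apply Subtype.ext
        rw [hf₀, heP y hy]
        rfl
      · intro z hz
        rw [LinearMap.mem_ker, LinearMap.comp_apply]
        have : f₀ z = 0 := by
          apply Subtype.ext
          rw [hf₀]
          exact (mltc_mem_torsI π z).1 hz e he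
        rw [this, map_zero]
  have hfree : Module.Free O ↥P := inferInstance
  have hfinP : Module.Finite O ↥P := inferInstance
  let b : Module.Basis (Fin d) O ↥P := Module.finBasisOfFinrankEq O ↥P hd
  have h1 : mltc_omegaLen π H = Module.length O (H ⧸ LinearMap.ker f) := by
    rw [mltc_omegaLen, hker]
  rw [h1, f.quotKerEquivRange.length_eq, hηe]
  exact (Module.length_le_of_injective (LinearMap.range f).subtype
    (Submodule.injective_subtype _)).trans (mltc_length_quot_smul_le b c)

end Omega

end Fermat.Agent.MLT
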