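/-
MLT stream Crit (helper6): in `k[[X_1..X_n]]`, if `g = a X` and `(g)` contains a power of every
variable, then `det a ∉ (g)` (the elementary half of Wiebe's theorem / Tate's formula).
-/
import Mathlib

set_option autoImplicit false
set_option linter.unusedSectionVars false

namespace Fermat.Agent.MLT

open MvPowerSeries Finsupp

section Mono

variable {k : Type*} [CommRing k] {σ : Type*} [DecidableEq σ]

/-- The ideal generated by the `N`-th powers of the variables in `S`. -/
noncomputable def mltc_powIdeal (k : Type*) [CommRing k] {σ : Type*} (N : ℕ) (S : Finset σ) :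
    Ideal (MvPowerSeries σ k) :=
  Ideal.span ((fun i => (X i : MvPowerSeries σ k) ^ N) '' (S : Set σ))

theorem mltc_powIdeal_mono {N : ℕ} {S S' : Finset σ} (h : S ⊆ S') :
    mltc_powIdeal k N S ≤ mltc_powIdeal k N S' :=
  Ideal.span_mono (Set.image_mono (by exact_mod_cast h))

theorem mltc_X_pow_mem {N : ℕ} {S : Finset σ} {i : σ} (hi : i ∈ S) :
    (X i : MvPowerSeries σ k) ^ N ∈ mltc_powIdeal k N S :=
  Ideal.subset_span ⟨i, by exact_mod_cast hi, rfl⟩

theorem mltc_powIdeal_coeff {N : ℕ} {S : Finset σ} {h : MvPowerSeries σ k}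
    (hh : h ∈ mltc_powIdeal k N S) (α : σ →₀ ℕ) (hα : coeff α h ≠ 0) : ∃ i ∈ S, N ≤ α i := by
  induction hh using Submodule.span_induction generalizing α with
  | mem x hx =>
    obtain ⟨i, hi, rfl⟩ := hx
    rw [coeff_X_pow] at hα
    have : α = single i N := by
      by_contra hne
      rw [if_neg hne] at hα
      exact hα rfl
    exact ⟨i, by exact_mod_cast hi, by rw [this, single_eq_same]⟩
  | zero => simp at hα
  | add x y _ _ hx hy =>
    rw [map_add] at hα
    by_cases h1 : coeff α x = 0
    · rw [h1, zero_add] at hα; exact hy α hα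
    · exact hx α h1
  | smul f x _ hx =>
    rw [smul_eq_mul, coeff_mul] at hα
    obtain ⟨p, hp, hne⟩ := Finset.exists_ne_zero_of_sum_ne_zero hα
    have h2 : coeff p.2 x ≠ 0 := right_ne_zero_of_mul hne
    obtain ⟨i, hi, hNi⟩ := hx p.2 h2
    refine ⟨i, hi, hNi.trans ?_⟩
    have := Finset.HasAntidiagonal.mem_antidiagonal.1 hp
    rw [← this]
    simp

theorem mltc_mem_powIdeal {N : ℕ} (S : Finset σ) (h : MvPowerSeries σ k)
    (hh : ∀ α, coeff α h ≠ 0 → ∃ i ∈ S, N ≤ α i) : h ∈ mltc_powIdeal k N S := by
  induction S using Finset.induction_on generalizing h with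
  | empty =>
    have : h = 0 := by
      ext α
      by_contra hne
      obtain ⟨i, hi, -⟩ := hh α hne
      simp at hi
    rw [this]; exact Ideal.zero_mem _
  | insert t S' ht ih =>
    let q : MvPowerSeries σ k := fun β => coeff (β + single t N) h
    have hq : ∀ α, coeff α (q * (X t) ^ N) = if N ≤ α t then coeff α h else 0 := by
      intro α
      rw [X_pow_eq, coeff_mul_monomial, mul_one]
      by_cases hle : N ≤ α t
      · have hle' : single t N ≤ α := by rw [single_le_iff]; exact hle
        rw [if_pos hle, if_pos hle']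
        change coeff (α - single t N + single t N) h = _
        rw [tsub_add_cancel_of_le hle']
      · have hle' : ¬ single t N ≤ α := by rw [single_le_iff]; exact hle
        rw [if_neg hle, if_neg hle']
    have h2 : h - q * (X t) ^ N ∈ mltc_powIdeal k N S' := by
      apply ih
      intro α hα
      rw [map_sub, hq] at hα
      by_cases hle : N ≤ α t
      · rw [if_pos hle, sub_self] at hα; exact absurd rfl hα
      · rw [if_neg hle, sub_zero] at hα
        obtain ⟨i, hi, hNi⟩ := hh α hα
        rcases Finset.mem_insert.1 hi with rfl | hi'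
        · exact absurd hNi hle
        · exact ⟨i, hi', hNi⟩
    have h1 : q * (X t) ^ N ∈ mltc_powIdeal k N (insert t S') :=
      Ideal.mul_mem_left _ _ (mltc_X_pow_mem (Finset.mem_insert_self t S'))
    have : h = q * (X t) ^ N + (h - q * (X t) ^ N) := by ring
    rw [this]
    exact Ideal.add_mem _ h1 (mltc_powIdeal_mono (Finset.subset_insert t S') h2)

theorem mltc_powIdeal_X_cancel {N : ℕ} {S : Finset σ} {t : σ} (ht : t ∉ S)
    {h : MvPowerSeries σ k} (hh : h * X t ∈ mltc_powIdeal k N S) : h ∈ mltc_powIdeal k N S := by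
  apply mltc_mem_powIdeal
  intro α hα
  have h1 : coeff (α + single t 1) (h * X t) = coeff α h := by
    rw [X_def, coeff_add_mul_monomial, mul_one]
  obtain ⟨i, hi, hNi⟩ := mltc_powIdeal_coeff hh (α + single t 1) (by rw [h1]; exact hα)
  refine ⟨i, hi, ?_⟩
  have hit : i ≠ t := fun h => ht (h ▸ hi)
  simpa [Finsupp.single_eq_of_ne hit] using hNi

theorem mltc_prod_X_pow (s : Finset σ) (m : ℕ) :
    ∏ j ∈ s, (X j : MvPowerSeries σ k) ^ m = monomial (∑ j ∈ s, single j m) 1 := by
  induction s using Finset.induction_on with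
  | empty => simp
  | insert a s ha ih =>
    rw [Finset.prod_insert ha, Finset.sum_insert ha, ih, X_pow_eq, monomial_mul_monomial, one_mul]

theorem mltc_prod_not_mem [Fintype σ] [Nontrivial k] {N : ℕ} (hN : 0 < N) :
    ∏ j, (X j : MvPowerSeries σ k) ^ (N - 1) ∉ mltc_powIdeal k N Finset.univ := by
  intro hmem
  rw [mltc_prod_X_pow] at hmem
  obtain ⟨i, -, hi⟩ := mltc_powIdeal_coeff hmem (∑ j, single j (N - 1))
    (by rw [coeff_monomial_same]; exact one_ne_zero)
  have : (∑ j : σ, single j (N - 1)) i = N - 1 := by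
    rw [Finsupp.finset_sum_apply]
    rw [Finset.sum_eq_single i]
    · simp
    · intro j _ hji; exact Finsupp.single_eq_of_ne hji.symm -- may need adjusting
    · intro h; exact absurd (Finset.mem_univ i) h
  omega

end Mono

section Det

variable {k : Type*} [CommRing k] {σ : Type*} [DecidableEq σ] [Fintype σ]

/-- If `M X = X^N` then `det M ≡ ∏ X_j^(N-1)` modulo `(X_1^N, …, X_n^N)`. -/
theorem mltc_det_congr {N : ℕ} (hN : 0 < N) (M : Matrix σ σ (MvPowerSeries σ k))
    (hM : ∀ i, ∑ j, M i j * X j = (X i) ^ N) :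
    M.det - ∏ j, (X j : MvPowerSeries σ k) ^ (N - 1) ∈ mltc_powIdeal k N Finset.univ := by
  classical
  let M₀ : Matrix σ σ (MvPowerSeries σ k) := Matrix.diagonal fun j => (X j) ^ (N - 1)
  have hM₀ : ∀ i, ∑ j, M₀ i j * X j = (X i) ^ N := by
    intro i
    rw [Finset.sum_eq_single i]
    · simp only [M₀, Matrix.diagonal_apply_eq]
      rw [← pow_succ, Nat.sub_add_cancel hN]
    · intro j _ hji
      simp [M₀, Matrix.diagonal_apply_ne _ hji.symm]
    · intro h; exact absurd (Finset.mem_univ i) h
  -- mixed matrices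
  let Ms : Finset σ → Matrix σ σ (MvPowerSeries σ k) := fun s i => if i ∈ s then M₀ i else M i
  have hMs : ∀ s i, ∑ j, Ms s i j * X j = (X i) ^ N := by
    intro s i
    by_cases hi : i ∈ s
    · simp only [Ms, if_pos hi]; exact hM₀ i
    · simp only [Ms, if_neg hi]; exact hM i
  have hstep : ∀ (s : Finset σ) (t : σ), t ∉ s →
      (Ms s).det - (Ms (insert t s)).det ∈ mltc_powIdeal k N Finset.univ := by
    intro s t ht
    have e1 : Ms s = Matrix.updateRow (Ms s) t (M t) := by
      ext i j
      by_cases hit : i = t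
      · subst hit; simp [Ms, ht]
      · simp [Matrix.updateRow_ne hit]
    have e2 : Ms (insert t s) = Matrix.updateRow (Ms s) t (M₀ t) := by
      ext i j
      by_cases hit : i = t
      · subst hit; simp [Ms]
      · simp [Matrix.updateRow_ne hit, Ms, Finset.mem_insert, hit]
    let Q := Matrix.updateRow (Ms s) t (M t - M₀ t)
    have hQdet : (Ms s).det - (Ms (insert t s)).det = Q.det := by
      have h := Matrix.det_updateRow_add (Ms s) t (M t - M₀ t) (M₀ t)
      rw [sub_add_cancel] at h
      have h1 : (Ms s).det = (Matrix.updateRow (Ms s) t (M t)).det := congrArg Matrix.det e1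
      have h2 : (Ms (insert t s)).det = (Matrix.updateRow (Ms s) t (M₀ t)).det :=
        congrArg Matrix.det e2
      rw [h1, h2, h]
      simp [Q]
    have hQX : ∀ i, (Q.mulVec fun j => X j) i = if i = t then 0 else (X i) ^ N := by
      intro i
      by_cases hit : i = t
      · subst hit
        simp only [Q, Matrix.mulVec, dotProduct, Matrix.updateRow_self, Pi.sub_apply, sub_mul,
          Finset.sum_sub_distrib, hM, hM₀, sub_self, if_true]
      · simp only [Q, Matrix.mulVec, dotProduct, Matrix.updateRow_ne hit, if_neg hit]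
        exact hMs s i
    have hcr : Q.det * X t = ∑ i, Q.adjugate t i * (Q.mulVec fun j => X j) i := by
      have h1 : (Q.adjugate * Q).mulVec (fun j => (X j : MvPowerSeries σ k)) =
          Q.adjugate.mulVec (Q.mulVec fun j => X j) := (Matrix.mulVec_mulVec _ _ _).symm
      rw [Matrix.adjugate_mul, Matrix.smul_mulVec, Matrix.one_mulVec] at h1
      have := congrFun h1 t
      simpa [Matrix.mulVec, dotProduct] using this
    have hmem : Q.det * X t ∈ mltc_powIdeal k N (Finset.univ.erase t) := by
      rw [hcr]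
      refine Ideal.sum_mem _ fun i _ => ?_
      rw [hQX]
      by_cases hit : i = t
      · rw [if_pos hit, mul_zero]; exact Ideal.zero_mem _
      · rw [if_neg hit]
        exact Ideal.mul_mem_left _ _ (mltc_X_pow_mem (Finset.mem_erase.2 ⟨hit, Finset.mem_univ i⟩))
    rw [hQdet]
    exact mltc_powIdeal_mono (Finset.erase_subset _ _)
      (mltc_powIdeal_X_cancel (Finset.notMem_erase t _) hmem)
  have hall : ∀ s : Finset σ, M.det - (Ms s).det ∈ mltc_powIdeal k N Finset.univ := by
    intro s
    induction s using Finset.induction_on with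
    | empty =>
      have : Ms ∅ = M := by ext i j; simp [Ms]
      rw [this, sub_self]; exact Ideal.zero_mem _
    | insert t s ht ih =>
      have : M.det - (Ms (insert t s)).det =
          (M.det - (Ms s).det) + ((Ms s).det - (Ms (insert t s)).det) := by ring
      rw [this]
      exact Ideal.add_mem _ ih (hstep s t ht)
  have hu : Ms Finset.univ = M₀ := by ext i j; simp [Ms]
  have := hall Finset.univ
  rw [hu, Matrix.det_diagonal] at this
  exact this

/-- **(W1)** If `g = a X` and every `X_j ^ N` lies in `(g)`, then `det a ∉ (g)`. -/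
theorem mltc_W1 [Nontrivial k] {N : ℕ} (hN : 0 < N) (g : σ → MvPowerSeries σ k)
    (a : Matrix σ σ (MvPowerSeries σ k)) (hg : ∀ i, g i = ∑ j, a i j * X j)
    (hX : ∀ j, (X j : MvPowerSeries σ k) ^ N ∈ Ideal.span (Set.range g)) :
    a.det ∉ Ideal.span (Set.range g) := by
  classical
  intro hdet
  choose b hb using fun i => (Ideal.mem_span_range_iff_exists_fun).1 (hX i)
  let B : Matrix σ σ (MvPowerSeries σ k) := Matrix.of b
  have hBg : ∀ i, ∑ l, B i l * g l = (X i) ^ N := hb
  have hM : ∀ i, ∑ j, (B * a) i j * X j = (X i) ^ N := by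
    intro i
    rw [← hBg i]
    simp only [Matrix.mul_apply, Finset.sum_mul]
    rw [Finset.sum_comm]
    refine Finset.sum_congr rfl fun l _ => ?_
    rw [hg l, Finset.mul_sum]
    refine Finset.sum_congr rfl fun j _ => ?_
    ring
  have h1 := mltc_det_congr hN (B * a) hM
  -- `det B * g l ∈ (X^N)`
  have hBdet : ∀ l, B.det * g l ∈ mltc_powIdeal k N Finset.univ := by
    intro l
    have h2 : (B.adjugate * B).mulVec g = B.adjugate.mulVec (B.mulVec g) :=
      (Matrix.mulVec_mulVec _ _ _).symm
    rw [Matrix.adjugate_mul, Matrix.smul_mulVec, Matrix.one_mulVec] at h2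
    have h3 := congrFun h2 l
    simp only [Pi.smul_apply, smul_eq_mul, Matrix.mulVec, dotProduct] at h3
    rw [h3]
    refine Ideal.sum_mem _ fun i _ => ?_
    rw [hBg i]
    exact Ideal.mul_mem_left _ _ (mltc_X_pow_mem (Finset.mem_univ i))
  obtain ⟨c, hc⟩ := (Ideal.mem_span_range_iff_exists_fun).1 hdet
  have h4 : (B * a).det ∈ mltc_powIdeal k N Finset.univ := by
    rw [Matrix.det_mul, ← hc, Finset.mul_sum]
    refine Ideal.sum_mem _ fun l _ => ?_
    rw [mul_left_comm]
    exact Ideal.mul_mem_left _ _ (hBdet l)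
  have h5 : ∏ j, (X j : MvPowerSeries σ k) ^ (N - 1) ∈ mltc_powIdeal k N Finset.univ := by
    have := Ideal.sub_mem _ h4 h1
    simpa using this
  exact mltc_prod_not_mem hN h5

end Det

end Fermat.Agent.MLT
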