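/-
MLT stream Crit (helper6): Tate's formula for `T = O[[X_1..X_r]]/(g_1..g_r)` finite free over `O`,
centered case (`π (ψ X_j) = 0`).
-/
import Fermat.Agent.Lib.MLT.Crit.Fin
import Fermat.Agent.Lib.MLT.Crit.Omega
import Fermat.Agent.Lib.MLT.Crit.W1
import Fermat.Agent.Lib.MLT.Crit.Latt

set_option autoImplicit false
set_option linter.unusedSectionVars false
set_option linter.style.haveILetI false

namespace Fermat.Agent.MLT

universe u w

open IsLocalRing MvPowerSeries

section PS

variable {k : Type*} [CommRing k] {σ : Type*} [Fintype σ] [DecidableEq σ]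

/-- A power series with zero constant coefficient is a combination of the variables. -/
theorem mltc_exists_eq_sum_X (h : MvPowerSeries σ k) (h0 : constantCoeff h = 0) :
    ∃ q : σ → MvPowerSeries σ k, h = ∑ j, q j * X j := by
  have hmem : h ∈ mltc_powIdeal k 1 (Finset.univ : Finset σ) := by
    apply mltc_mem_powIdeal
    intro α hα
    have hα0 : α ≠ 0 := by
      rintro rfl
      exact hα (by rwa [coeff_zero_eq_constantCoeff_apply])
    obtain ⟨i, hi⟩ : ∃ i, α i ≠ 0 := by
      by_contra hno
      apply hα0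
      ext i
      by_contra hi
      exact hno ⟨i, hi⟩
    exact ⟨i, Finset.mem_univ i, Nat.one_le_iff_ne_zero.2 hi⟩
  have hset : ((fun i => (X i : MvPowerSeries σ k) ^ 1) '' ((Finset.univ : Finset σ) : Set σ)) =
      Set.range fun i => (X i : MvPowerSeries σ k) := by
    ext y; simp
  rw [mltc_powIdeal, hset] at hmem
  obtain ⟨q, hq⟩ := (Ideal.mem_span_range_iff_exists_fun).1 hmem
  exact ⟨q, hq.symm⟩

end PS

section Centered

variable {O : Type u} [CommRing O] [IsDomain O] [IsDiscreteValuationRing O] {r : ℕ}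
  {T : Type w} [CommRing T] [Algebra O T] [Module.Finite O T] [Module.Free O T]

/-- Centered presentation data: generators `u` of `ker π`, a relation matrix `ρ` over `T` with
`ρ u = 0` and `det ρ ∉ 𝔪_O T`. -/
theorem mltc_base_centered_data (ψ : MvPowerSeries (Fin r) O →ₐ[O] T)
    (g : Fin r → MvPowerSeries (Fin r) O) (hψ : Function.Surjective ψ)
    (hker : RingHom.ker ψ = Ideal.span (Set.range g)) (π : T →ₐ[O] O)
    (hc : ∀ j, π (ψ (X j)) = 0) :
    ∃ (u : Fin r → T) (ρ : Matrix (Fin r) (Fin r) T),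
      Ideal.span (Set.range u) = RingHom.ker π ∧ ρ.mulVec u = 0 ∧
      ρ.det ∉ Ideal.map (algebraMap O T) (maximalIdeal O) := by
  classical
  let ε : MvPowerSeries (Fin r) O →ₐ[O] O := π.comp ψ
  have hεX : ∀ j, ε (X j) = 0 := hc
  have hε : ∀ h : MvPowerSeries (Fin r) O, ε h = constantCoeff h := by
    intro h
    have h1 : constantCoeff (h - C (constantCoeff h)) = 0 := by simp
    obtain ⟨q, hq⟩ := mltc_exists_eq_sum_X _ h1
    have h2 : h = C (constantCoeff h) + ∑ j, q j * X j := by rw [← hq]; ring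
    conv_lhs => rw [h2]
    rw [map_add, map_sum, c_eq_algebraMap, AlgHom.commutes, Algebra.algebraMap_self_apply]
    rw [Finset.sum_eq_zero, add_zero]
    intro j _
    rw [map_mul, hεX, mul_zero]
  have hg0 : ∀ i, constantCoeff (g i) = 0 := by
    intro i
    rw [← hε]
    have : g i ∈ RingHom.ker ψ := by rw [hker]; exact Ideal.subset_span ⟨i, rfl⟩
    change π (ψ (g i)) = 0
    rw [RingHom.mem_ker.1 this, map_zero]
  choose a ha using fun i => mltc_exists_eq_sum_X (g i) (hg0 i)
  let aM : Matrix (Fin r) (Fin r) (MvPowerSeries (Fin r) O) := Matrix.of a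
  let u : Fin r → T := fun j => ψ (X j)
  have hu : Ideal.span (Set.range u) = RingHom.ker π := by
    apply le_antisymm
    · rw [Ideal.span_le]; rintro _ ⟨j, rfl⟩; exact hc j
    · intro t ht
      obtain ⟨h, rfl⟩ := hψ t
      have h0 : constantCoeff h = 0 := by rw [← hε]; exact ht
      obtain ⟨q, hq⟩ := mltc_exists_eq_sum_X h h0
      rw [hq, map_sum]
      refine Ideal.sum_mem _ fun j _ => ?_
      rw [map_mul]
      exact Ideal.mul_mem_left _ _ (Ideal.subset_span ⟨j, rfl⟩)
  let ρ : Matrix (Fin r) (Fin r) T := aM.map ψ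
  have hρu : ρ.mulVec u = 0 := by
    funext i
    have hgi : ψ (g i) = 0 := by
      have : g i ∈ RingHom.ker ψ := by rw [hker]; exact Ideal.subset_span ⟨i, rfl⟩
      exact this
    simp only [Matrix.mulVec, dotProduct, ρ, Matrix.map_apply, aM, Matrix.of_apply, u,
      Pi.zero_apply]
    rw [← hgi, ha i, map_sum]
    refine Finset.sum_congr rfl fun j _ => ?_
    rw [map_mul]
  refine ⟨u, ρ, hu, hρu, ?_⟩
  -- `det ρ ∉ 𝔪_O T` by (W1)
  haveI : Nontrivial T := π.toRingHom.domain_nontrivial
  haveI : IsLocalRing T := IsLocalRing.of_surjective' (ψ : MvPowerSeries (Fin r) O →+* T) hψ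
  obtain ⟨ϖ, hϖ⟩ := IsDiscreteValuationRing.exists_irreducible O
  have hmap : Ideal.map (algebraMap O T) (maximalIdeal O) = Ideal.span {algebraMap O T ϖ} := by
    rw [hϖ.maximalIdeal_eq, Ideal.map_span, Set.image_singleton]
  let red : MvPowerSeries (Fin r) O →+* MvPowerSeries (Fin r) (ResidueField O) :=
    MvPowerSeries.map (residue O)
  let gbar : Fin r → MvPowerSeries (Fin r) (ResidueField O) := fun i => red (g i)
  -- an element of `T` in `𝔪_O T` lifts to `(g) + ϖ A`, hence reduces into `(ḡ)`
  have hred : ∀ h : MvPowerSeries (Fin r) O,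
      ψ h ∈ Ideal.map (algebraMap O T) (maximalIdeal O) → red h ∈ Ideal.span (Set.range gbar) := by
    intro h hh
    rw [hmap, Ideal.mem_span_singleton'] at hh
    obtain ⟨t, ht⟩ := hh
    obtain ⟨h', rfl⟩ := hψ t
    have h1 : h - h' * C ϖ ∈ RingHom.ker ψ := by
      rw [RingHom.mem_ker, map_sub, map_mul, c_eq_algebraMap, AlgHom.commutes, ht, sub_self]
    rw [hker] at h1
    have h2 : red (h - h' * C ϖ) ∈ Ideal.span (Set.range gbar) := by
      have := Ideal.mem_map_of_mem red h1
      rw [Ideal.map_span, ← Set.range_comp] at this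
      exact this
    have h3 : red (h - h' * C ϖ) = red h := by
      rw [map_sub, map_mul, MvPowerSeries.map_C]
      have : residue O ϖ = 0 := by
        rw [IsLocalRing.residue_eq_zero_iff, hϖ.maximalIdeal_eq]
        exact Ideal.mem_span_singleton_self ϖ
      rw [this, map_zero, mul_zero, sub_zero]
    rwa [h3] at h2
  -- powers of the variables
  obtain ⟨M, hM⟩ := mltc_exists_pow_le (O := O) (T := T)
  have hXpow : ∀ j, (X j : MvPowerSeries (Fin r) (ResidueField O)) ^ (M + 1) ∈
      Ideal.span (Set.range gbar) := by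
    intro j
    have h1 : ψ (X j) ∈ maximalIdeal T :=
      IsLocalRing.le_maximalIdeal (RingHom.ker_ne_top π) (hc j)
    have h2 : ψ ((X j) ^ M) ∈ Ideal.map (algebraMap O T) (maximalIdeal O) := by
      rw [map_pow]; exact hM (Ideal.pow_mem_pow h1 M)
    have h3 := hred _ h2
    rw [map_pow, MvPowerSeries.map_X] at h3
    rw [pow_succ]
    exact Ideal.mul_mem_right _ _ h3
  let abar : Matrix (Fin r) (Fin r) (MvPowerSeries (Fin r) (ResidueField O)) := aM.map red
  have hgbar : ∀ i, gbar i = ∑ j, abar i j * X j := by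
    intro i
    change red (g i) = _
    rw [ha i, map_sum]
    refine Finset.sum_congr rfl fun j _ => ?_
    rw [map_mul, MvPowerSeries.map_X]
    rfl
  have hW1 := mltc_W1 (Nat.succ_pos M) gbar abar hgbar hXpow
  intro hmem
  apply hW1
  have h4 : ρ.det = ψ aM.det := by
    rw [AlgHom.map_det]; rfl
  rw [h4] at hmem
  have h5 := hred _ hmem
  have h6 : red aM.det = abar.det := by
    rw [RingHom.map_det]; rfl
  rwa [h6] at h5

/-- `T` acts on the cotangent space at `π` through `π`. -/
theorem mltc_cot_smul (π : T →ₐ[O] O) (t : T) (ξ : (RingHom.ker π).Cotangent) :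
    t • ξ = (π t) • ξ := by
  have h1 : t - algebraMap O T (π t) ∈ RingHom.ker π := by
    rw [RingHom.mem_ker, map_sub, AlgHom.commutes, Algebra.algebraMap_self_apply, sub_self]
  have h2 := Ideal.Cotangent.smul_eq_zero_of_mem h1 ξ
  rw [sub_smul, algebraMap_smul, sub_eq_zero] at h2
  exact h2

/-- Tate's inequality from abstract presentation data. -/
theorem mltc_tate_abs (π : T →ₐ[O] O) {ι : Type*} [Fintype ι] [DecidableEq ι] (u : ι → T)
    (ρ : Matrix ι ι T) (hu : Ideal.span (Set.range u) = RingHom.ker π) (hρu : ρ.mulVec u = 0)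
    (hnot : ρ.det ∉ Ideal.map (algebraMap O T) (maximalIdeal O)) :
    mltc_phiLen π ≤ Module.length O (O ⧸ mltc_eta π) := by
  classical
  have hkill : ∀ t ∈ RingHom.ker π, ρ.det * t = 0 := fun t ht =>
    mltc_det_kills u ρ hρu t (by rw [hu]; exact ht)
  by_cases hη : mltc_eta π = ⊥
  · rw [hη]
    have e : (O ⧸ (⊥ : Ideal O)) ≃ₗ[O] O := Submodule.quotEquivOfEqBot ⊥ rfl
    rw [e.length_eq, mltc_length_self]
    exact le_top
  obtain ⟨e, he, hc, hηe, hgen⟩ := mltc_exists_gen_ann π hη
  obtain ⟨o, ho⟩ := hgen ρ.det hkill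
  have hou : IsUnit o := by
    by_contra hnu
    apply hnot
    rw [ho, Algebra.smul_def]
    exact Ideal.mul_mem_right _ _
      (Ideal.mem_map_of_mem _ ((IsLocalRing.mem_maximalIdeal _).2 hnu))
  let γ : Matrix ι ι O := ρ.map π
  have hγdet : γ.det = o * π e := by
    have h1 : π ρ.det = γ.det := by rw [AlgHom.map_det]; rfl
    rw [← h1, ho, map_smul, smul_eq_mul]
  have hγ0 : γ.det ≠ 0 := by
    rw [hγdet]; exact mul_ne_zero hou.ne_zero hc
  have hlen : Module.length O (O ⧸ mltc_eta π) = Module.length O (O ⧸ Ideal.span {γ.det}) := by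
    rw [hηe]
    have hassoc : Associated (π e) γ.det := by
      rw [hγdet, mul_comm]
      exact (associated_mul_unit_right (π e) o hou)
    exact Ring.ord_eq_of_associated hassoc
  rw [hlen]
  have hup : ∀ j, u j ∈ RingHom.ker π := fun j => by rw [← hu]; exact Ideal.subset_span ⟨j, rfl⟩
  let u' : ι → ↥(RingHom.ker π) := fun j => ⟨u j, hup j⟩
  let ξ : ι → (RingHom.ker π).Cotangent := fun j => (RingHom.ker π).toCotangent (u' j)
  refine mltc_length_le_of_relations ξ ?_ γ hγ0 ?_
  · intro y
    obtain ⟨⟨z, hz⟩, rfl⟩ := Ideal.toCotangent_surjective _ y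
    have hz' : z ∈ Ideal.span (Set.range u) := by rw [hu]; exact hz
    obtain ⟨t, ht⟩ := (Ideal.mem_span_range_iff_exists_fun).1 hz'
    refine ⟨fun j => π (t j), ?_⟩
    have h1 : (⟨z, hz⟩ : ↥(RingHom.ker π)) = ∑ j, t j • u' j := by
      apply Subtype.ext
      change z = _
      rw [← ht]
      simp [u', Submodule.coe_sum]
    rw [h1, map_sum]
    refine Finset.sum_congr rfl fun j _ => ?_
    rw [map_smul, mltc_cot_smul]
  · intro i
    have h1 : ∑ j, ρ i j • u' j = 0 := by
      apply Subtype.ext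
      have := congrFun hρu i
      simp only [Matrix.mulVec, dotProduct, Pi.zero_apply] at this
      simpa [u', Submodule.coe_sum] using this
    have h2 := congrArg (RingHom.ker π).toCotangent h1
    rw [map_sum, map_zero] at h2
    rw [← h2]
    refine Finset.sum_congr rfl fun j _ => ?_
    rw [map_smul, mltc_cot_smul]
    rfl

end Centered

end Fermat.Agent.MLT
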