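/-
MLT stream Crit (helper6): `length Ω_H = d · length (O/η)` for `H` free of rank `d` over `T`,
provided `Ann_T (ker π) ≠ 0`.
-/
import Fermat.Agent.Lib.MLT.Crit.Omega

set_option autoImplicit false
set_option linter.unusedSectionVars false
set_option linter.style.haveILetI false

namespace Fermat.Agent.MLT

universe u w x

section OmegaFree

variable {O : Type u} [CommRing O] [IsDomain O] [IsDiscreteValuationRing O]
  {T : Type w} [CommRing T] [Algebra O T] [Module.Finite O T] [Module.Free O T]
  {H : Type x} [AddCommGroup H] [Module O H] [Module T H] [IsScalarTower O T H]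

theorem mltc_omegaLen_free (π : T →ₐ[O] O) (D : T) (hD0 : D ≠ 0)
    (hD : ∀ t ∈ RingHom.ker π, D * t = 0) {d : ℕ} (b : Module.Basis (Fin d) T H) :
    mltc_omegaLen π H = (d : ℕ∞) * Module.length O (O ⧸ mltc_eta π) := by
  classical
  have hsurjπ : Function.Surjective π := fun o => ⟨algebraMap O T o, by simp⟩
  -- `Ann (Ann p) ⊆ p`
  have hAnnI : ∀ t : T, (∀ s : T, (∀ r ∈ RingHom.ker π, s * r = 0) → t * s = 0) →
      t ∈ RingHom.ker π := by
    intro t ht
    have h1 : t * D = 0 := ht D hD
    have h2 : t - algebraMap O T (π t) ∈ RingHom.ker π := by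
      rw [RingHom.mem_ker, map_sub, AlgHom.commutes, Algebra.algebraMap_self_apply, sub_self]
    have h3 : D * (t - algebraMap O T (π t)) = 0 := hD _ h2
    have h4 : (π t) • D = 0 := by
      rw [Algebra.smul_def]
      have : algebraMap O T (π t) * D = t * D - D * (t - algebraMap O T (π t)) := by ring
      rw [this, h1, h3, sub_zero]
    rcases smul_eq_zero.1 h4 with h | h
    · exact h
    · exact absurd h hD0
  -- the submodule `K = I + p` of `T`
  let πη : T →ₗ[O] O ⧸ mltc_eta π := (Submodule.mkQ (mltc_eta π)).comp π.toLinearMap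
  have hπη : Function.Surjective πη := fun y => by
    obtain ⟨o, rfl⟩ := Submodule.mkQ_surjective _ y
    obtain ⟨t, rfl⟩ := hsurjπ o
    exact ⟨t, rfl⟩
  let K : Submodule O T := LinearMap.ker πη
  have hKmem : ∀ t, t ∈ K ↔ π t ∈ mltc_eta π := by
    intro t
    simp only [K, πη, LinearMap.mem_ker, LinearMap.comp_apply, Submodule.mkQ_apply,
      Submodule.Quotient.mk_eq_zero, AlgHom.toLinearMap_apply]
  have hKsplit : ∀ t ∈ K, ∃ s t₀ : T, (∀ r ∈ RingHom.ker π, s * r = 0) ∧
      t₀ ∈ RingHom.ker π ∧ t = s + t₀ := by
    intro t ht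
    rw [hKmem] at ht
    obtain ⟨s, hs, hst⟩ := (Ideal.mem_map_iff_of_surjective π hsurjπ).1 ht
    rw [Submodule.mem_annihilator] at hs
    refine ⟨s, t - s, fun r hr => by simpa [smul_eq_mul] using hs r hr, ?_, by ring⟩
    rw [RingHom.mem_ker, map_sub, hst, sub_self]
  have hlenK : Module.length O (T ⧸ K) = Module.length O (O ⧸ mltc_eta π) :=
    (πη.quotKerEquivOfSurjective hπη).length_eq
  -- the map `H → (T/K)^d`
  let F : H →ₗ[O] (Fin d → T ⧸ K) :=
    LinearMap.pi fun i => K.mkQ.comp ((b.coord i).restrictScalars O)
  have hF : ∀ x i, F x i = K.mkQ (b.repr x i) := fun x i => rfl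
  have hFsurj : Function.Surjective F := by
    intro f
    choose t ht using fun i => Submodule.mkQ_surjective K (f i)
    refine ⟨∑ i, t i • b i, ?_⟩
    funext i
    rw [hF, ← ht i]
    congr 1
    rw [b.repr_sum_self]
  have hker : LinearMap.ker F = mltc_torsP π H ⊔ mltc_torsI π H := by
    apply le_antisymm
    · intro x hx
      have hx' : ∀ i, b.repr x i ∈ K := by
        intro i
        have := congrFun (LinearMap.mem_ker.1 hx) i
        rw [hF, Pi.zero_apply, Submodule.mkQ_apply, Submodule.Quotient.mk_eq_zero] at this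
        exact this
      choose s t₀ hs ht₀ hst using fun i => hKsplit _ (hx' i)
      have hxsum : x = ∑ i, s i • b i + ∑ i, t₀ i • b i := by
        rw [← Finset.sum_add_distrib]
        conv_lhs => rw [← b.sum_repr x]
        refine Finset.sum_congr rfl fun i _ => ?_
        rw [hst i, add_smul]
      rw [hxsum]
      apply Submodule.add_mem_sup
      · rw [mltc_mem_torsP]
        intro r hr
        rw [Finset.smul_sum]
        refine Finset.sum_eq_zero fun i _ => ?_
        rw [smul_smul, mul_comm, hs i r hr, zero_smul]
      · rw [mltc_mem_torsI]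
        intro t ht
        rw [Finset.smul_sum]
        refine Finset.sum_eq_zero fun i _ => ?_
        rw [smul_smul, ht _ (ht₀ i), zero_smul]
    · apply sup_le
      · intro x hx
        rw [mltc_mem_torsP] at hx
        rw [LinearMap.mem_ker]
        funext i
        rw [hF, Pi.zero_apply, Submodule.mkQ_apply, Submodule.Quotient.mk_eq_zero, hKmem]
        apply Ideal.mem_map_of_mem
        rw [Submodule.mem_annihilator]
        intro r hr
        have h1 := hx r hr
        have h2 : b.repr (r • x) i = 0 := by rw [h1, map_zero]; rfl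
        rw [map_smul] at h2
        simpa [smul_eq_mul, mul_comm] using h2
      · intro x hx
        rw [mltc_mem_torsI] at hx
        rw [LinearMap.mem_ker]
        funext i
        rw [hF, Pi.zero_apply, Submodule.mkQ_apply, Submodule.Quotient.mk_eq_zero, hKmem]
        have hp : b.repr x i ∈ RingHom.ker π := by
          apply hAnnI
          intro s hs
          have h1 := hx s hs
          have h2 : b.repr (s • x) i = 0 := by rw [h1, map_zero]; rfl
          rw [map_smul] at h2
          simpa [smul_eq_mul, mul_comm] using h2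
        rw [RingHom.mem_ker.1 hp]
        exact Ideal.zero_mem _
  rw [mltc_omegaLen, ← hker, (F.quotKerEquivOfSurjective hFsurj).length_eq,
    Module.length_pi_of_fintype, hlenK]
  simp

end OmegaFree

end Fermat.Agent.MLT
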