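/-
MLT stream Crit (helper6): translation automorphisms `X_j ↦ X_j + c_j` (`c_j ∈ 𝔪_O`) of
`O[[X]]` for an adically complete local ring `O`.
-/
import Mathlib

set_option autoImplicit false
set_option linter.unusedSectionVars false
set_option linter.style.haveILetI false

namespace Fermat.Agent.MLT

open MvPowerSeries

section Shift

variable {O : Type*} [CommRing O] [IsLocalRing O]
  [IsAdicComplete (IsLocalRing.maximalIdeal O) O] {σ : Type*} [Finite σ]

open scoped MvPowerSeries.WithPiTopology in
theorem mltc_shift_exists (c : σ → O) (hc : ∀ j, c j ∈ IsLocalRing.maximalIdeal O) :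
    ∃ τ : MvPowerSeries σ O ≃ₐ[O] MvPowerSeries σ O, ∀ j, τ (X j) = X j + C (c j) := by
  classical
  letI : WithIdeal O := ⟨IsLocalRing.maximalIdeal O⟩
  have hadic : IsAdic (IsLocalRing.maximalIdeal O) := rfl
  obtain ⟨hcomp, ht2⟩ := hadic.isAdicComplete_iff.1 inferInstance
  haveI := hcomp
  haveI := ht2
  -- the families `X j ± C (c j)` can be evaluated
  have hev : ∀ c' : σ → O, (∀ j, c' j ∈ IsLocalRing.maximalIdeal O) →
      HasEval (fun j => (X j + C (c' j) : MvPowerSeries σ O)) := by
    intro c' hc'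
    refine ⟨fun j => ?_, ?_⟩
    · apply MvPowerSeries.LinearTopology.isTopologicallyNilpotent_of_constantCoeff
      rw [map_add, constantCoeff_X, constantCoeff_C, zero_add]
      exact WithIdeal.isTopologicallyNilpotent_of_mem (hc' j)
    · rw [Filter.cofinite_eq_bot]; exact Filter.tendsto_bot
  let τ : ∀ c' : σ → O, (∀ j, c' j ∈ IsLocalRing.maximalIdeal O) →
      (MvPowerSeries σ O →ₐ[O] MvPowerSeries σ O) := fun c' hc' => aeval (hev c' hc')
  have hτX : ∀ c' hc' j, τ c' hc' (X j) = X j + C (c' j) := by
    intro c' hc' j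
    have h := coe_aeval (R := O) (hev c' hc')
    change (aeval (hev c' hc')) (X j) = _
    have h2 := congrFun h (X j)
    rw [h2, eval₂_X]
  have hcongr : ∀ {a a' : σ → MvPowerSeries σ O} (h : a = a') (ha : HasEval a)
      (ha' : HasEval a'),
      (aeval ha : MvPowerSeries σ O →ₐ[O] MvPowerSeries σ O) = aeval ha' := by
    intro a a' h ha ha'
    subst h
    rfl
  have hcomp : ∀ c' hc' hnc', (τ (fun j => - c' j) hnc').comp (τ c' hc') =
      AlgHom.id O (MvPowerSeries σ O) := by
    intro c' hc' hnc'
    have hcont : Continuous (τ (fun j => - c' j) hnc') := continuous_aeval _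
    have h1 := comp_aeval (hev c' hc') hcont
    have h2 := aeval_unique (σ := σ) (R := O) (ε := AlgHom.id O (MvPowerSeries σ O))
      continuous_id
    rw [← h2]
    refine h1.trans (hcongr ?_ _ _)
    funext j
    change τ (fun j => - c' j) hnc' (X j + C (c' j)) = X j
    rw [map_add, hτX (fun j => - c' j) hnc' j, c_eq_algebraMap, AlgHom.commutes, ← c_eq_algebraMap]
    simp
  have hneg : ∀ j, - c j ∈ IsLocalRing.maximalIdeal O := fun j => Ideal.neg_mem_iff _ |>.2 (hc j)
  refine ⟨AlgEquiv.ofAlgHom (τ c hc) (τ (fun j => - c j) hneg) ?_ (hcomp c hc hneg), fun j => ?_⟩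
  · have := hcomp (fun j => - c j) hneg (by simpa using hc)
    simpa using this
  · exact hτX c hc j

end Shift

end Fermat.Agent.MLT
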