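/-
MLT stream Crit (helper6): proof of `MltCritBaseContract` (Tate's formula for the `S57`
presentation).
-/
import Fermat.Agent.Lib.MLT.Crit.Base
import Fermat.Agent.Lib.MLT.Crit.OmegaFree
import Fermat.Agent.Lib.MLT.Crit.Shift

set_option autoImplicit false
set_option linter.style.haveILetI false

namespace Fermat.Agent.MLT

universe u w x

open IsLocalRing MvPowerSeries

/-- **Base case: Tate's formula.** -/
theorem mltc_base : MltCritBaseContract.{u, w, x} := by
  intro O _ _ _ _ r T _ _ _ _ ψ g hψ hker π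
  classical
  let c : Fin r → O := fun j => π (ψ (X j))
  have hc : ∀ j, c j ∈ maximalIdeal O := by
    intro j
    rw [IsLocalRing.mem_maximalIdeal, mem_nonunits_iff]
    intro hunit
    have h1 : IsUnit ((X j : MvPowerSeries (Fin r) O) - C (c j)) := by
      rw [MvPowerSeries.isUnit_iff_constantCoeff, map_sub, constantCoeff_X, constantCoeff_C,
        zero_sub]
      exact hunit.neg
    have h2 := (h1.map ψ).map π
    rw [map_sub, map_sub, c_eq_algebraMap, AlgHom.commutes, AlgHom.commutes,
      Algebra.algebraMap_self_apply, sub_self] at h2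
    exact not_isUnit_zero h2
  obtain ⟨τ, hτ⟩ := mltc_shift_exists (fun j => - c j)
    (fun j => (Ideal.neg_mem_iff _).2 (hc j))
  let ψ' : MvPowerSeries (Fin r) O →ₐ[O] T := ψ.comp (τ : _ →ₐ[O] _)
  have hψ' : Function.Surjective ψ' := hψ.comp τ.surjective
  let g' : Fin r → MvPowerSeries (Fin r) O := fun i => τ.symm (g i)
  have hker' : RingHom.ker ψ' = Ideal.span (Set.range g') := by
    ext h
    have h1 : h ∈ RingHom.ker ψ' ↔ τ h ∈ Ideal.span (Set.range g) := by
      rw [← hker, RingHom.mem_ker, RingHom.mem_ker]; rfl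
    rw [h1]
    constructor
    · intro hh
      have h2 := Ideal.mem_map_of_mem (τ.symm : _ →ₐ[O] MvPowerSeries (Fin r) O) hh
      rw [Ideal.map_span, ← Set.range_comp] at h2
      have h3 : (τ.symm : _ →ₐ[O] MvPowerSeries (Fin r) O) (τ h) = h := τ.symm_apply_apply h
      rw [h3] at h2
      exact h2
    · intro hh
      have h2 := Ideal.mem_map_of_mem (τ : _ →ₐ[O] MvPowerSeries (Fin r) O) hh
      rw [Ideal.map_span, ← Set.range_comp] at h2
      have h3 : ((τ : _ →ₐ[O] MvPowerSeries (Fin r) O) ∘ g') = g := by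
        funext i
        exact τ.apply_symm_apply (g i)
      rw [h3] at h2
      exact h2
  have hc' : ∀ j, π (ψ' (X j)) = 0 := by
    intro j
    change π (ψ (τ (X j))) = 0
    rw [hτ, map_add, map_add, c_eq_algebraMap, AlgHom.commutes, AlgHom.commutes,
      Algebra.algebraMap_self_apply]
    simp [c]
  obtain ⟨u, ρ, hu, hρu, hnot⟩ := mltc_base_centered_data ψ' g' hψ' hker' π hc'
  have hD0 : ρ.det ≠ 0 := fun h0 => hnot (by rw [h0]; exact Ideal.zero_mem _)
  have hkill : ∀ t ∈ RingHom.ker π, ρ.det * t = 0 := fun t ht =>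
    mltc_det_kills u ρ hρu t (by rw [hu]; exact ht)
  haveI : Nontrivial T := π.toRingHom.domain_nontrivial
  haveI : IsLocalRing T := IsLocalRing.of_surjective' (ψ : MvPowerSeries (Fin r) O →+* T) hψ
  haveI : IsNoetherianRing T :=
    isNoetherianRing_of_surjective _ T (ψ : MvPowerSeries (Fin r) O →+* T) hψ
  refine ⟨le_antisymm (mltc_tate_abs π u ρ hu hρu hnot) ?_, ?_⟩
  · have := mltc_length_eta_le_phiLen (AlgHom.id O T) Function.surjective_id π
    rwa [AlgHom.comp_id] at this
  · intro H _ _ _ _ d hb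
    obtain ⟨b⟩ := hb
    exact mltc_omegaLen_free π ρ.det hD0 hkill b

end Fermat.Agent.MLT
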