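/-
MLT stream Crit/Frob (helper6), part 1: **the Boston–Lenstra–Ribet lemma over a domain**.

`A` a domain with `2 ≠ 0`, `Y` a flat `A`-module with an `A`-linear action `gY` of a group `G`,
`r : G → GL₂(A)` a representation such that every `g` is killed on `Y` by the characteristic polynomial
of `r g`, some `c` with `r c = diag(1, -1)` and `g₁, g₂` with non-zero off-diagonal entries.  Let
`𝒜 ⊆ End_A Y × M₂(A)` be the `A`-span of the pairs `(gY g, r g)`.

* `mltc_blr_rel`    : `(f, 0) ∈ 𝒜 → f = 0` (every relation of `r` holds on `Y`);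
* `mltc_blr_simple` : `(0, M) ∈ 𝒜 → M = 0` if `Y ≠ 0` (`Y` is a faithful module over the image).
Both are helper4's `dlw_inj` (`Lib/Delta/Wire/Blr.lean`) over the fraction field.
-/
import Mathlib
import Fermat.Agent.Lib.Delta.Wire.Blr

set_option autoImplicit false
set_option linter.unusedSectionVars false
set_option linter.unusedVariables false
set_option linter.style.haveILetI false

open scoped TensorProduct
open Matrix Fermat.Agent.Delta

namespace Fermat.Agent.MLT

section Field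

variable {G : Type*} [Group G] {k : Type*} [Field k]
  {V : Type*} [AddCommGroup V] [Module k V]
  (rV : G →* Module.End k V) (rU : G →* Matrix (Fin 2) (Fin 2) k)
  (hCH : ∀ g : G, rV g * rV g - (rU g).trace • rV g + (rU g).det • (1 : Module.End k V) = 0)
  (h2 : (2 : k) ≠ 0) (c : G) (hc : rU c = !![1, 0; 0, -1])
  (g₁ g₂ : G) (hg₁ : rU g₁ 0 1 ≠ 0) (hg₂ : rU g₂ 1 0 ≠ 0)

theorem mltc_mat_units (M : Matrix (Fin 2) (Fin 2) k) (i j : Fin 2) :
    Matrix.single 0 i (1 : k) * M * Matrix.single j 0 1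
      + Matrix.single 1 i (1 : k) * M * Matrix.single j 1 1
      = M i j • (1 : Matrix (Fin 2) (Fin 2) k) := by
  ext a b
  fin_cases a <;> fin_cases b <;> fin_cases i <;> fin_cases j <;> simp

include h2 hc hg₁ hg₂ in
/-- the matrix units lie in the image of `𝒜` -/
theorem mltc_dlw_exists_unit (i j : Fin 2) :
    ∃ y ∈ dlwAlg rV rU, y.2 = Matrix.single i j (1 : k) := by
  obtain ⟨E1, hE1, e1⟩ := dlw_exists_E1 rV rU h2 c hc
  obtain ⟨E2, hE2, e2⟩ := dlw_exists_E2 rV rU h2 c hc
  obtain ⟨y₁, hy₁, ey₁⟩ := dlw_exists_e rV rU h2 c hc g₁ hg₁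
  obtain ⟨y₂, hy₂, ey₂⟩ := dlw_exists_f rV rU h2 c hc g₂ hg₂
  fin_cases i <;> fin_cases j
  · refine ⟨E1, hE1, ?_⟩
    rw [e1]; ext a b; fin_cases a <;> fin_cases b <;> simp
  · refine ⟨y₁, hy₁, ?_⟩
    rw [ey₁]; ext a b; fin_cases a <;> fin_cases b <;> simp
  · refine ⟨y₂, hy₂, ?_⟩
    rw [ey₂]; ext a b; fin_cases a <;> fin_cases b <;> simp
  · refine ⟨E2, hE2, ?_⟩
    rw [e2]; ext a b; fin_cases a <;> fin_cases b <;> simp

include hCH h2 hc hg₁ hg₂ in
/-- an element of `𝒜` with vanishing `End V`-component vanishes, if `V ≠ 0` -/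
theorem mltc_dlw_simple [Nontrivial V] {M : Matrix (Fin 2) (Fin 2) k}
    (hx : ((0, M) : Module.End k V × Matrix (Fin 2) (Fin 2) k) ∈ dlwAlg rV rU) : M = 0 := by
  ext i j
  rw [Matrix.zero_apply]
  by_contra hne
  obtain ⟨u0i, hu0i, e0i⟩ := mltc_dlw_exists_unit rV rU h2 c hc g₁ g₂ hg₁ hg₂ 0 i
  obtain ⟨u1i, hu1i, e1i⟩ := mltc_dlw_exists_unit rV rU h2 c hc g₁ g₂ hg₁ hg₂ 1 i
  obtain ⟨uj0, huj0, ej0⟩ := mltc_dlw_exists_unit rV rU h2 c hc g₁ g₂ hg₁ hg₂ j 0
  obtain ⟨uj1, huj1, ej1⟩ := mltc_dlw_exists_unit rV rU h2 c hc g₁ g₂ hg₁ hg₂ j 1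
  have hX : u0i * ((0, M) : Module.End k V × Matrix (Fin 2) (Fin 2) k) * uj0
      + u1i * ((0, M) : Module.End k V × Matrix (Fin 2) (Fin 2) k) * uj1 ∈ dlwAlg rV rU :=
    Submodule.add_mem _ (dlw_mul_mem rV rU (dlw_mul_mem rV rU hu0i hx) huj0)
      (dlw_mul_mem rV rU (dlw_mul_mem rV rU hu1i hx) huj1)
  have hZ : (M i j) • (1 : Module.End k V × Matrix (Fin 2) (Fin 2) k) ∈ dlwAlg rV rU :=
    Submodule.smul_mem _ _ (dlw_one_mem rV rU)
  have h1 := dlw_fst_eq rV rU hCH h2 c hc g₁ g₂ hg₁ hg₂ hX hZ (by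
    show u0i.2 * M * uj0.2 + u1i.2 * M * uj1.2 = M i j • (1 : Matrix (Fin 2) (Fin 2) k)
    rw [e0i, e1i, ej0, ej1, mltc_mat_units])
  have h2' : (u0i * ((0, M) : Module.End k V × Matrix (Fin 2) (Fin 2) k) * uj0
      + u1i * ((0, M) : Module.End k V × Matrix (Fin 2) (Fin 2) k) * uj1).1 = 0 := by
    show u0i.1 * 0 * uj0.1 + u1i.1 * 0 * uj1.1 = 0
    rw [mul_zero, zero_mul, mul_zero, zero_mul, add_zero]
  rw [h2'] at h1
  have h3 : (M i j) • (1 : Module.End k V) = 0 := h1.symm
  obtain ⟨v, hv⟩ := exists_ne (0 : V)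
  have h4 := congrArg (fun f : Module.End k V => f v) h3
  simp only [LinearMap.smul_apply, Module.End.one_apply, LinearMap.zero_apply] at h4
  exact hv ((smul_eq_zero.mp h4).resolve_left hne)

end Field

section Alg

variable {A : Type*} [CommRing A] {G : Type*} [Group G]
  {Y : Type*} [AddCommGroup Y] [Module A Y]
  (gY : G →* Module.End A Y) (r : G →* Matrix (Fin 2) (Fin 2) A)

/-- the `A`-span of the pairs `(gY g, r g)` in `End_A Y × M₂(A)` -/
def mltcBlrAlg : Submodule A (Module.End A Y × Matrix (Fin 2) (Fin 2) A) :=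
  Submodule.span A (Set.range fun g : G => ((gY g, r g) : Module.End A Y × Matrix (Fin 2) (Fin 2) A))

theorem mltc_blr_iota_mem (g : G) :
    ((gY g, r g) : Module.End A Y × Matrix (Fin 2) (Fin 2) A) ∈ mltcBlrAlg gY r :=
  Submodule.subset_span ⟨g, rfl⟩

theorem mltc_blr_one_mem :
    (1 : Module.End A Y × Matrix (Fin 2) (Fin 2) A) ∈ mltcBlrAlg gY r := by
  have := mltc_blr_iota_mem gY r 1
  rwa [map_one, map_one] at this

theorem mltc_blr_mul_mem {x y : Module.End A Y × Matrix (Fin 2) (Fin 2) A}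
    (hx : x ∈ mltcBlrAlg gY r) (hy : y ∈ mltcBlrAlg gY r) : x * y ∈ mltcBlrAlg gY r := by
  induction hx using Submodule.span_induction with
  | mem x hx =>
    obtain ⟨g, rfl⟩ := hx
    induction hy using Submodule.span_induction with
    | mem y hy =>
      obtain ⟨h, rfl⟩ := hy
      have : ((gY g, r g) : Module.End A Y × Matrix (Fin 2) (Fin 2) A) * (gY h, r h)
          = (gY (g * h), r (g * h)) := by
        rw [map_mul, map_mul]; rfl
      rw [this]
      exact mltc_blr_iota_mem gY r _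
    | zero => rw [mul_zero]; exact Submodule.zero_mem _
    | add y y' _ _ ih ih' => rw [mul_add]; exact Submodule.add_mem _ ih ih'
    | smul a y _ ih => rw [mul_smul_comm]; exact Submodule.smul_mem _ a ih
  | zero => rw [zero_mul]; exact Submodule.zero_mem _
  | add x x' _ _ ih ih' => rw [add_mul]; exact Submodule.add_mem _ ih ih'
  | smul a x _ ih => rw [smul_mul_assoc]; exact Submodule.smul_mem _ a ih

/-- the pair `(gY g - a, r g - a)` lies in `𝒜` -/
theorem mltc_blr_sub_mem (g : G) (a : A) :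
    ((gY g - a • 1, r g - a • 1) : Module.End A Y × Matrix (Fin 2) (Fin 2) A)
      ∈ mltcBlrAlg gY r := by
  have h1 := Submodule.sub_mem _ (mltc_blr_iota_mem gY r g)
    (Submodule.smul_mem _ a (mltc_blr_one_mem gY r))
  exact h1

end Alg

section Frac

variable {A : Type*} [CommRing A] [IsDomain A] {G : Type*} [Group G]
  {Y : Type*} [AddCommGroup Y] [Module A Y]
  (gY : G →* Module.End A Y) (r : G →* Matrix (Fin 2) (Fin 2) A)

local notation "K" => FractionRing A

/-- the action on `K ⊗ Y` -/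
noncomputable def mltcBlrV : G →* Module.End K (K ⊗[A] Y) where
  toFun g := (gY g).baseChange K
  map_one' := by rw [map_one]; exact LinearMap.baseChange_one _ _
  map_mul' g h := by rw [map_mul]; exact LinearMap.baseChange_mul _ _

/-- the matrices over `K` -/
noncomputable def mltcBlrU : G →* Matrix (Fin 2) (Fin 2) K :=
  ((algebraMap A K).mapMatrix : Matrix (Fin 2) (Fin 2) A →+* Matrix (Fin 2) (Fin 2) K).toMonoidHom.comp r

theorem mltcBlrV_apply (g : G) : mltcBlrV gY g = (gY g).baseChange K := rfl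

theorem mltcBlrU_apply (g : G) : mltcBlrU r g = (r g).map (algebraMap A K) := rfl

/-- the comparison map `End_A Y × M₂(A) → End_K (K ⊗ Y) × M₂(K)` -/
noncomputable def mltcBlrPsi (x : Module.End A Y × Matrix (Fin 2) (Fin 2) A) :
    Module.End K (K ⊗[A] Y) × Matrix (Fin 2) (Fin 2) K :=
  (x.1.baseChange K, x.2.map (algebraMap A K))

theorem mltcBlrPsi_mem {x : Module.End A Y × Matrix (Fin 2) (Fin 2) A}
    (hx : x ∈ mltcBlrAlg gY r) :
    mltcBlrPsi x ∈ dlwAlg (mltcBlrV gY) (mltcBlrU r) := by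
  induction hx using Submodule.span_induction with
  | mem x hx =>
    obtain ⟨g, rfl⟩ := hx
    exact dlw_iota_mem (mltcBlrV gY) (mltcBlrU r) g
  | zero =>
    have : mltcBlrPsi (0 : Module.End A Y × Matrix (Fin 2) (Fin 2) A) = 0 := by
      unfold mltcBlrPsi
      ext : 1
      · exact LinearMap.baseChange_zero
      · exact Matrix.map_zero _ (map_zero _)
    rw [this]
    exact Submodule.zero_mem _
  | add x y _ _ ihx ihy =>
    have : mltcBlrPsi (x + y) = mltcBlrPsi x + mltcBlrPsi y := by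
      unfold mltcBlrPsi
      ext : 1
      · exact LinearMap.baseChange_add _ _
      · exact Matrix.map_add _ (map_add _) _ _
    rw [this]
    exact Submodule.add_mem _ ihx ihy
  | smul a x _ ih =>
    have : mltcBlrPsi (a • x) = (algebraMap A K a) • mltcBlrPsi x := by
      unfold mltcBlrPsi
      ext : 1
      · show (a • x.1).baseChange K = algebraMap A K a • x.1.baseChange K
        rw [LinearMap.baseChange_smul, algebraMap_smul]
      · show (a • x.2).map (algebraMap A K) = algebraMap A K a • x.2.map (algebraMap A K)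
        ext i j
        simp [Matrix.map_apply, Matrix.smul_apply]
    rw [this]
    exact Submodule.smul_mem _ _ ih

variable (hCH : ∀ (g : G) (y : Y), gY g (gY g y) - (r g).trace • gY g y + (r g).det • y = 0)

include hCH in
theorem mltc_blr_CH (g : G) :
    mltcBlrV gY g * mltcBlrV gY g - (mltcBlrU r g).trace • mltcBlrV gY g
      + (mltcBlrU r g).det • (1 : Module.End K (K ⊗[A] Y)) = 0 := by
  have h1 : gY g * gY g - (r g).trace • gY g + (r g).det • (1 : Module.End A Y) = 0 := by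
    ext y
    exact hCH g y
  have h2 := congrArg (fun f : Module.End A Y => f.baseChange K) h1
  simp only [LinearMap.baseChange_add, LinearMap.baseChange_sub, LinearMap.baseChange_smul,
    LinearMap.baseChange_mul, LinearMap.baseChange_one, LinearMap.baseChange_zero] at h2
  have ht : (mltcBlrU r g).trace = algebraMap A K (r g).trace := by
    rw [mltcBlrU_apply, Matrix.trace_fin_two, Matrix.trace_fin_two, Matrix.map_apply,
      Matrix.map_apply, map_add]
  have hd : (mltcBlrU r g).det = algebraMap A K (r g).det := by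
    rw [mltcBlrU_apply, Matrix.det_fin_two, Matrix.det_fin_two]
    simp only [Matrix.map_apply, map_sub, map_mul]
  rw [ht, hd, mltcBlrV_apply, algebraMap_smul, algebraMap_smul]
  exact h2

variable (h2 : (2 : A) ≠ 0) (c : G) (hc : r c = !![1, 0; 0, -1])
  (g₁ g₂ : G) (hg₁ : r g₁ 0 1 ≠ 0) (hg₂ : r g₂ 1 0 ≠ 0)

include h2 in
theorem mltc_blr_two : (2 : K) ≠ 0 := by
  have h := (map_ne_zero_iff (algebraMap A K) (IsFractionRing.injective A K)).mpr h2
  rwa [map_ofNat] at h

include hc in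
theorem mltc_blr_hc : mltcBlrU r c = !![1, 0; 0, -1] := by
  rw [mltcBlrU_apply, hc]
  ext i j
  fin_cases i <;> fin_cases j <;> simp

include hg₁ in
theorem mltc_blr_hg₁ : mltcBlrU r g₁ 0 1 ≠ 0 := by
  rw [mltcBlrU_apply, Matrix.map_apply]
  exact (map_ne_zero_iff (algebraMap A K) (IsFractionRing.injective A K)).mpr hg₁

include hg₂ in
theorem mltc_blr_hg₂ : mltcBlrU r g₂ 1 0 ≠ 0 := by
  rw [mltcBlrU_apply, Matrix.map_apply]
  exact (map_ne_zero_iff (algebraMap A K) (IsFractionRing.injective A K)).mpr hg₂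

/-- `Y → K ⊗ Y` is injective for a flat module -/
theorem mltc_blr_tmul_injective [Module.Flat A Y] :
    Function.Injective fun y : Y => (1 : K) ⊗ₜ[A] y := by
  have h1 := Module.Flat.rTensor_preserves_injective_linearMap (M := Y)
    (Algebra.linearMap A K) (IsFractionRing.injective A K)
  intro y y' h
  have h3 : (Algebra.linearMap A K).rTensor Y ((1 : A) ⊗ₜ[A] y)
      = (Algebra.linearMap A K).rTensor Y ((1 : A) ⊗ₜ[A] y') := by
    rw [LinearMap.rTensor_tmul, LinearMap.rTensor_tmul, Algebra.linearMap_apply, map_one]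
    exact h
  have h4 := h1 h3
  have h5 := congrArg (TensorProduct.lid A Y) h4
  simpa using h5

include hCH h2 hc hg₁ hg₂ in
/-- **every relation of `r` holds on `Y`** -/
theorem mltc_blr_rel [Module.Flat A Y] {f : Module.End A Y}
    (hf : ((f, 0) : Module.End A Y × Matrix (Fin 2) (Fin 2) A) ∈ mltcBlrAlg gY r) : f = 0 := by
  have h1 := mltcBlrPsi_mem gY r hf
  have h3 : mltcBlrPsi ((f, 0) : Module.End A Y × Matrix (Fin 2) (Fin 2) A)
      = (f.baseChange K, 0) := by
    unfold mltcBlrPsi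
    ext : 1
    · rfl
    · exact Matrix.map_zero _ (map_zero _)
  rw [h3] at h1
  have h4 := dlw_inj (mltcBlrV gY) (mltcBlrU r) (mltc_blr_CH gY r hCH) (mltc_blr_two h2) c
    (mltc_blr_hc r c hc) g₁ g₂ (mltc_blr_hg₁ r g₁ hg₁) (mltc_blr_hg₂ r g₂ hg₂) h1
  ext y
  apply mltc_blr_tmul_injective (A := A) (Y := Y)
  show (1 : K) ⊗ₜ[A] f y = (1 : K) ⊗ₜ[A] (0 : Module.End A Y) y
  rw [LinearMap.zero_apply, TensorProduct.tmul_zero, ← LinearMap.baseChange_tmul, h4,
    LinearMap.zero_apply]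

include hCH h2 hc hg₁ hg₂ in
/-- **`Y` is faithful over the image**: an element of `𝒜` with vanishing `End Y`-component
vanishes, if `Y ≠ 0` -/
theorem mltc_blr_simple [Module.Flat A Y] [Nontrivial Y] {M : Matrix (Fin 2) (Fin 2) A}
    (hM : ((0, M) : Module.End A Y × Matrix (Fin 2) (Fin 2) A) ∈ mltcBlrAlg gY r) : M = 0 := by
  have h1 := mltcBlrPsi_mem gY r hM
  have h3 : mltcBlrPsi ((0, M) : Module.End A Y × Matrix (Fin 2) (Fin 2) A)
      = (0, M.map (algebraMap A K)) := by
    unfold mltcBlrPsi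
    ext : 1
    · exact LinearMap.baseChange_zero
    · rfl
  rw [h3] at h1
  haveI : Nontrivial (K ⊗[A] Y) := by
    obtain ⟨y, y', hyy'⟩ := exists_pair_ne Y
    exact ⟨⟨(1 : K) ⊗ₜ[A] y, (1 : K) ⊗ₜ[A] y', fun h => hyy' (mltc_blr_tmul_injective h)⟩⟩
  have h4 := mltc_dlw_simple (mltcBlrV gY) (mltcBlrU r) (mltc_blr_CH gY r hCH) (mltc_blr_two h2) c
    (mltc_blr_hc r c hc) g₁ g₂ (mltc_blr_hg₁ r g₁ hg₁) (mltc_blr_hg₂ r g₂ hg₂) h1
  ext i j
  have h5 := congrFun (congrFun h4 i) j
  rw [Matrix.map_apply, Matrix.zero_apply] at h5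
  rw [Matrix.zero_apply]
  exact (map_eq_zero_iff (algebraMap A K) (IsFractionRing.injective A K)).mp h5

end Frac

end Fermat.Agent.MLT
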