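/-
MLT stream Crit/Frob (helper6), part 2: **the abstract Frobenius argument at `p`**.

`T` a free `ℤ_p`-module of finite rank with an action `gal` of `G` and Kummer maps `κ` with a formal
part `C` (`S33wData`, (F3)); `A` a discrete valuation ring over `ℤ_p` with `p ∈ 𝔪`; `Y ⊆ A ⊗ T` a
`G`-stable submodule on which every `g` is killed by the characteristic polynomial of `r g`,
`r : G → GL₂(A)` with `r c = diag(1, -1)` and non-zero off-diagonal entries, and with the inertia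
identity `(r τ - det r τ)(r σ - 1) = 0` on `I`.  `N = A ⊗ T⁰⁰` (`s33wM00`).

* `mltc_frob_NC`  : **(NC)** no non-zero `p`-saturated `G`-stable `Λ ≤ Y` lies in `N`;
* `mltc_frob_QZ`  : **(QZ)** `(φ - z) Y ⊆ N` for `φ` normalising `I` with `r φ ~ (z, z')`,
  `r (φ ι₀) ~ (z, z' c)`, `z' (c - 1) ≠ 0`;
* `mltc_frob_FL`  : **(FL)** if `(φ² - T_p φ + p) T ⊆ T⁰⁰` then `z T_p = z² + p` on `Y`;
* `mltc_frob_NEW` : **(NEW)** if `(φ - ε) Y' ⊆ N` for a non-zero `p`-saturated `G`-stable `Y' ≤ Y`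
  then `z = ε`.
-/
import Mathlib
import Fermat.Agent.Lib.MLT.Crit.FrobBlr
import Fermat.Agent.Lib.S33.Wire.Abstract

set_option autoImplicit false
set_option linter.unusedSectionVars false
set_option linter.unusedVariables false
set_option linter.style.haveILetI false

open scoped TensorProduct
open Matrix IsLocalRing Fermat.Agent.S33W

namespace Fermat.Agent.MLT

noncomputable section

section Restr

variable {A : Type*} [CommRing A] {G : Type*} [Group G]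
  {M : Type*} [AddCommGroup M] [Module A M] (gM : G →* Module.End A M)
  (Λ : Submodule A M) (hΛ : ∀ g, ∀ m ∈ Λ, gM g m ∈ Λ)

/-- the restriction of an action to a stable submodule -/
def mltcFrobRestr : G →* Module.End A Λ where
  toFun g := (gM g).restrict (hΛ g)
  map_one' := by
    ext m
    simp [LinearMap.restrict_apply]
  map_mul' g h := by
    ext m
    simp [LinearMap.restrict_apply, map_mul]

theorem mltcFrobRestr_coe (g : G) (m : Λ) :
    ((mltcFrobRestr gM Λ hΛ g m : Λ) : M) = gM g (m : M) := rfl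

end Restr

section Act

variable {p : ℕ} [hp : Fact p.Prime]
  {T : Type} [AddCommGroup T] [Module ℤ_[p] T] {G : Type} [Group G]
  (gal : G →* Module.End ℤ_[p] T) (A : Type) [CommRing A] [Algebra ℤ_[p] A]

/-- the base-changed action on `A ⊗ T` -/
def mltcFrobM : G →* Module.End A (A ⊗[ℤ_[p]] T) where
  toFun g := (gal g).baseChange A
  map_one' := by rw [map_one]; exact LinearMap.baseChange_one _ _
  map_mul' g h := by rw [map_mul]; exact LinearMap.baseChange_mul _ _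

theorem mltcFrobM_apply (g : G) (m : A ⊗[ℤ_[p]] T) :
    mltcFrobM gal A g m = (gal g).baseChange A m := rfl

end Act

section Nak

variable {A : Type*} [CommRing A] [IsDomain A] [IsDiscreteValuationRing A]
  {G : Type*} [Group G] {M : Type*} [AddCommGroup M] [Module A M] [Module.Free A M]
  [Module.Finite A M] (gM : G →* Module.End A M) (I : Subgroup G)
  (r : G →* Matrix (Fin 2) (Fin 2) A) (Y : Submodule A M)
  (hCH : ∀ g : G, ∀ y ∈ Y, gM g (gM g y) - (r g).trace • gM g y + (r g).det • y = 0)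
  (h2 : (2 : A) ≠ 0) (c : G) (hc : r c = !![1, 0; 0, -1])
  (g₁ g₂ : G) (hg₁ : r g₁ 0 1 ≠ 0) (hg₂ : r g₂ 1 0 ≠ 0)
  (hI : ∀ σ ∈ I, ∀ τ ∈ I,
    (r τ - (r τ).det • (1 : Matrix (Fin 2) (Fin 2) A)) * (r σ - 1) = 0)
  (ι₀ : G) (hι₀ : ι₀ ∈ I) (hdet : (r ι₀).det ≠ 1)

include hCH h2 hc hg₁ hg₂ hI hι₀ hdet in
/-- the coinvariants of `Λ / 𝔪 Λ` under `I` do not vanish -/
theorem mltc_frob_nak (Λ : Submodule A M) (hΛY : Λ ≤ Y) (hΛ0 : Λ ≠ ⊥)
    (hΛst : ∀ g : G, ∀ m ∈ Λ, gM g m ∈ Λ) :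
    ¬ Λ ≤ Submodule.span A {m | ∃ σ ∈ I, ∃ l ∈ Λ, m = gM σ l - l} ⊔ (maximalIdeal A) • Λ := by
  classical
  intro hle
  set gΛ := mltcFrobRestr gM Λ hΛst with hgΛ
  -- Cayley–Hamilton on `Λ`
  have hCHΛ : ∀ (g : G) (y : Λ),
      gΛ g (gΛ g y) - (r g).trace • gΛ g y + (r g).det • y = 0 := by
    intro g y
    apply Subtype.ext
    exact hCH g (y : M) (hΛY y.2)
  -- `Λ` is free, hence flat, and non-zero
  haveI : IsNoetherian A M := inferInstance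
  haveI : Module.Finite A Λ := inferInstance
  haveI : Module.IsTorsionFree A M := inferInstance
  haveI : Module.IsTorsionFree A Λ := inferInstance
  haveI : Module.Free A Λ := Module.free_of_finite_type_torsion_free' (R := A) (M := Λ)
  haveI : Module.Flat A Λ := inferInstance
  haveI : Nontrivial Λ := by
    obtain ⟨m, hm, hm0⟩ := (Submodule.ne_bot_iff Λ).mp hΛ0
    exact ⟨⟨⟨m, hm⟩, 0, fun h => hm0 (congrArg Subtype.val h)⟩⟩
  -- the inertia identity on `Λ`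
  have hU1 : ∀ σ ∈ I, ∀ τ ∈ I,
      (gΛ τ - (r τ).det • (1 : Module.End A Λ)) * (gΛ σ - (1 : A) • (1 : Module.End A Λ)) = 0 := by
    intro σ hσ τ hτ
    have h1 := mltc_blr_mul_mem gΛ r (mltc_blr_sub_mem gΛ r τ (r τ).det)
      (mltc_blr_sub_mem gΛ r σ 1)
    have h3 : ((gΛ τ - (r τ).det • (1 : Module.End A Λ),
        r τ - (r τ).det • (1 : Matrix (Fin 2) (Fin 2) A)) :
        Module.End A Λ × Matrix (Fin 2) (Fin 2) A)
        * (gΛ σ - (1 : A) • (1 : Module.End A Λ),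
          r σ - (1 : A) • (1 : Matrix (Fin 2) (Fin 2) A))
        = ((gΛ τ - (r τ).det • (1 : Module.End A Λ))
            * (gΛ σ - (1 : A) • (1 : Module.End A Λ)), 0) := by
      ext : 1
      · rfl
      · show (r τ - (r τ).det • (1 : Matrix (Fin 2) (Fin 2) A))
          * (r σ - (1 : A) • (1 : Matrix (Fin 2) (Fin 2) A)) = 0
        rw [one_smul]
        exact hI σ hσ τ hτ
    rw [h3] at h1
    exact mltc_blr_rel gΛ r hCHΛ h2 c hc g₁ g₂ hg₁ hg₂ h1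
  have hfg : Λ.FG := IsNoetherian.noetherian Λ
  have hjac : maximalIdeal A ≤ (⊥ : Ideal A).jacobson := by
    rw [jacobson_eq_maximalIdeal ⊥ bot_ne_top]
  have hΛN' : Λ ≤ Submodule.span A {m | ∃ σ ∈ I, ∃ l ∈ Λ, m = gM σ l - l} :=
    Submodule.le_of_le_smul_of_le_jacobson_bot hfg hjac hle
  -- every `τ ∈ I` acts on `Λ` through `det r τ`
  have hscal' : ∀ τ ∈ I, ∀ m ∈ Submodule.span A {m | ∃ σ ∈ I, ∃ l ∈ Λ, m = gM σ l - l},
      gM τ m = (r τ).det • m := by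
    intro τ hτ m hm'
    induction hm' using Submodule.span_induction with
    | mem x hx =>
      obtain ⟨σ, hσ, l, hl, rfl⟩ := hx
      have h1 := congrArg (fun f : Module.End A Λ => ((f ⟨l, hl⟩ : Λ) : M)) (hU1 σ hσ τ hτ)
      simp only [Module.End.mul_apply, LinearMap.sub_apply, LinearMap.smul_apply,
        Module.End.one_apply, LinearMap.zero_apply, one_smul, Submodule.coe_sub,
        Submodule.coe_smul, ZeroMemClass.coe_zero] at h1
      rw [hgΛ, mltcFrobRestr_coe] at h1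
      exact sub_eq_zero.mp h1
    | zero => rw [map_zero, smul_zero]
    | add x y _ _ hx hy => rw [map_add, hx, hy, smul_add]
    | smul a x _ hx => rw [map_smul, hx, smul_comm]
  have hscal : ∀ τ ∈ I, ∀ m ∈ Λ, gM τ m = (r τ).det • m :=
    fun τ hτ m hm => hscal' τ hτ m (hΛN' hm)
  -- hence `r ι₀` is scalar
  have h0 : gΛ ι₀ - (r ι₀).det • (1 : Module.End A Λ) = 0 := by
    ext m
    show gM ι₀ (m : M) - (r ι₀).det • (m : M) = 0
    rw [hscal ι₀ hι₀ m m.2, sub_self]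
  have h1 := mltc_blr_sub_mem gΛ r ι₀ (r ι₀).det
  rw [h0] at h1
  have h3 := mltc_blr_simple gΛ r hCHΛ h2 c hc g₁ g₂ hg₁ hg₂ h1
  have h4 : r ι₀ = (r ι₀).det • (1 : Matrix (Fin 2) (Fin 2) A) := sub_eq_zero.mp h3
  have h5 : (r ι₀).det = (r ι₀).det * (r ι₀).det := by
    conv_lhs => rw [h4]
    rw [Matrix.det_smul, Matrix.det_one, mul_one, Fintype.card_fin, pow_two]
  have h6 : (r ι₀).det * (r ι₀⁻¹).det = 1 := by
    rw [← Matrix.det_mul, ← map_mul, mul_inv_cancel, map_one, Matrix.det_one]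
  have h7 : (r ι₀).det ≠ 0 := by
    intro h
    rw [h, zero_mul] at h6
    exact zero_ne_one h6
  apply hdet
  have h8 : (r ι₀).det * ((r ι₀).det - 1) = 0 := by rw [mul_sub, mul_one, ← h5, sub_self]
  exact sub_eq_zero.mp ((mul_eq_zero.mp h8).resolve_left h7)

end Nak

section NC

variable {p : ℕ} [hp : Fact p.Prime]
  {T : Type} [AddCommGroup T] [Module ℤ_[p] T] [Module.Free ℤ_[p] T] [Module.Finite ℤ_[p] T]
  {G : Type} [Group G]
  {J : Type} [AddCommGroup J] [DistribMulAction G J]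
  {κ : ℕ → T →+ J} {gal : G →* Module.End ℤ_[p] T} {I : Subgroup G} {C : AddSubgroup J}
  (A : Type) [CommRing A] [IsDomain A] [IsDiscreteValuationRing A] [Algebra ℤ_[p] A]
  (D : S33wData κ gal I C)
  (hF3 : ∀ (d : ℕ) (A' B : AddSubgroup (Fin d → J)), A' ≤ B →
      (∀ x ∈ B, ∀ i, x i ∈ C ∧ p • x i = 0) → (∀ σ ∈ I, ∀ x ∈ A', σ • x ∈ A') →
      (∀ σ ∈ I, ∀ x ∈ B, σ • x - x ∈ A') → B ≤ A')
  [Finite (A ⧸ Ideal.span {(p : A)})] (hpA : (p : A) ∈ maximalIdeal A)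
  (r : G →* Matrix (Fin 2) (Fin 2) A)
  (Y : Submodule A (A ⊗[ℤ_[p]] T))
  (hCH : ∀ g : G, ∀ y ∈ Y, (gal g).baseChange A ((gal g).baseChange A y)
    - (r g).trace • (gal g).baseChange A y + (r g).det • y = 0)
  (h2 : (2 : A) ≠ 0) (c : G) (hc : r c = !![1, 0; 0, -1])
  (g₁ g₂ : G) (hg₁ : r g₁ 0 1 ≠ 0) (hg₂ : r g₂ 1 0 ≠ 0)
  (hI : ∀ σ ∈ I, ∀ τ ∈ I,
    (r τ - (r τ).det • (1 : Matrix (Fin 2) (Fin 2) A)) * (r σ - 1) = 0)
  (ι₀ : G) (hι₀ : ι₀ ∈ I) (hdet : (r ι₀).det ≠ 1)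

include hF3 hpA hCH h2 hc hg₁ hg₂ hI hι₀ hdet in
/-- **(NC)**: no non-zero `p`-saturated `G`-stable submodule of `Y` lies in the formal part -/
theorem mltc_frob_NC (Λ : Submodule A (A ⊗[ℤ_[p]] T)) (hΛY : Λ ≤ Y) (hΛ0 : Λ ≠ ⊥)
    (hΛsat : ∀ m : A ⊗[ℤ_[p]] T, (p : A) • m ∈ Λ → m ∈ Λ)
    (hΛst : ∀ g : G, ∀ m ∈ Λ, (gal g).baseChange A m ∈ Λ) :
    ¬ Λ ≤ s33wM00 A D := by
  classical
  have hΛst' : ∀ g, ∀ m ∈ Λ, mltcFrobM gal A g m ∈ Λ := hΛst
  have hnak := mltc_frob_nak (mltcFrobM gal A) I r Y hCH h2 c hc g₁ g₂ hg₁ hg₂ hI ι₀ hι₀ hdet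
    Λ hΛY hΛ0 hΛst'
  have hN'Λ : Submodule.span A {m | ∃ σ ∈ I, ∃ l ∈ Λ, m = mltcFrobM gal A σ l - l} ≤ Λ := by
    refine Submodule.span_le.mpr ?_
    rintro _ ⟨σ, -, l, hl, rfl⟩
    exact Λ.sub_mem (hΛst' σ l hl) hl
  refine s33w_not_le A D hF3 Λ hΛsat
    (Submodule.span A {m | ∃ σ ∈ I, ∃ l ∈ Λ, m = mltcFrobM gal A σ l - l}
      ⊔ (maximalIdeal A) • Λ).toAddSubgroup ?_ ?_ ?_ ?_
  · intro m hm
    exact (sup_le hN'Λ Submodule.smul_le_right) hm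
  · intro m hm
    exact Submodule.mem_sup_right (Submodule.smul_mem_smul hpA hm)
  · intro σ hσ m hm
    exact Submodule.mem_sup_left (Submodule.subset_span ⟨σ, hσ, m, hm, rfl⟩)
  · by_contra hcon
    push Not at hcon
    exact hnak fun m hm => hcon m hm

end NC

section QZ

variable {p : ℕ} [hp : Fact p.Prime]
  {T : Type} [AddCommGroup T] [Module ℤ_[p] T] [Module.Free ℤ_[p] T] [Module.Finite ℤ_[p] T]
  {G : Type} [Group G]
  {J : Type} [AddCommGroup J] [DistribMulAction G J]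
  {κ : ℕ → T →+ J} {gal : G →* Module.End ℤ_[p] T} {I : Subgroup G} {C : AddSubgroup J}
  (A : Type) [CommRing A] [IsDomain A] [Algebra ℤ_[p] A]
  (D : S33wData κ gal I C)

/-- base change of an endomorphism with values in `T⁰⁰` -/
theorem mltc_frob_baseChange_mem (f : Module.End ℤ_[p] T) (hf : ∀ x, f x ∈ s33wT00 D)
    (m : A ⊗[ℤ_[p]] T) : f.baseChange A m ∈ s33wM00 A D := by
  induction m using TensorProduct.induction_on with
  | zero =>
    rw [map_zero]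
    exact Submodule.zero_mem _
  | tmul a x =>
    rw [LinearMap.baseChange_tmul]
    exact s33w_tmul_mem A D a (hf x)
  | add m m' hm hm' =>
    rw [map_add]
    exact Submodule.add_mem _ hm hm'

/-- conjugation: `φ (τ m - m) = (φ τ φ⁻¹)(φ m) - φ m` -/
theorem mltc_frob_conj (φ τ : G) (m : A ⊗[ℤ_[p]] T) :
    (gal φ).baseChange A ((gal τ).baseChange A m - m)
      = (gal (φ * τ * φ⁻¹)).baseChange A ((gal φ).baseChange A m) - (gal φ).baseChange A m := by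
  rw [map_sub]
  congr 1
  have h1 : gal (φ * τ * φ⁻¹) * gal φ = gal φ * gal τ := by
    rw [← map_mul, ← map_mul, inv_mul_cancel_right]
  have h2 := congrArg (fun f : Module.End ℤ_[p] T => f.baseChange A m) h1
  simp only [LinearMap.baseChange_mul, Module.End.mul_apply] at h2
  exact h2.symm

variable (r : G →* Matrix (Fin 2) (Fin 2) A) (Y : Submodule A (A ⊗[ℤ_[p]] T))
  (hYst : ∀ g : G, ∀ y ∈ Y, (gal g).baseChange A y ∈ Y)
  (hCH : ∀ g : G, ∀ y ∈ Y, (gal g).baseChange A ((gal g).baseChange A y)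
    - (r g).trace • (gal g).baseChange A y + (r g).det • y = 0)
  (φ ι₀ : G) (hι₀ : ι₀ ∈ I) (hnorm : ∀ τ ∈ I, φ * τ * φ⁻¹ ∈ I)
  (z z' c : A) (htr : (r φ).trace = z + z') (hdt : (r φ).det = z * z')
  (htr' : (r (φ * ι₀)).trace = z + z' * c) (hdt' : (r (φ * ι₀)).det = z * z' * c)
  (hne : z' * (c - 1) ≠ 0)

include hCH hι₀ hnorm htr hdt htr' hdt' hne in
/-- **(QZ)**: `φ` acts on `Y` modulo the formal part through `z` -/
theorem mltc_frob_QZ (y : A ⊗[ℤ_[p]] T) (hy : y ∈ Y) :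
    (gal φ).baseChange A y - z • y ∈ s33wM00 A D := by
  set F := (gal φ).baseChange A with hF
  set J₀ := (gal ι₀).baseChange A with hJ₀
  -- `F (τ m - m) ∈ N`
  have hC : ∀ τ ∈ I, ∀ m, F ((gal τ).baseChange A m - m) ∈ s33wM00 A D := by
    intro τ hτ m
    rw [hF, mltc_frob_conj]
    exact s33w_baseChange_sub_mem A D (hnorm τ hτ) _
  have hH : ∀ m, (gal (φ * ι₀)).baseChange A m = F (J₀ m) := by
    intro m
    rw [map_mul, LinearMap.baseChange_mul]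
    rfl
  -- `H m - F m ∈ N`
  have hA : ∀ m, F (J₀ m) - F m ∈ s33wM00 A D := by
    intro m
    rw [← map_sub]
    exact hC ι₀ hι₀ m
  -- `F (F (J₀ m)) - F (F m) ∈ N`
  have hB : ∀ m, F (F (J₀ m)) - F (F m) ∈ s33wM00 A D := by
    intro m
    rw [← map_sub, ← map_sub, hF, mltc_frob_conj, ← hF]
    exact hC _ (hnorm ι₀ hι₀) _
  have h1 := hCH (φ * ι₀) y hy
  have h2 := hCH φ y hy
  rw [hH, hH, htr', hdt'] at h1
  rw [htr, hdt] at h2
  have hn₁ : F (J₀ y) - F y ∈ s33wM00 A D := hA y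
  have hn₂ : F (J₀ (F (J₀ y))) - F (F y) ∈ s33wM00 A D := by
    have h3 := Submodule.add_mem _ (hA (F (J₀ y))) (hB y)
    have h4 : F (J₀ (F (J₀ y))) - F (F (J₀ y)) + (F (F (J₀ y)) - F (F y))
        = F (J₀ (F (J₀ y))) - F (F y) := by abel
    rwa [h4] at h3
  have key : (z' * (c - 1)) • (F y - z • y)
      = (F (J₀ (F (J₀ y))) - F (F y)) - (z + z' * c) • (F (J₀ y) - F y) := by
    have h5 : F (J₀ (F (J₀ y))) = (z + z' * c) • F (J₀ y) - (z * z' * c) • y := by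
      rw [sub_add_eq_add_sub, sub_eq_zero] at h1
      exact eq_sub_of_add_eq h1
    have h6 : F (F y) = (z + z') • F y - (z * z') • y := by
      rw [sub_add_eq_add_sub, sub_eq_zero] at h2
      exact eq_sub_of_add_eq h2
    rw [h5, h6]
    module
  refine s33w_M00_sat A D hne ?_
  rw [key]
  exact Submodule.sub_mem _ hn₂ (Submodule.smul_mem _ _ hn₁)

end QZ

section Sat

variable {A : Type*} [CommRing A] [IsDomain A] {M : Type*} [AddCommGroup M] [Module A M]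

/-- the saturation of a submodule -/
def mltcFrobSat (Λ : Submodule A M) : Submodule A M where
  carrier := {m | ∃ a : A, a ≠ 0 ∧ a • m ∈ Λ}
  zero_mem' := ⟨1, one_ne_zero, by rw [smul_zero]; exact Λ.zero_mem⟩
  add_mem' := by
    rintro m m' ⟨a, ha, hm⟩ ⟨b, hb, hm'⟩
    refine ⟨a * b, mul_ne_zero ha hb, ?_⟩
    rw [smul_add]
    refine Λ.add_mem ?_ ?_
    · rw [mul_comm, mul_smul]
      exact Λ.smul_mem b hm
    · rw [mul_smul]
      exact Λ.smul_mem a hm'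
  smul_mem' := by
    rintro c m ⟨a, ha, hm⟩
    refine ⟨a, ha, ?_⟩
    rw [smul_comm]
    exact Λ.smul_mem c hm

theorem mem_mltcFrobSat {Λ : Submodule A M} {m : M} :
    m ∈ mltcFrobSat Λ ↔ ∃ a : A, a ≠ 0 ∧ a • m ∈ Λ := Iff.rfl

theorem mltcFrobSat_le (Λ : Submodule A M) : Λ ≤ mltcFrobSat Λ :=
  fun m hm => ⟨1, one_ne_zero, by rwa [one_smul]⟩

theorem mltcFrobSat_sat (Λ : Submodule A M) {a : A} (ha : a ≠ 0) {m : M}
    (hm : a • m ∈ mltcFrobSat Λ) : m ∈ mltcFrobSat Λ := by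
  obtain ⟨b, hb, h⟩ := hm
  exact ⟨b * a, mul_ne_zero hb ha, by rwa [mul_smul]⟩

theorem mltcFrobSat_le_of_sat (Λ N : Submodule A M) (hΛN : Λ ≤ N)
    (hN : ∀ a : A, a ≠ 0 → ∀ m : M, a • m ∈ N → m ∈ N) : mltcFrobSat Λ ≤ N := by
  rintro m ⟨a, ha, hm⟩
  exact hN a ha m (hΛN hm)

end Sat

section FL

variable {p : ℕ} [hp : Fact p.Prime]
  {T : Type} [AddCommGroup T] [Module ℤ_[p] T] [Module.Free ℤ_[p] T] [Module.Finite ℤ_[p] T]
  {G : Type} [Group G]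
  {J : Type} [AddCommGroup J] [DistribMulAction G J]
  {κ : ℕ → T →+ J} {gal : G →* Module.End ℤ_[p] T} {I : Subgroup G} {C : AddSubgroup J}
  (A : Type) [CommRing A] [IsDomain A] [IsDiscreteValuationRing A] [Algebra ℤ_[p] A]
  (D : S33wData κ gal I C)
  (hF3 : ∀ (d : ℕ) (A' B : AddSubgroup (Fin d → J)), A' ≤ B →
      (∀ x ∈ B, ∀ i, x i ∈ C ∧ p • x i = 0) → (∀ σ ∈ I, ∀ x ∈ A', σ • x ∈ A') →
      (∀ σ ∈ I, ∀ x ∈ B, σ • x - x ∈ A') → B ≤ A')
  [Finite (A ⧸ Ideal.span {(p : A)})] (hpA : (p : A) ∈ maximalIdeal A) (hp0 : (p : A) ≠ 0)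
  (r : G →* Matrix (Fin 2) (Fin 2) A)
  (Y : Submodule A (A ⊗[ℤ_[p]] T))
  (hYst : ∀ g : G, ∀ y ∈ Y, (gal g).baseChange A y ∈ Y)
  (hYsat : ∀ a : A, a ≠ 0 → ∀ m : A ⊗[ℤ_[p]] T, a • m ∈ Y → m ∈ Y)
  (hCH : ∀ g : G, ∀ y ∈ Y, (gal g).baseChange A ((gal g).baseChange A y)
    - (r g).trace • (gal g).baseChange A y + (r g).det • y = 0)
  (h2 : (2 : A) ≠ 0) (c₀ : G) (hc₀ : r c₀ = !![1, 0; 0, -1])
  (g₁ g₂ : G) (hg₁ : r g₁ 0 1 ≠ 0) (hg₂ : r g₂ 1 0 ≠ 0)
  (hI : ∀ σ ∈ I, ∀ τ ∈ I,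
    (r τ - (r τ).det • (1 : Matrix (Fin 2) (Fin 2) A)) * (r σ - 1) = 0)
  (ι₀ : G) (hι₀ : ι₀ ∈ I) (hdet : (r ι₀).det ≠ 1)
  (φ : G) (hnorm : ∀ τ ∈ I, φ * τ * φ⁻¹ ∈ I)
  (z z' c : A) (htr : (r φ).trace = z + z') (hdt : (r φ).det = z * z')
  (htr' : (r (φ * ι₀)).trace = z + z' * c) (hdt' : (r (φ * ι₀)).det = z * z' * c)
  (hne : z' * (c - 1) ≠ 0)

include hF3 hpA hp0 hYst hYsat hCH h2 hc₀ hg₁ hg₂ hI hι₀ hdet hnorm htr hdt htr' hdt' hne in
/-- **(FL)**: the Eichler–Shimura relation at `p` modulo the formal part forces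
`z T_p = z² + p` on `Y` -/
theorem mltc_frob_FL (Tp : Module.End ℤ_[p] T) (hTpG : ∀ g : G, gal g * Tp = Tp * gal g)
    (hYT : ∀ y ∈ Y, Tp.baseChange A y ∈ Y)
    (hES : ∀ m : A ⊗[ℤ_[p]] T, (gal φ).baseChange A ((gal φ).baseChange A m)
      - Tp.baseChange A ((gal φ).baseChange A m) + (p : A) • m ∈ s33wM00 A D)
    (y : A ⊗[ℤ_[p]] T) (hy : y ∈ Y) :
    z • Tp.baseChange A y = (z ^ 2 + (p : A)) • y := by
  classical
  set F := (gal φ).baseChange A with hF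
  set TpA := Tp.baseChange A with hTpA
  have hQZ : ∀ y ∈ Y, F y - z • y ∈ s33wM00 A D := fun y hy =>
    mltc_frob_QZ A D r Y hCH φ ι₀ hι₀ hnorm z z' c htr hdt htr' hdt' hne y hy
  have hcomm : ∀ (g : G) (m : A ⊗[ℤ_[p]] T),
      (gal g).baseChange A (TpA m) = TpA ((gal g).baseChange A m) := by
    intro g m
    have h1 := congrArg (fun f : Module.End ℤ_[p] T => f.baseChange A m) (hTpG g)
    simp only [LinearMap.baseChange_mul, Module.End.mul_apply] at h1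
    exact h1
  -- the endomorphism `E = z² + p - z T_p`
  set E : Module.End A (A ⊗[ℤ_[p]] T) :=
    (z ^ 2 + (p : A)) • (1 : Module.End A (A ⊗[ℤ_[p]] T)) - z • TpA with hE
  have hEapp : ∀ m, E m = (z ^ 2 + (p : A)) • m - z • TpA m := fun m => rfl
  have hEY : ∀ y ∈ Y, E y ∈ Y := fun y hy => by
    rw [hEapp]
    exact Y.sub_mem (Y.smul_mem _ hy) (Y.smul_mem _ (hYT y hy))
  have hEN : ∀ y ∈ Y, E y ∈ s33wM00 A D := by
    intro y hy
    have h1 := hES y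
    have hy₁ : F y + z • y ∈ Y := Y.add_mem (hYst φ y hy) (Y.smul_mem z hy)
    have h3 := hQZ _ hy₁
    have h4 := hQZ _ (hYT y hy)
    have h5 : E y = (F (F y) - TpA (F y) + (p : A) • y) - (F (F y + z • y) - z • (F y + z • y))
        + (F (TpA y) - z • TpA y) := by
      rw [hEapp, map_add, map_smul, hF, hcomm φ y, ← hF]
      module
    rw [h5]
    exact Submodule.add_mem _ (Submodule.sub_mem _ h1 h3) h4
  have hEG : ∀ (g : G) (m : A ⊗[ℤ_[p]] T),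
      (gal g).baseChange A (E m) = E ((gal g).baseChange A m) := by
    intro g m
    rw [hEapp, hEapp, map_sub, map_smul, map_smul, hcomm]
  -- the saturation of `E Y`
  set Λ := mltcFrobSat (Submodule.map E Y) with hΛ
  have hΛY : Λ ≤ Y := by
    refine mltcFrobSat_le_of_sat _ Y ?_ hYsat
    rintro _ ⟨y, hy, rfl⟩
    exact hEY y hy
  have hΛN : Λ ≤ s33wM00 A D := by
    refine mltcFrobSat_le_of_sat _ _ ?_ (fun a ha m hm => s33w_M00_sat A D ha hm)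
    rintro _ ⟨y, hy, rfl⟩
    exact hEN y hy
  have hΛsat : ∀ m : A ⊗[ℤ_[p]] T, (p : A) • m ∈ Λ → m ∈ Λ :=
    fun m hm => mltcFrobSat_sat _ hp0 hm
  have hΛst : ∀ g : G, ∀ m ∈ Λ, (gal g).baseChange A m ∈ Λ := by
    rintro g m ⟨a, ha, y, hy, hym⟩
    refine ⟨a, ha, (gal g).baseChange A y, hYst g y hy, ?_⟩
    rw [← hEG, hym, map_smul]
  have hΛ0 : Λ = ⊥ := by
    by_contra hne0
    exact mltc_frob_NC A D hF3 hpA r Y hCH h2 c₀ hc₀ g₁ g₂ hg₁ hg₂ hI ι₀ hι₀ hdet Λ hΛY hne0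
      hΛsat hΛst hΛN
  have h0 : E y = 0 := by
    have h1 : E y ∈ Λ := mltcFrobSat_le _ ⟨y, hy, rfl⟩
    rw [hΛ0] at h1
    exact (Submodule.mem_bot A).mp h1
  rw [hEapp, sub_eq_zero] at h0
  exact h0.symm

include hF3 hpA hp0 hCH h2 hc₀ hg₁ hg₂ hI hι₀ hdet hnorm htr hdt htr' hdt' hne in
/-- **(NEW)**: if `φ` acts through `ε` modulo the formal part on a non-zero `p`-saturated `G`-stable
submodule of `Y`, then `z = ε` -/
theorem mltc_frob_NEW (ε : A) (Y' : Submodule A (A ⊗[ℤ_[p]] T)) (hY'Y : Y' ≤ Y) (hY'0 : Y' ≠ ⊥)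
    (hY'sat : ∀ m : A ⊗[ℤ_[p]] T, (p : A) • m ∈ Y' → m ∈ Y')
    (hY'st : ∀ g : G, ∀ m ∈ Y', (gal g).baseChange A m ∈ Y')
    (hε : ∀ y ∈ Y', (gal φ).baseChange A y - ε • y ∈ s33wM00 A D) : z = ε := by
  by_contra hzε
  refine mltc_frob_NC A D hF3 hpA r Y hCH h2 c₀ hc₀ g₁ g₂ hg₁ hg₂ hI ι₀ hι₀ hdet Y' hY'Y hY'0
    hY'sat hY'st ?_
  intro y hy
  have h1 := mltc_frob_QZ A D r Y hCH φ ι₀ hι₀ hnorm z z' c htr hdt htr' hdt' hne y (hY'Y hy)
  have h2' := hε y hy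
  have h3 : (z - ε) • y = ((gal φ).baseChange A y - ε • y) - ((gal φ).baseChange A y - z • y) := by
    module
  refine s33w_M00_sat A D (sub_ne_zero.mpr hzε) ?_
  rw [h3]
  exact Submodule.sub_mem _ h2' h1

end FL

end

end Fermat.Agent.MLT
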