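/-
MLT stream Crit/Frob (helper6), part 4: **the formal part at a general level** `K ∣ N'' p`
(`p ∤ N''`, `4 ∣ N''`): the pull-back `C_K` of helper6's formal part `s33gC 𝔓 N'' h ≤ J₀(N'' p)` along
`J₀(K) → J₀(N'' p)`, with (F12), (F3) (as in helper4's `s33w_gamma_level`, but for the explicit
subgroup) and the resulting `S33wData` for the Tate module of `J₀(K)`.
-/
import Mathlib
import Fermat.Agent.Lib.S33.Wire.Final
import Fermat.Agent.Lib.Delta.Wire.PullDvd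

set_option autoImplicit false
set_option linter.unusedSectionVars false
set_option linter.unusedVariables false
set_option linter.style.haveILetI false

open scoped TensorProduct
open Fermat.Agent.TW Fermat.Agent.T2 Fermat.Agent.S33 Fermat.Agent.S33W Fermat.Agent.S33C Fermat.Agent.Delta
  Fermat.Agent.Alpha ModularCurve AlgebraicCurve CongruenceSubgroup ModularCurve.Period
  Fermat.Agent.S24Lib

namespace Fermat.Agent.MLT

local notation "Qbar" => AlgebraicClosure ℚ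
local notation "GQ" => (AlgebraicClosure ℚ ≃ₐ[ℚ] AlgebraicClosure ℚ)

noncomputable section

attribute [local instance] s33g_neZero

section C

variable (𝔓 : FFPlace) {K : ℕ} [NeZero K] (N'' : ℕ) [NeZero N''] (h : ¬ 𝔓.p ∣ N'')
  (hK : K ∣ N'' * 𝔓.p)

/-- **the formal part of `J₀(K)`**, `K ∣ N'' p` -/
def mltcFrobC : AddSubgroup (JZero K) := (s33gC 𝔓 N'' h).comap (dlwPullDvd hK)

theorem mem_mltcFrobC (x : JZero K) :
    x ∈ mltcFrobC 𝔓 N'' h hK ↔ dlwPullDvd hK x ∈ s33gC 𝔓 N'' h := Iff.rfl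

/-- **(F12)** at the level `K` -/
theorem mltc_frobC_F12 (σ : GQ) (hσ : σ ∈ 𝔓.I) (k : ℕ) (x : JZero K) (hx : 𝔓.p ^ k • x = 0) :
    σ • x - x ∈ mltcFrobC 𝔓 N'' h hK := by
  rw [mem_mltcFrobC, map_sub, dlwPullDvd_galois]
  refine s33g_F12 𝔓 N'' h σ hσ k _ ?_
  rw [← map_nsmul, hx, map_zero]

/-- **(F3)** at the level `K` -/
theorem mltc_frobC_F3 (h4 : 4 ∣ N'') (hp2 : 2 < 𝔓.p) (d : ℕ) (A B : AddSubgroup (Fin d → JZero K))
    (hAB : A ≤ B) (hB : ∀ x ∈ B, ∀ i, x i ∈ mltcFrobC 𝔓 N'' h hK ∧ 𝔓.p • x i = 0)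
    (hA : ∀ σ ∈ 𝔓.I, ∀ x ∈ A, σ • x ∈ A) (hBA : ∀ σ ∈ 𝔓.I, ∀ x ∈ B, σ • x - x ∈ A) :
    B ≤ A := by
  classical
  obtain ⟨C, hF12, hF3⟩ : ∃ C : AddSubgroup (JZero (N'' * 𝔓.p)), C = s33gC 𝔓 N'' h ∧
      (∀ (d : ℕ) (A B : AddSubgroup (Fin d → JZero (N'' * 𝔓.p))), A ≤ B →
        (∀ x ∈ B, ∀ i, x i ∈ C ∧ 𝔓.p • x i = 0) → (∀ σ ∈ 𝔓.I, ∀ x ∈ A, σ • x ∈ A) →
        (∀ σ ∈ 𝔓.I, ∀ x ∈ B, σ • x - x ∈ A) → B ≤ A) := by
    obtain ⟨M, hM⟩ := s33w_model_final 𝔓 N'' h h4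
    refine ⟨s33gC 𝔓 N'' h, rfl, ?_⟩
    intro d A B hAB hB _ hBA
    haveI := s33w_Cp_finite 𝔓 N'' h
    exact s33c_F3_of_model (s33wCp 𝔓 N'' h) (s33wActC 𝔓 N'' h)
      (fun σ hσ y => s33wActC_coe 𝔓 N'' h hσ y) M hM hp2 d A B hAB
      (fun x hx i => hB x hx i) hBA
  subst hF12
  -- push the two subgroups forward along the pull-back
  let Φ : (Fin d → JZero K) →+ (Fin d → JZero (N'' * 𝔓.p)) := (dlwPullDvd hK).compLeft (Fin d)
  have hΦapp : ∀ (x : Fin d → JZero K) (i : Fin d), Φ x i = dlwPullDvd hK (x i) :=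
    fun x i => rfl
  have hΦσ : ∀ (σ : GQ) (x : Fin d → JZero K), Φ (σ • x) = σ • Φ x := by
    intro σ x
    funext i
    rw [hΦapp, Pi.smul_apply, Pi.smul_apply, hΦapp, dlwPullDvd_galois]
  have hle : B.map Φ ≤ A.map Φ := by
    refine hF3 d (A.map Φ) (B.map Φ) (AddSubgroup.map_mono hAB) ?_ ?_ ?_
    · rintro y ⟨x, hx, rfl⟩ i
      obtain ⟨h1, h2⟩ := hB x hx i
      refine ⟨h1, ?_⟩
      rw [hΦapp, ← map_nsmul, h2, map_zero]
    · rintro σ hσ y ⟨x, hx, rfl⟩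
      exact ⟨σ • x, hA σ hσ x hx, hΦσ σ x⟩
    · rintro σ hσ y ⟨x, hx, rfl⟩
      refine ⟨σ • x - x, hBA σ hσ x hx, ?_⟩
      rw [map_sub, hΦσ]
  intro x hx
  obtain ⟨a, ha, hax⟩ := hle (AddSubgroup.mem_map_of_mem Φ hx)
  -- injectivity on `p`-torsion
  have hxa : x = a := by
    funext i
    have h1 : 𝔓.p • (x i - a i) = 0 := by
      rw [nsmul_sub, (hB x hx i).2, (hB a (hAB ha) i).2, sub_zero]
    have h2 : dlwPullDvd hK (x i - a i) = 0 := by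
      rw [map_sub, ← hΦapp, ← hΦapp, hax, sub_self]
    have h3 := dlwPullDvd_eq_zero hK 𝔓.hp.ne_zero (x i - a i) h1 h2
    exact sub_eq_zero.mp h3
  rw [hxa]
  exact ha

end C

section Data

attribute [local instance] t2gp_fact

variable (𝔓 : FFPlace) {K : ℕ} [NeZero K] (N'' : ℕ) [NeZero N''] (h : ¬ 𝔓.p ∣ N'')
  (hK : K ∣ N'' * 𝔓.p)

/-- the Kummer maps of the Tate module of `J₀(K)` and the formal part `C_K` -/
theorem mltc_frobC_data :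
    S33wData (s33wKappa 𝔓.p K) (alptGal 𝔓.p K) 𝔓.I (mltcFrobC 𝔓 N'' h hK) :=
  s33w_data 𝔓.p K 𝔓.I (mltcFrobC 𝔓 N'' h hK)
    (fun σ hσ k x hx => mltc_frobC_F12 𝔓 N'' h hK σ hσ k x hx)

end Data

end

end Fermat.Agent.MLT
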