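/-
MLT stream Crit/Frob (helper6), part 3: **the matrix representation attached to an ordinary
deformation, adapted to the abstract Frobenius argument** (`Crit/FrobAbs.lean`).

`ρ` over a complete DVR `𝒪` (`p ∈ 𝔪`, `p` odd), residually absolutely irreducible, with cyclotomic
determinant and Frobenius polynomials `X² - a_ℓ X + ℓ` (`ℓ ∉ S`); `L` an ordinary line at `P ∣ p`,
`φ` a Frobenius element at `P` acting on `V / L` through `z`.  Then there is a continuous matrix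
representation `r ≅ ρ` with
* `tr r(Frob_ℓ) = a_ℓ`, `det r(Frob_ℓ) = ℓ` (`ℓ ∉ S`);
* `r c = diag(1, -1)` for the complex conjugation `c`, and non-zero off-diagonal entries;
* the inertia identity `(r τ - det r τ)(r σ - 1) = 0` on `I_P`;
* `ι₀ ∈ I_P` with `det r ι₀ ≠ 1`, and `z'` with `r φ ~ (z, z')`, `r (φ ι₀) ~ (z, z' det r ι₀)`.
-/
import Mathlib
import Fermat.Agent.Lib.MLT.Contracts.StepP
import Fermat.Agent.Lib.S53.MatInterface
import Fermat.Agent.Lib.Ihara.Car.Main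
import Fermat.Agent.Lib.Ihara.Sc.Gal
import Fermat.Agent.Lib.S33.Points
import Fermat.Agent.Lib.TW.Local.Arch

set_option autoImplicit false
set_option linter.unusedSectionVars false
set_option linter.unusedVariables false
set_option linter.style.haveILetI false

open Matrix IsLocalRing Polynomial Fermat.Agent.S53Lib Fermat.Agent.Ihara Fermat.Agent.S33L

namespace Fermat.Agent.MLT

local notation "Qbar" => AlgebraicClosure ℚ
local notation "GQ" => (AlgebraicClosure ℚ ≃ₐ[ℚ] AlgebraicClosure ℚ)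

section Mat

variable {A : Type*} [CommRing A]

/-- the inertia identity for upper triangular matrices with lower right entry `1` -/
theorem mltc_frob_mat_identity (Mτ Mσ : Matrix (Fin 2) (Fin 2) A) (hτ0 : Mτ 1 0 = 0)
    (hτ1 : Mτ 1 1 = 1) (hσ0 : Mσ 1 0 = 0) (hσ1 : Mσ 1 1 = 1) :
    (Mτ - Mτ.det • (1 : Matrix (Fin 2) (Fin 2) A)) * (Mσ - 1) = 0 := by
  ext i j
  fin_cases i <;> fin_cases j <;>
    simp [Matrix.mul_apply, Fin.sum_univ_two, Matrix.det_fin_two, hτ0, hτ1, hσ0, hσ1]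

theorem mltc_frob_mat_trace (M : Matrix (Fin 2) (Fin 2) A) (z : A) (h0 : M 1 0 = 0)
    (h1 : M 1 1 = z) : M.trace = z + M 0 0 ∧ M.det = z * M 0 0 := by
  refine ⟨?_, ?_⟩
  · rw [Matrix.trace_fin_two, h1, add_comm]
  · rw [Matrix.det_fin_two, h0, h1, mul_zero, sub_zero, mul_comm]

theorem mltc_frob_mat_mul (Mφ Mι : Matrix (Fin 2) (Fin 2) A) (z : A) (hφ0 : Mφ 1 0 = 0)
    (hφ1 : Mφ 1 1 = z) (hι0 : Mι 1 0 = 0) (hι1 : Mι 1 1 = 1) :
    (Mφ * Mι).trace = z + Mφ 0 0 * Mι.det ∧ (Mφ * Mι).det = z * Mφ 0 0 * Mι.det := by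
  refine ⟨?_, ?_⟩
  · rw [Matrix.trace_fin_two, Matrix.mul_apply, Matrix.mul_apply, Fin.sum_univ_two,
      Fin.sum_univ_two, Matrix.det_fin_two, hφ0, hφ1, hι0, hι1]
    ring
  · rw [Matrix.det_mul, Matrix.det_fin_two, Matrix.det_fin_two, hφ0, hφ1, hι0, hι1]
    ring

/-- comparison of monic quadratic polynomials -/
theorem mltc_frob_quad_eq (t d t' d' : A) (h : (X : A[X]) ^ 2 - C t * X + C d = X ^ 2 - C t' * X + C d') :
    t = t' ∧ d = d' := by
  have h4 := congrArg (fun q : A[X] => q.coeff 1) h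
  have h5 := congrArg (fun q : A[X] => q.coeff 0) h
  simp only [coeff_add, coeff_sub, coeff_X_pow, coeff_C_mul, coeff_X_one, coeff_C_zero,
    coeff_X_zero, mul_one, mul_zero, coeff_C_succ] at h4 h5
  norm_num at h4 h5
  exact ⟨h4, h5⟩

end Mat

section Line

variable {A : Type} [CommRing A] [IsLocalRing A] (ρ : GaloisRepAdic A)
  (b : Module.Basis (Fin 2) A ρ.V)

theorem mltc_frob_repr_eq_zero {x : ρ.V} (hx : x ∈ Submodule.span A {b 0}) : b.repr x 1 = 0 := by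
  obtain ⟨t, rfl⟩ := Submodule.mem_span_singleton.mp hx
  rw [map_smul, Module.Basis.repr_self, Finsupp.smul_apply, Finsupp.single_apply,
    if_neg (by decide), smul_zero]

/-- an endomorphism stabilising the line `A b₀` is upper triangular in the basis `b` -/
theorem mltc_frob_entry_10 (f : Module.End A ρ.V)
    (hf : ∀ v ∈ Submodule.span A {b 0}, f v ∈ Submodule.span A {b 0}) :
    LinearMap.toMatrix b b f 1 0 = 0 := by
  rw [LinearMap.toMatrix_apply]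
  exact mltc_frob_repr_eq_zero ρ b (hf _ (Submodule.mem_span_singleton_self _))

/-- an endomorphism acting on `V / A b₀` through `w` has lower right entry `w` -/
theorem mltc_frob_entry_11 (f : Module.End A ρ.V) (w : A)
    (hf : ∀ v : ρ.V, f v - w • v ∈ Submodule.span A {b 0}) :
    LinearMap.toMatrix b b f 1 1 = w := by
  rw [LinearMap.toMatrix_apply]
  have h1 := mltc_frob_repr_eq_zero ρ b (hf (b 1))
  rw [map_sub, map_smul, Module.Basis.repr_self, Finsupp.sub_apply, Finsupp.smul_apply,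
    Finsupp.single_apply, if_pos rfl, smul_eq_mul, mul_one, sub_eq_zero] at h1
  exact h1

end Line

section Rep

variable {𝒪 : Type} [CommRing 𝒪] [IsDomain 𝒪] [IsDiscreteValuationRing 𝒪] [CharZero 𝒪]

/-- `2` is a unit -/
theorem mltc_frob_isUnit_two {p : ℕ} (hp : p.Prime) (hp2 : p ≠ 2)
    (hp𝒪 : (p : 𝒪) ∈ maximalIdeal 𝒪) : IsUnit (2 : 𝒪) := by
  by_contra h2n
  have h2m : (2 : 𝒪) ∈ maximalIdeal 𝒪 := h2n
  obtain ⟨m, hm⟩ : Odd p := hp.eq_two_or_odd'.resolve_left hp2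
  have h1 : (1 : 𝒪) ∈ maximalIdeal 𝒪 := by
    have e : (1 : 𝒪) = (p : 𝒪) - 2 * (m : 𝒪) := by
      rw [hm]
      push_cast
      ring
    rw [e]
    exact Ideal.sub_mem _ hp𝒪 (Ideal.mul_mem_right _ _ h2m)
  exact (Ideal.ne_top_iff_one _).mp (maximalIdeal.isMaximal 𝒪).ne_top h1

/-- the determinant of the complex conjugation is `-1` -/
theorem mltc_frob_det_conj {p : ℕ} [Fact p.Prime] (hp2 : p ≠ 2) (ρ : GaloisRepAdic 𝒪)
    (hcyc : ρ.DetIsCyclotomic p) : LinearMap.det (ρ.ρ complexConjugation) = -1 := by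
  have hp : p.Prime := Fact.out
  obtain ⟨hp𝒪, h⟩ := hcyc
  have h2u := mltc_frob_isUnit_two hp hp2 hp𝒪
  set d := LinearMap.det (ρ.ρ complexConjugation) with hd
  have hdd : d * d = 1 := by
    rw [hd, ← map_mul, ← map_mul, complexConjugation_mul_self, map_one, map_one]
  -- `d ≡ -1` modulo `p`
  have h1 := h 1 complexConjugation (p - 1) (by
    intro μ hμ
    rw [pow_one] at hμ
    rw [Fermat.Agent.TW.tw_complexConjugation_rootOfUnity hp.pos hμ]
    have hμ0 : μ ≠ 0 := by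
      rintro rfl
      rw [zero_pow hp.pos.ne'] at hμ
      exact zero_ne_one hμ
    rw [inv_eq_iff_eq_inv, ← one_div, eq_div_iff (pow_ne_zero _ hμ0), ← pow_succ',
      Nat.sub_add_cancel hp.one_le, hμ])
  have h3 : d + 1 ∈ maximalIdeal 𝒪 := by
    have h4 : d + 1 = (d - ((p - 1 : ℕ) : 𝒪)) + (p : 𝒪) := by
      rw [Nat.cast_sub hp.one_le]
      push_cast
      ring
    rw [h4]
    refine Ideal.add_mem _ ?_ hp𝒪
    have h5 : Ideal.span {((p ^ 1 : ℕ) : 𝒪)} ≤ maximalIdeal 𝒪 := by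
      rw [Ideal.span_singleton_le_iff_mem, pow_one]
      exact hp𝒪
    exact h5 h1
  -- `d = ± 1`
  have h6 : (d - 1) * (d + 1) = 0 := by
    have : (d - 1) * (d + 1) = d * d - 1 := by ring
    rw [this, hdd, sub_self]
  rcases mul_eq_zero.mp h6 with h7 | h7
  · exfalso
    have hd1 : d = 1 := sub_eq_zero.mp h7
    rw [hd1, one_add_one_eq_two] at h3
    exact h3 h2u
  · exact eq_neg_of_add_eq_zero_left h7

variable [IsAdicComplete (maximalIdeal 𝒪) 𝒪]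

/-- **the adapted matrix representation** -/
theorem mltc_frob_rep (p : ℕ) [Fact p.Prime] (hp2 : p ≠ 2) (hp𝒪 : (p : 𝒪) ∈ maximalIdeal 𝒪)
    (S : Finset ℕ) (ρbar : ResidualGaloisRep (ResidueField 𝒪)) (habs : ρbar.IsAbsolutelyIrreducible)
    (a : ℕ → 𝒪) (ρ : GaloisRepAdic 𝒪)
    (hres : ρ.residual.IsEquiv (ρbar.baseChangeAlong (ResidueField.map (algebraMap 𝒪 𝒪))))
    (hcyc : ρ.DetIsCyclotomic p)
    (hfrob : ∀ ℓ : ℕ, ℓ.Prime → ℓ ∉ S → ∀ P : ValuationSubring Qbar, P.LiesOverPrime ℓ →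
      ∀ σ : GQ, P.IsFrobeniusAt σ ℓ →
        LinearMap.charpoly (ρ.ρ σ) = X ^ 2 - C (a ℓ) * X + C ((ℓ : 𝒪)))
    (P : ValuationSubring Qbar) (hP : P.LiesOverPrime p) (L : Submodule 𝒪 ρ.V)
    (hL : MltcOrdLine ρ P L) (φ : GQ) (hφ : P.IsFrobeniusAt φ p) (z : 𝒪)
    (hz : MltcFrobOn ρ L φ z) :
    ∃ r : GQ →* Matrix (Fin 2) (Fin 2) 𝒪, MatCts 𝒪 r ∧
      (∀ ℓ : ℕ, ℓ.Prime → ℓ ∉ S → ∀ P' : ValuationSubring Qbar, P'.LiesOverPrime ℓ →
        ∀ σ : GQ, P'.IsFrobeniusAt σ ℓ → (r σ).trace = a ℓ ∧ (r σ).det = (ℓ : 𝒪)) ∧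
      r complexConjugation = !![1, 0; 0, -1] ∧
      (∃ g₁ : GQ, r g₁ 0 1 ≠ 0) ∧ (∃ g₂ : GQ, r g₂ 1 0 ≠ 0) ∧
      (∀ σ ∈ P.inertiaSubgroupIn ℚ, ∀ τ ∈ P.inertiaSubgroupIn ℚ,
        (r τ - (r τ).det • (1 : Matrix (Fin 2) (Fin 2) 𝒪)) * (r σ - 1) = 0) ∧
      ∃ ι₀ ∈ P.inertiaSubgroupIn ℚ, (r ι₀).det ≠ 1 ∧ ∃ z' : 𝒪,
        (r φ).trace = z + z' ∧ (r φ).det = z * z' ∧
        (r (φ * ι₀)).trace = z + z' * (r ι₀).det ∧ (r (φ * ι₀)).det = z * z' * (r ι₀).det ∧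
        z' * ((r ι₀).det - 1) ≠ 0 := by
  classical
  have hp : p.Prime := Fact.out
  have h3 : 3 ≤ p := by
    have := hp.two_le
    omega
  have h2u := mltc_frob_isUnit_two hp hp2 hp𝒪
  -- the basis adapted to the complex conjugation
  obtain ⟨e, he⟩ := ihc_exists_basis_involution h2u ρ.finrank_eq (ρ.ρ complexConjugation)
    (by rw [← map_mul, complexConjugation_mul_self, map_one]) (mltc_frob_det_conj hp2 ρ hcyc)
  -- the basis adapted to the line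
  obtain ⟨⟨b, hLb⟩, hLD, hLI⟩ := hL
  have hI_D : ∀ σ ∈ P.inertiaSubgroupIn ℚ, σ ∈ P.decompositionSubgroup ℚ := by
    rintro σ ⟨σ', -, rfl⟩
    exact σ'.2
  have hD0 : ∀ σ ∈ P.decompositionSubgroup ℚ, LinearMap.toMatrix b b (ρ.ρ σ) 1 0 = 0 :=
    fun σ hσ => mltc_frob_entry_10 ρ b (ρ.ρ σ) (fun v hv => by
      rw [← hLb] at hv ⊢
      exact hLD σ hσ v hv)
  have hI1 : ∀ σ ∈ P.inertiaSubgroupIn ℚ, LinearMap.toMatrix b b (ρ.ρ σ) 1 1 = 1 :=
    fun σ hσ => mltc_frob_entry_11 ρ b (ρ.ρ σ) 1 (fun v => by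
      rw [one_smul, ← hLb]
      exact hLI σ hσ v)
  have hφ1 : LinearMap.toMatrix b b (ρ.ρ φ) 1 1 = z :=
    mltc_frob_entry_11 ρ b (ρ.ρ φ) z (fun v => by
      rw [← hLb]
      exact hz v)
  have hφD : φ ∈ P.decompositionSubgroup ℚ := hφ.mem_decompositionSubgroup
  -- traces and determinants do not depend on the basis
  have htr : ∀ g : GQ, (LinearMap.toMatrix e e (ρ.ρ g)).trace
      = (LinearMap.toMatrix b b (ρ.ρ g)).trace := fun g => by
    rw [← LinearMap.trace_eq_matrix_trace 𝒪 e, ← LinearMap.trace_eq_matrix_trace 𝒪 b]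
  have hdt : ∀ g : GQ, (LinearMap.toMatrix e e (ρ.ρ g)).det
      = (LinearMap.toMatrix b b (ρ.ρ g)).det := fun g => by
    rw [LinearMap.det_toMatrix, LinearMap.det_toMatrix]
  obtain ⟨ι₀, hι₀, hι₀u⟩ := s33_exists_det_unit ρ p h3 hcyc P hP
  have hirr : ρ.residual.IsIrreducible :=
    (((ihdGram_of_abs ρbar habs).baseChangeAlong
      (ResidueField.map (algebraMap 𝒪 𝒪))).of_trace_eq
        (fun σ => (ihsc_ihdTr_of_isEquiv hres σ).symm)).isIrreducible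
  obtain ⟨⟨g₁, hg₁⟩, ⟨g₂, hg₂⟩⟩ := ihc_unit_offdiag ρ e hirr
  refine ⟨toMatrixRep ρ e, toMatrixRep_continuous ρ e, ?_, he, ⟨g₁, hg₁.ne_zero⟩,
    ⟨g₂, hg₂.ne_zero⟩, ?_, ι₀, hι₀, ?_, LinearMap.toMatrix b b (ρ.ρ φ) 0 0, ?_⟩
  · -- Frobenius elements
    intro ℓ hℓ hℓS P' hP' σ hσ
    have h1 := hfrob ℓ hℓ hℓS P' hP' σ hσ
    rw [← LinearMap.charpoly_toMatrix (ρ.ρ σ) e, Matrix.charpoly_fin_two] at h1
    exact mltc_frob_quad_eq _ _ _ _ h1
  · -- the inertia identity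
    intro σ hσ τ hτ
    have h1 := mltc_frob_mat_identity (LinearMap.toMatrix b b (ρ.ρ τ))
      (LinearMap.toMatrix b b (ρ.ρ σ)) (hD0 τ (hI_D τ hτ)) (hI1 τ hτ) (hD0 σ (hI_D σ hσ))
      (hI1 σ hσ)
    -- as an identity of endomorphisms
    have h4 : (ρ.ρ τ - LinearMap.det (ρ.ρ τ) • (1 : Module.End 𝒪 ρ.V)) * (ρ.ρ σ - 1) = 0 := by
      apply (LinearMap.toMatrix b b).injective
      rw [LinearMap.toMatrix_mul, map_sub, map_sub, map_smul, LinearMap.toMatrix_one, map_zero,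
        ← LinearMap.det_toMatrix b]
      exact h1
    have h5 := congrArg (LinearMap.toMatrix e e) h4
    rw [LinearMap.toMatrix_mul, map_sub, map_sub, map_smul, LinearMap.toMatrix_one, map_zero,
      ← LinearMap.det_toMatrix e] at h5
    exact h5
  · -- `det r ι₀ ≠ 1`
    intro h1
    have h4 : (toMatrixRep ρ e ι₀).det = LinearMap.det (ρ.ρ ι₀) := LinearMap.det_toMatrix e _
    rw [h4] at h1
    rw [h1, sub_self] at hι₀u
    exact not_isUnit_zero hι₀u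
  · -- the eigenvalues of `φ` and `φ ι₀`
    obtain ⟨h4, h5⟩ := mltc_frob_mat_trace (LinearMap.toMatrix b b (ρ.ρ φ)) z (hD0 φ hφD) hφ1
    obtain ⟨h6, h7⟩ := mltc_frob_mat_mul (LinearMap.toMatrix b b (ρ.ρ φ))
      (LinearMap.toMatrix b b (ρ.ρ ι₀)) z (hD0 φ hφD) hφ1 (hD0 ι₀ (hI_D ι₀ hι₀)) (hI1 ι₀ hι₀)
    have hmul : LinearMap.toMatrix b b (ρ.ρ (φ * ι₀))
        = LinearMap.toMatrix b b (ρ.ρ φ) * LinearMap.toMatrix b b (ρ.ρ ι₀) := by
      rw [map_mul, LinearMap.toMatrix_mul]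
    refine ⟨?_, ?_, ?_, ?_, ?_⟩
    · show (LinearMap.toMatrix e e (ρ.ρ φ)).trace = _
      rw [htr, h4]
    · show (LinearMap.toMatrix e e (ρ.ρ φ)).det = _
      rw [hdt, h5]
    · show (LinearMap.toMatrix e e (ρ.ρ (φ * ι₀))).trace
        = z + _ * (LinearMap.toMatrix e e (ρ.ρ ι₀)).det
      rw [htr, hdt, hmul, h6]
    · show (LinearMap.toMatrix e e (ρ.ρ (φ * ι₀))).det
        = z * _ * (LinearMap.toMatrix e e (ρ.ρ ι₀)).det
      rw [hdt, hdt ι₀, hmul, h7]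
    · have h8 : (toMatrixRep ρ e ι₀).det = LinearMap.det (ρ.ρ ι₀) := LinearMap.det_toMatrix e _
      rw [h8]
      refine mul_ne_zero ?_ hι₀u.ne_zero
      intro h0
      have h9 : LinearMap.det (ρ.ρ φ) = 0 := by
        rw [← LinearMap.det_toMatrix b, h5, h0, mul_zero]
      have h10 : LinearMap.det (ρ.ρ φ) * LinearMap.det (ρ.ρ φ⁻¹) = 1 := by
        rw [← map_mul, ← map_mul, mul_inv_cancel, map_one, map_one]
      rw [h9, zero_mul] at h10
      exact zero_ne_one h10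

end Rep

end Fermat.Agent.MLT
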