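/-
MLT stream Crit/Frob (helper6), part 5: **(D-fl) Eichler–Shimura at `p`, level prime to `p`**:
`MltcEsTTContract → MltcFrobFlContract`.

`Y = ihnYT p N a S ⊆ 𝒪 ⊗ Ta_p J₀(N)`; the formal part `C_N` is the pull-back of `s33gC 𝔓 (N * 4)` along
`J₀(N) → J₀(N * 4 * p)`; the abstract argument `mltc_frob_FL` gives `z T_p = z² + p` on `Y`, and the
link `ihnLink` transports this to the classes of level `N`.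
-/
import Mathlib
import Fermat.Agent.Lib.MLT.Crit.FrobAbs
import Fermat.Agent.Lib.MLT.Crit.FrobRep
import Fermat.Agent.Lib.MLT.Crit.FrobC
import Fermat.Agent.Lib.MLT.Contracts.FrobGeo
import Fermat.Agent.Lib.Ihara.Nf.Link
import Fermat.Agent.Lib.T1.Asm.PadicAlgebra

set_option autoImplicit false
set_option linter.unusedSectionVars false
set_option linter.unusedVariables false
set_option linter.style.haveILetI false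

open scoped TensorProduct
open Matrix IsLocalRing Polynomial CongruenceSubgroup Fermat.Agent.T1 Fermat.Agent.T2
  Fermat.Agent.TW Fermat.Agent.S33 Fermat.Agent.S33W Fermat.Agent.Alpha Fermat.Agent.Delta
  Fermat.Agent.Ihara Fermat.Agent.S53Lib Fermat.Agent.S33L ModularCurve ModularCurve.Period
  Fermat.Agent.S24Lib

namespace Fermat.Agent.MLT

local notation "Qbar" => AlgebraicClosure ℚ
local notation "GQ" => (AlgebraicClosure ℚ ≃ₐ[ℚ] AlgebraicClosure ℚ)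

attribute [local instance] t2gp_fact
attribute [local instance] s33g_neZero

section Aux

variable (p : ℕ) [hp : Fact p.Prime] (N : ℕ) [NeZero N]
  {𝒪 : Type} [CommRing 𝒪] [IsDomain 𝒪] [Algebra ℤ_[p] 𝒪] (lam : ℕ → 𝒪) (S : Finset ℕ)

/-- `Y_T` is saturated -/
theorem mltc_frob_YT_sat {c : 𝒪} (hc : c ≠ 0)
    {m : 𝒪 ⊗[ℤ_[p]] ↥(parabolicHoms ℤ_[p] (Gamma0 N) ℤ_[p])}
    (hm : c • m ∈ ihnYT p N lam S) : m ∈ ihnYT p N lam S := by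
  intro ℓ hℓ hℓN hℓS
  have h1 := hm ℓ hℓ hℓN hℓS
  rw [map_smul, smul_comm] at h1
  have h2 : c • ((tdmHeckeP p N (CuspForm.heckeAlgebra.T hℓ hℓN (Set.notMem_empty ℓ))).baseChange 𝒪 m
      - lam ℓ • m) = 0 := by
    rw [smul_sub, h1, sub_self]
  exact sub_eq_zero.mp ((smul_eq_zero.mp h2).resolve_left hc)

end Aux

section ES

variable {𝒪 : Type} [CommRing 𝒪] [IsDomain 𝒪]

/-- **Eichler–Shimura at `p` modulo the formal part on `𝒪 ⊗ Ta_p J₀(N)`** -/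
theorem mltc_frobFl_ES (hES : MltcEsTTContract) (𝔓 : FFPlace) [Algebra ℤ_[𝔓.p] 𝒪]
    (N : ℕ) [NeZero N] (hN : ¬ 𝔓.p ∣ N) (N' : ℕ) [NeZero N'] (h : ¬ 𝔓.p ∣ N') (hNN' : N ∣ N')
    (hK : N ∣ N' * 𝔓.p) (φ : GQ) (hφ : 𝔓.P.IsFrobeniusAt φ 𝔓.p)
    (m : 𝒪 ⊗[ℤ_[𝔓.p]] ↥(parabolicHoms ℤ_[𝔓.p] (Gamma0 N) ℤ_[𝔓.p])) :
    (alptGal 𝔓.p N φ).baseChange 𝒪 ((alptGal 𝔓.p N φ).baseChange 𝒪 m)
      - (tdmHeckeP 𝔓.p N (CuspForm.heckeAlgebra.T 𝔓.hp hN (Set.notMem_empty 𝔓.p))).baseChange 𝒪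
          ((alptGal 𝔓.p N φ).baseChange 𝒪 m)
      + (𝔓.p : 𝒪) • m ∈ s33wM00 𝒪 (mltc_frobC_data 𝔓 N' h hK) := by
  set Tp := tdmHeckeP 𝔓.p N (CuspForm.heckeAlgebra.T 𝔓.hp hN (Set.notMem_empty 𝔓.p)) with hTp
  set ET : Module.End ℤ_[𝔓.p] ↥(parabolicHoms ℤ_[𝔓.p] (Gamma0 N) ℤ_[𝔓.p]) :=
    alptGal 𝔓.p N φ * alptGal 𝔓.p N φ - Tp * alptGal 𝔓.p N φ
      + (𝔓.p : ℤ_[𝔓.p]) • (1 : Module.End ℤ_[𝔓.p] ↥(parabolicHoms ℤ_[𝔓.p] (Gamma0 N) ℤ_[𝔓.p]))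
    with hET
  have hEST : ∀ t : ↥(parabolicHoms ℤ_[𝔓.p] (Gamma0 N) ℤ_[𝔓.p]),
      ET t ∈ s33wT00 (mltc_frobC_data 𝔓 N' h hK) := by
    intro t k
    have h1 := hES 𝔓 N hN N' h hNN' φ hφ t k
    have h2 : ET t = alptGal 𝔓.p N φ (alptGal 𝔓.p N φ t) - Tp (alptGal 𝔓.p N φ t)
        + (𝔓.p : ℤ_[𝔓.p]) • t := by
      rw [hET]
      simp only [LinearMap.add_apply, LinearMap.sub_apply, Module.End.mul_apply,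
        LinearMap.smul_apply, Module.End.one_apply]
    rw [h2, mem_mltcFrobC]
    exact h1
  have h1 := mltc_frob_baseChange_mem 𝒪 (mltc_frobC_data 𝔓 N' h hK) ET hEST m
  rw [hET] at h1
  simp only [LinearMap.baseChange_add, LinearMap.baseChange_sub, LinearMap.baseChange_smul,
    Module.End.mul_eq_comp, LinearMap.baseChange_comp, Module.End.one_eq_id,
    LinearMap.baseChange_id, LinearMap.add_apply, LinearMap.sub_apply, LinearMap.comp_apply,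
    LinearMap.smul_apply, LinearMap.id_apply] at h1
  have h3 : (𝔓.p : ℤ_[𝔓.p]) • m = (𝔓.p : 𝒪) • m := by
    rw [Nat.cast_smul_eq_nsmul, Nat.cast_smul_eq_nsmul]
  rw [h3] at h1
  exact h1

end ES

section Core

variable {𝒪 : Type} [CommRing 𝒪] [IsDomain 𝒪] [IsDiscreteValuationRing 𝒪] [CharZero 𝒪]
  [IsAdicComplete (maximalIdeal 𝒪) 𝒪] [Finite (ResidueField 𝒪)]

/-- **(D-fl) on the Hecke eigenpart of `𝒪 ⊗ Ta_p J₀(N)`** -/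
theorem mltc_frobFl_Y (hES : MltcEsTTContract) (𝔓 : FFPlace) (hp2 : 𝔓.p ≠ 2)
    [Algebra ℤ_[𝔓.p] 𝒪] (hp𝒪 : (𝔓.p : 𝒪) ∈ maximalIdeal 𝒪) (N : ℕ) [NeZero N] (hN : ¬ 𝔓.p ∣ N)
    (S : Finset ℕ) (hpS : 𝔓.p ∈ S) (hNS : ∀ r : ℕ, r.Prime → r ∣ N → r ∈ S)
    (ρbar : ResidualGaloisRep (ResidueField 𝒪)) (habs : ρbar.IsAbsolutelyIrreducible)
    (a : ℕ → 𝒪) (ρ : GaloisRepAdic 𝒪)
    (hres : ρ.residual.IsEquiv (ρbar.baseChangeAlong (ResidueField.map (algebraMap 𝒪 𝒪))))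
    (hcyc : ρ.DetIsCyclotomic 𝔓.p)
    (hfrob : ∀ ℓ : ℕ, ℓ.Prime → ℓ ∉ S → ∀ P : ValuationSubring Qbar, P.LiesOverPrime ℓ →
      ∀ σ : GQ, P.IsFrobeniusAt σ ℓ →
        LinearMap.charpoly (ρ.ρ σ) = X ^ 2 - C (a ℓ) * X + C ((ℓ : 𝒪)))
    (L : Submodule 𝒪 ρ.V) (hL : MltcOrdLine ρ 𝔓.P L) (φ : GQ) (hφ : 𝔓.P.IsFrobeniusAt φ 𝔓.p)
    (z : 𝒪) (hz : MltcFrobOn ρ L φ z)
    (y : 𝒪 ⊗[ℤ_[𝔓.p]] ↥(parabolicHoms ℤ_[𝔓.p] (Gamma0 N) ℤ_[𝔓.p])) (hy : y ∈ ihnYT 𝔓.p N a S) :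
    z • (tdmHeckeP 𝔓.p N (CuspForm.heckeAlgebra.T 𝔓.hp hN (Set.notMem_empty 𝔓.p))).baseChange 𝒪 y
      = (z ^ 2 + (𝔓.p : 𝒪)) • y := by
  classical
  have hp : 𝔓.p.Prime := 𝔓.hp
  have hp0 : (𝔓.p : 𝒪) ≠ 0 := Nat.cast_ne_zero.2 hp.ne_zero
  haveI : Finite (𝒪 ⧸ Ideal.span {(𝔓.p : 𝒪)}) := alpp_finite_quot _ hp0
  have h2lt : 2 < 𝔓.p := by
    have := hp.two_le
    omega
  -- the level `N * 4`
  haveI : NeZero (N * 4) := ⟨Nat.mul_ne_zero (NeZero.ne N) (by norm_num)⟩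
  have h4 : ¬ 𝔓.p ∣ N * 4 := by
    intro hd
    rcases (Nat.Prime.dvd_mul hp).mp hd with hd | hd
    · exact hN hd
    · have h4' : 𝔓.p ∣ 2 ^ 2 := by norm_num; exact hd
      exact hp2 ((Nat.prime_dvd_prime_iff_eq hp Nat.prime_two).mp (hp.dvd_of_dvd_pow h4'))
  have hNN' : N ∣ N * 4 := Dvd.intro 4 rfl
  have hK : N ∣ N * 4 * 𝔓.p := Dvd.dvd.mul_right hNN' 𝔓.p
  have hF3 := mltc_frobC_F3 𝔓 (N * 4) h4 hK (Dvd.intro_left N rfl) h2lt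
  -- the matrix representation
  obtain ⟨r, hcts, hrfrob, hrc, ⟨g₁, hg₁⟩, ⟨g₂, hg₂⟩, hI, ι₀, hι₀, hdet, z', htr, hdt, htr', hdt',
    hne⟩ := mltc_frob_rep 𝔓.p hp2 hp𝒪 S ρbar habs a ρ hres hcyc hfrob 𝔓.P 𝔓.hP L hL φ hφ z hz
  have h2 : (2 : 𝒪) ≠ 0 := two_ne_zero
  have hCH : ∀ g : GQ, ∀ y ∈ ihnYT 𝔓.p N a S,
      (alptGal 𝔓.p N g).baseChange 𝒪 ((alptGal 𝔓.p N g).baseChange 𝒪 y)
      - (r g).trace • (alptGal 𝔓.p N g).baseChange 𝒪 y + (r g).det • y = 0 := fun g y hy =>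
    ihnYT_CH 𝔓.p N hp𝒪 a S hpS hNS r hcts hrfrob g hy
  have hYst : ∀ g : GQ, ∀ y ∈ ihnYT 𝔓.p N a S, (alptGal 𝔓.p N g).baseChange 𝒪 y ∈ ihnYT 𝔓.p N a S :=
    fun g y hy => ihnYT_stable 𝔓.p N a S hy g
  have hYsat : ∀ c : 𝒪, c ≠ 0 → ∀ m : 𝒪 ⊗[ℤ_[𝔓.p]] ↥(parabolicHoms ℤ_[𝔓.p] (Gamma0 N) ℤ_[𝔓.p]),
      c • m ∈ ihnYT 𝔓.p N a S → m ∈ ihnYT 𝔓.p N a S :=
    fun c hc m hm => mltc_frob_YT_sat 𝔓.p N a S hc hm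
  have hnorm : ∀ τ ∈ 𝔓.I, φ * τ * φ⁻¹ ∈ 𝔓.I := fun τ hτ =>
    s33_conj_mem 𝔓.P hφ.mem_decompositionSubgroup hτ
  have hTpG : ∀ g : GQ, alptGal 𝔓.p N g
      * tdmHeckeP 𝔓.p N (CuspForm.heckeAlgebra.T 𝔓.hp hN (Set.notMem_empty 𝔓.p))
      = tdmHeckeP 𝔓.p N (CuspForm.heckeAlgebra.T 𝔓.hp hN (Set.notMem_empty 𝔓.p))
        * alptGal 𝔓.p N g := fun g => ihnGal_comm_T 𝔓.p N 𝔓.p hp hN g
  have hYT : ∀ y ∈ ihnYT 𝔓.p N a S,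
      (tdmHeckeP 𝔓.p N (CuspForm.heckeAlgebra.T 𝔓.hp hN (Set.notMem_empty 𝔓.p))).baseChange 𝒪 y
        ∈ ihnYT 𝔓.p N a S := by
    intro y hy
    refine ihnYT_stable_of_comm 𝔓.p N a S _ ?_ hy
    intro ℓ hℓ hℓN _
    rw [← map_mul, ← map_mul]
    exact congrArg _ (mul_comm _ _)
  exact mltc_frob_FL 𝒪 (mltc_frobC_data 𝔓 (N * 4) h4 hK) hF3 hp𝒪 hp0 r (ihnYT 𝔓.p N a S) hYst hYsat
    hCH h2 complexConjugation hrc g₁ g₂ hg₁ hg₂ hI ι₀ hι₀ hdet φ hnorm z z' (r ι₀).det htr hdt htr'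
    hdt' hne _ hTpG hYT
    (fun m => mltc_frobFl_ES hES 𝔓 N hN (N * 4) h4 hNN' hK φ hφ m) y hy

/-- **(D-fl)** for a place `𝔓` and a `ℤ_p`-algebra structure on `𝒪` -/
theorem mltc_frobFl_core (hES : MltcEsTTContract) (𝔓 : FFPlace) (hp2 : 𝔓.p ≠ 2)
    [Algebra ℤ_[𝔓.p] 𝒪] (hp𝒪 : (𝔓.p : 𝒪) ∈ maximalIdeal 𝒪) (N : ℕ) [NeZero N] (hN : ¬ 𝔓.p ∣ N)
    (S : Finset ℕ) (hpS : 𝔓.p ∈ S) (hNS : ∀ r : ℕ, r.Prime → r ∣ N → r ∈ S)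
    (ρbar : ResidualGaloisRep (ResidueField 𝒪)) (habs : ρbar.IsAbsolutelyIrreducible)
    (a : ℕ → 𝒪) (ρ : GaloisRepAdic 𝒪)
    (hres : ρ.residual.IsEquiv (ρbar.baseChangeAlong (ResidueField.map (algebraMap 𝒪 𝒪))))
    (hcyc : ρ.DetIsCyclotomic 𝔓.p)
    (hfrob : ∀ ℓ : ℕ, ℓ.Prime → ℓ ∉ S → ∀ P : ValuationSubring Qbar, P.LiesOverPrime ℓ →
      ∀ σ : GQ, P.IsFrobeniusAt σ ℓ →
        LinearMap.charpoly (ρ.ρ σ) = X ^ 2 - C (a ℓ) * X + C ((ℓ : 𝒪)))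
    (L : Submodule 𝒪 ρ.V) (hL : MltcOrdLine ρ 𝔓.P L) (φ : GQ) (hφ : 𝔓.P.IsFrobeniusAt φ 𝔓.p)
    (z : 𝒪) (hz : MltcFrobOn ρ L φ z) (x : Ih4H 𝒪 𝒪 N)
    (hx : ∀ ℓ : ℕ, ℓ.Prime → ℓ ∉ S → ih4Op 𝒪 N ℓ x = a ℓ • x) :
    z • ih4Op 𝒪 N 𝔓.p x = (z ^ 2 + (𝔓.p : 𝒪)) • x := by
  have hp : 𝔓.p.Prime := 𝔓.hp
  have hxT : ∀ (ℓ : ℕ) (hℓ : ℓ.Prime) (hℓN : ¬ ℓ ∣ N), ℓ ∉ S →
      (tdmSysT N ℓ hℓ hℓN).homPar 𝒪 𝒪 x = a ℓ • x := by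
    intro ℓ hℓ hℓN hℓS
    have h1 := hx ℓ hℓ hℓS
    rw [ih4Op_of_not_dvd 𝒪 N hℓ hℓN] at h1
    exact h1
  have hyY : ihnLink 𝔓.p N 𝒪 x ∈ ihnYT 𝔓.p N a S := ihnLink_mem_YT 𝔓.p N a S x hxT
  have h5 := mltc_frobFl_Y hES 𝔓 hp2 hp𝒪 N hN S hpS hNS ρbar habs a ρ hres hcyc hfrob L hL φ hφ z hz
    _ hyY
  have e0 : ihnLink 𝔓.p N 𝒪 ((tdmSysT N 𝔓.p hp hN).homPar 𝒪 𝒪 x)
      = (tdmHeckeP 𝔓.p N (CuspForm.heckeAlgebra.T 𝔓.hp hN (Set.notMem_empty 𝔓.p))).baseChange 𝒪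
        (ihnLink 𝔓.p N 𝒪 x) := ihnLink_T 𝔓.p N 𝒪 𝔓.p hp hN x
  have e1 : ihnLink 𝔓.p N 𝒪 (z • (tdmSysT N 𝔓.p hp hN).homPar 𝒪 𝒪 x)
      = z • (tdmHeckeP 𝔓.p N (CuspForm.heckeAlgebra.T 𝔓.hp hN
        (Set.notMem_empty 𝔓.p))).baseChange 𝒪 (ihnLink 𝔓.p N 𝒪 x) :=
    (LinearEquiv.map_smul (ihnLink 𝔓.p N 𝒪) z _).trans (congrArg (z • ·) e0)
  have e2 : ihnLink 𝔓.p N 𝒪 ((z ^ 2 + (𝔓.p : 𝒪)) • x)
      = (z ^ 2 + (𝔓.p : 𝒪)) • ihnLink 𝔓.p N 𝒪 x :=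
    LinearEquiv.map_smul (ihnLink 𝔓.p N 𝒪) _ x
  have h6 : z • (tdmSysT N 𝔓.p hp hN).homPar 𝒪 𝒪 x = (z ^ 2 + (𝔓.p : 𝒪)) • x :=
    (ihnLink 𝔓.p N 𝒪).injective (e1.trans (h5.trans e2.symm))
  have h7 : ih4Op 𝒪 N 𝔓.p = (tdmSysT N 𝔓.p hp hN).homPar 𝒪 𝒪 := ih4Op_of_not_dvd 𝒪 N hp hN
  rw [h7]
  exact h6

end Core

/-- **(D-fl)** from the Eichler–Shimura relation at `p` modulo the formal part -/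
theorem mltc_frobFl (hES : MltcEsTTContract) : MltcFrobFlContract := by
  intro 𝒪 _ _ _ _ _ _ p hp hp2 hp𝒪 N _ hN S hpS hNS ρbar habs a ρ hres hcyc hfrob P hP L hL φ hφ z hz
    x hx
  haveI : Fact p.Prime := ⟨hp⟩
  letI : Algebra ℤ_[p] 𝒪 := tePadicAlgebra p 𝒪 hp𝒪
  exact mltc_frobFl_core hES ⟨P, p, hp, hP⟩ hp2 hp𝒪 N hN S hpS hNS ρbar habs a ρ hres hcyc hfrob
    L hL φ hφ z hz x hx

end Fermat.Agent.MLT
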