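/-
MLT stream Crit/Frob (helper6), part 6: **(D-new) the Frobenius eigenvalue of a `p`-new eigenclass**:
`MltcKeyTTContract → MltcFrobNewContract`.

Level `N' p`; the formal part `C` is the pull-back of `s33gC 𝔓 (N' * 4)` along
`J₀(N' p) → J₀(N' * 4 * p)`.  On the part `Y_ε` of the Hecke eigenpart where `U_p = ε`, `w_p = -ε`
(`ε = ± 1`): `u = (ε - φ) y = (U_p - φ) y ∈ Tinf` (`t2f_P1_TT` at `q = p`) and `w_p u = -ε u`, so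
`u ∈ Tinf ∩ w_p Tinf ⊆ T⁰⁰` (KEY), and the abstract argument `mltc_frob_NEW` gives `z = ε`.
-/
import Mathlib
import Fermat.Agent.Lib.MLT.Crit.FrobFl
import Fermat.Agent.Lib.Ihara.E.H8Class
import Fermat.Agent.Lib.T2.F.ToricLevel
import Fermat.Agent.Lib.T2.F.Uq

set_option autoImplicit false
set_option linter.unusedSectionVars false
set_option linter.unusedVariables false
set_option linter.style.haveILetI false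

open scoped TensorProduct
open Matrix IsLocalRing Polynomial CongruenceSubgroup Fermat.Agent.T1 Fermat.Agent.T2
  Fermat.Agent.TW Fermat.Agent.S33 Fermat.Agent.S33W Fermat.Agent.Alpha Fermat.Agent.Delta
  Fermat.Agent.Ihara Fermat.Agent.S53Lib Fermat.Agent.S33L ModularCurve ModularCurve.Period
  Fermat.Agent.S24Lib AlgebraicCurve

namespace Fermat.Agent.MLT

local notation "Qbar" => AlgebraicClosure ℚ
local notation "GQ" => (AlgebraicClosure ℚ ≃ₐ[ℚ] AlgebraicClosure ℚ)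

attribute [local instance] t2gp_fact
attribute [local instance] s33g_neZero

section Level

variable (𝔓 : FFPlace) (N' : ℕ) [NeZero N'] (h : ¬ 𝔓.p ∣ N')

theorem mltc_frob_neZero_mul4 : NeZero (N' * 4) := ⟨Nat.mul_ne_zero (NeZero.ne N') (by norm_num)⟩

attribute [local instance] mltc_frob_neZero_mul4

/-- the inclusion `F_{N' p} ⊆ F_{N' 4 p}` preserves the functions `≡ (1, 1)` -/
theorem mltc_frob_cong_level (h4 : ¬ 𝔓.p ∣ N' * 4) (hK : N' * 𝔓.p ∣ N' * 4 * 𝔓.p)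
    {Z : (↥(modularFunctionFieldBar (N' * 𝔓.p)))ˣ} (hZ : Z ∈ s33gCong 𝔓 N' h) :
    dlwInclU hK Z ∈ s33gCong 𝔓 (N' * 4) h4 := by
  haveI : NeZero (4 : ℕ) := ⟨by norm_num⟩
  rw [mem_s33gCong] at hZ ⊢
  refine ⟨?_, ?_⟩
  · rw [coe_dlwInclU]
    exact hZ.1
  · have h1 : ((dlwInclU hK Z : (↥(modularFunctionFieldBar (N' * 4 * 𝔓.p)))ˣ) :
        ↥(modularFunctionFieldBar (N' * 4 * 𝔓.p)))
        = t2flInc N' 𝔓.p 4 (Z : ↥(modularFunctionFieldBar (N' * 𝔓.p))) := rfl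
    rw [h1, t2fl_w N' 𝔓.p 4 h h4, coe_t2flInc]
    exact hZ.2

/-- the pull-back `J₀(N' p) → J₀(N' 4 p)` preserves the formal part -/
theorem mltc_frobC_level (h4 : ¬ 𝔓.p ∣ N' * 4) (hK : N' * 𝔓.p ∣ N' * 4 * 𝔓.p)
    {x : JZero (N' * 𝔓.p)} (hx : x ∈ s33gC 𝔓 N' h) :
    x ∈ mltcFrobC 𝔓 (N' * 4) h4 hK := by
  rw [mem_mltcFrobC]
  obtain ⟨k, Z, hZ, hZc, rfl⟩ := hx
  refine ⟨k, dlwInclU hK Z, dlw_dvd_ord_incl hK Z hZ, mltc_frob_cong_level 𝔓 N' h h4 hK hZc, ?_⟩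
  exact dlwPullDvd_class hK (s33g_pow_ne_zero 𝔓 k) Z hZ

/-- **`Tinf ∩ w_p Tinf` lies in the formal part of the Tate module** -/
theorem mltc_frobNew_T00 (hKEY : MltcKeyTTContract) (h4 : ¬ 𝔓.p ∣ N' * 4)
    (hK : N' * 𝔓.p ∣ N' * 4 * 𝔓.p) :
    t2fTinf (tddDict Qbar (N' * 𝔓.p)) 𝔓.P 𝔓.p
        ⊓ (t2fTinf (tddDict Qbar (N' * 𝔓.p)) 𝔓.P 𝔓.p).map (t2fW 𝔓.p N' 𝔓.p h)
      ≤ s33wT00 (mltc_frobC_data 𝔓 (N' * 4) h4 hK) := by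
  rintro x ⟨hx1, x', hx', rfl⟩ k
  have hx2 : t2fW 𝔓.p N' 𝔓.p h (t2fW 𝔓.p N' 𝔓.p h x')
      ∈ t2fTinf (tddDict Qbar (N' * 𝔓.p)) 𝔓.P 𝔓.p := by
    rw [t2fW_t2fW]
    exact hx'
  exact mltc_frobC_level 𝔓 N' h h4 hK (hKEY 𝔓 N' h _ hx1 hx2 k)

end Level

section Eps

variable {𝒪 : Type} [CommRing 𝒪] [IsDomain 𝒪] [CharZero 𝒪]

attribute [local instance] mltc_frob_neZero_mul4

/-- **`φ = ε` modulo the formal part** on a class with `U_p = ε`, `w_p = -ε` -/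
theorem mltc_frobNew_eps (hKEY : MltcKeyTTContract) (𝔓 : FFPlace) [Algebra ℤ_[𝔓.p] 𝒪]
    (N' : ℕ) [NeZero N'] (h : ¬ 𝔓.p ∣ N') (h4 : ¬ 𝔓.p ∣ N' * 4)
    (hK : N' * 𝔓.p ∣ N' * 4 * 𝔓.p) (φ : GQ) (hφ : 𝔓.P.IsFrobeniusAt φ 𝔓.p) (ε : 𝒪)
    (hε : ε ^ 2 = 1)
    {y : 𝒪 ⊗[ℤ_[𝔓.p]] ↥(parabolicHoms ℤ_[𝔓.p] (Gamma0 (N' * 𝔓.p)) ℤ_[𝔓.p])}
    (hUy : (t2fUq 𝔓.p N' 𝔓.p).baseChange 𝒪 y = ε • y)
    (hwy : (t2fW 𝔓.p N' 𝔓.p h).baseChange 𝒪 y = -(ε • y)) :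
    (alptGal 𝔓.p (N' * 𝔓.p) φ).baseChange 𝒪 y - ε • y
      ∈ s33wM00 𝒪 (mltc_frobC_data 𝔓 (N' * 4) h4 hK) := by
  haveI : Module.Flat ℤ_[𝔓.p] 𝒪 := t2f_flat_zp 𝔓.p 𝒪
  set g : Module.End ℤ_[𝔓.p] ↥(parabolicHoms ℤ_[𝔓.p] (Gamma0 (N' * 𝔓.p)) ℤ_[𝔓.p]) :=
    alptGal 𝔓.p (N' * 𝔓.p) φ with hg
  set w := t2fW 𝔓.p N' 𝔓.p h with hw
  set P := t2fTinf (tddDict Qbar (N' * 𝔓.p)) 𝔓.P 𝔓.p with hP
  set d : Module.End ℤ_[𝔓.p] ↥(parabolicHoms ℤ_[𝔓.p] (Gamma0 (N' * 𝔓.p)) ℤ_[𝔓.p]) :=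
    t2fUq 𝔓.p N' 𝔓.p - g with hd
  set u := d.baseChange 𝒪 y with hu
  have hrange : LinearMap.range d ≤ P := by
    rintro _ ⟨x, rfl⟩
    exact t2f_P1_TT 𝔓.p (tddDescent (N' * 𝔓.p)) t2f_P1K (tddDict_toMer Qbar (N' * 𝔓.p)) 𝔓.p 𝔓.hp
      (Dvd.intro_left N' rfl) 𝔓.P 𝔓.hP φ hφ x
  have hu1 : u ∈ P.baseChange 𝒪 :=
    Submodule.baseChange_mono 𝒪 hrange (t2f_baseChange_mem_range 𝒪 d y)
  have hu_eq : u = ε • y - g.baseChange 𝒪 y := by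
    rw [hu, hd, LinearMap.baseChange_sub, LinearMap.sub_apply, hUy]
  have hcomm : w.baseChange 𝒪 (g.baseChange 𝒪 y) = g.baseChange 𝒪 (w.baseChange 𝒪 y) := by
    have := congrArg (fun f => (f.baseChange 𝒪) y) (t2fW_comm_gal 𝔓.p N' 𝔓.p h
      (tddDescent (N' * 𝔓.p)) (tddDict_toMer Qbar (N' * 𝔓.p)) φ)
    simp only [LinearMap.baseChange_mul, Module.End.mul_apply] at this
    exact this.symm
  have hwu : w.baseChange 𝒪 u = -(ε • u) := by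
    rw [hu_eq, map_sub, map_smul, hcomm, hwy, map_neg, map_smul, smul_neg, smul_sub]
    abel
  have hu2 : u ∈ (P.map w).baseChange 𝒪 := by
    have h5 := t2f_baseChange_map 𝒪 w P (Submodule.smul_mem _ (-ε) hu1)
    rw [map_smul, hwu, smul_neg, neg_smul, neg_neg, smul_smul, ← pow_two, hε, one_smul] at h5
    exact h5
  have hu3 := t2f_baseChange_inf 𝒪 P (P.map w) hu1 hu2
  have hu4 : u ∈ (s33wT00 (mltc_frobC_data 𝔓 (N' * 4) h4 hK)).baseChange 𝒪 :=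
    Submodule.baseChange_mono 𝒪 (mltc_frobNew_T00 𝔓 N' h hKEY h4 hK) hu3
  have hu5 : u ∈ s33wM00 𝒪 (mltc_frobC_data 𝔓 (N' * 4) h4 hK) := by
    rw [Submodule.baseChange_eq_span] at hu4
    refine Submodule.span_le.mpr ?_ hu4
    rintro _ ⟨m, hm, rfl⟩
    exact s33w_tmul_mem 𝒪 (mltc_frobC_data 𝔓 (N' * 4) h4 hK) 1 hm
  have h6 : g.baseChange 𝒪 y - ε • y = -u := by
    rw [hu_eq]
    abel
  rw [h6]
  exact Submodule.neg_mem _ hu5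

end Eps

section YEps

variable (p : ℕ) [hp : Fact p.Prime] (N' q : ℕ) [NeZero N'] [hq : Fact q.Prime] (h : ¬ q ∣ N')
  {𝒪 : Type} [CommRing 𝒪] [IsDomain 𝒪] [CharZero 𝒪] [Algebra ℤ_[p] 𝒪]
  (a : ℕ → 𝒪) (S : Finset ℕ) (ε : 𝒪)

/-- the part of the Hecke eigenpart of `𝒪 ⊗ Ta_p J₀(N' q)` where `U_q = ε`, `w_q = -ε` -/
noncomputable def mltcFrobNewY :
    Submodule 𝒪 (𝒪 ⊗[ℤ_[p]] ↥(parabolicHoms ℤ_[p] (Gamma0 (N' * q)) ℤ_[p])) :=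
  ihnYT p (N' * q) a S
    ⊓ LinearMap.ker ((t2fUq p N' q).baseChange 𝒪 - ε • LinearMap.id)
    ⊓ LinearMap.ker ((t2fW p N' q h).baseChange 𝒪 + ε • LinearMap.id)

theorem mem_mltcFrobNewY {y : 𝒪 ⊗[ℤ_[p]] ↥(parabolicHoms ℤ_[p] (Gamma0 (N' * q)) ℤ_[p])} :
    y ∈ mltcFrobNewY p N' q h a S ε ↔ y ∈ ihnYT p (N' * q) a S
      ∧ (t2fUq p N' q).baseChange 𝒪 y = ε • y
      ∧ (t2fW p N' q h).baseChange 𝒪 y = -(ε • y) := by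
  rw [mltcFrobNewY, Submodule.mem_inf, Submodule.mem_inf, LinearMap.mem_ker, LinearMap.mem_ker,
    LinearMap.sub_apply, LinearMap.add_apply, LinearMap.smul_apply, LinearMap.id_apply,
    sub_eq_zero, add_eq_zero_iff_eq_neg, and_assoc]

theorem mltcFrobNewY_le : mltcFrobNewY p N' q h a S ε ≤ ihnYT p (N' * q) a S :=
  fun y hy => ((mem_mltcFrobNewY p N' q h a S ε).mp hy).1

/-- `Y_ε` is saturated -/
theorem mltcFrobNewY_sat {c : 𝒪} (hc : c ≠ 0)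
    {m : 𝒪 ⊗[ℤ_[p]] ↥(parabolicHoms ℤ_[p] (Gamma0 (N' * q)) ℤ_[p])}
    (hm : c • m ∈ mltcFrobNewY p N' q h a S ε) : m ∈ mltcFrobNewY p N' q h a S ε := by
  rw [mem_mltcFrobNewY] at hm ⊢
  obtain ⟨h1, h2, h3⟩ := hm
  refine ⟨mltc_frob_YT_sat p (N' * q) a S hc h1, ?_, ?_⟩
  · rw [map_smul, smul_comm] at h2
    have h4 : c • ((t2fUq p N' q).baseChange 𝒪 m - ε • m) = 0 := by
      rw [smul_sub, h2, sub_self]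
    exact sub_eq_zero.mp ((smul_eq_zero.mp h4).resolve_left hc)
  · rw [map_smul, smul_comm] at h3
    have h4 : c • ((t2fW p N' q h).baseChange 𝒪 m - -(ε • m)) = 0 := by
      rw [smul_sub, h3, smul_neg, sub_self]
    exact sub_eq_zero.mp ((smul_eq_zero.mp h4).resolve_left hc)

/-- `Y_ε` is Galois stable -/
theorem mltcFrobNewY_stable (g : GQ)
    {y : 𝒪 ⊗[ℤ_[p]] ↥(parabolicHoms ℤ_[p] (Gamma0 (N' * q)) ℤ_[p])}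
    (hy : y ∈ mltcFrobNewY p N' q h a S ε) :
    (alptGal p (N' * q) g).baseChange 𝒪 y ∈ mltcFrobNewY p N' q h a S ε := by
  rw [mem_mltcFrobNewY] at hy ⊢
  obtain ⟨h1, h2, h3⟩ := hy
  have hgU : ∀ y, (ihnGal p (N' * q) g).baseChange 𝒪 ((t2fUq p N' q).baseChange 𝒪 y)
      = (t2fUq p N' q).baseChange 𝒪 ((ihnGal p (N' * q) g).baseChange 𝒪 y) := fun y =>
    ihn_baseChange_comm 𝒪 (ihnGal_comm_U p (N' * q) q hq.out (Dvd.intro_left N' rfl) g) y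
  have hgW : ∀ y, (ihnGal p (N' * q) g).baseChange 𝒪 ((t2fW p N' q h).baseChange 𝒪 y)
      = (t2fW p N' q h).baseChange 𝒪 ((ihnGal p (N' * q) g).baseChange 𝒪 y) := fun y =>
    ihn_baseChange_comm 𝒪 (t2fW_comm_gal p N' q h (tddDescent (N' * q))
      (tddDict_toMer Qbar (N' * q)) g) y
  refine ⟨ihnYT_stable p (N' * q) a S h1 g, ?_, ?_⟩
  · exact ((hgU y).symm.trans (congrArg _ h2)).trans (map_smul _ _ _)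
  · refine ((hgW y).symm.trans (congrArg _ h3)).trans ?_
    rw [map_neg, map_smul]
    rfl

/-- a non-zero `q`-new eigenclass gives a non-zero element of some `Y_ε` -/
theorem mltcFrobNewY_ne_bot (c : ↥(parabolicHoms 𝒪 (Gamma0 (N' * q)) 𝒪)) (hc0 : c ≠ 0)
    (hcT : ∀ (ℓ : ℕ) (hℓ : ℓ.Prime) (hℓN : ¬ ℓ ∣ N' * q), ℓ ∉ S →
      (tdmSysT (N' * q) ℓ hℓ hℓN).homPar 𝒪 𝒪 c = a ℓ • c)
    (hcK : c ∈ ih4K (ih4Cor N' q h 𝒪 𝒪) (ih4W N' q h 𝒪 𝒪)) :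
    ∃ ε : 𝒪, ε ^ 2 = 1 ∧ mltcFrobNewY p N' q h a S ε ≠ ⊥ := by
  haveI : Module.Free 𝒪 (𝒪 ⊗[ℤ_[p]] ↥(parabolicHoms ℤ_[p] (Gamma0 (N' * q)) ℤ_[p])) :=
    inferInstance
  have hD := ih4_deg N' q h 𝒪 𝒪
  have hc1 : c + (tdmSysU (N' * q) q (Dvd.intro_left N' rfl) hq.out.ne_zero).homPar 𝒪 𝒪
      ((t2fSysW N' q h).homPar 𝒪 𝒪 c) = 0 := by
    have h1 := hD.α_β c
    rw [(ih4_mem_K.mp hcK).1, map_zero] at h1
    exact h1.symm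
  have hc2 : (t2fSysW N' q h).homPar 𝒪 𝒪 c
      + (tdmSysU (N' * q) q (Dvd.intro_left N' rfl) hq.out.ne_zero).homPar 𝒪 𝒪 c = 0 := by
    have h1 := ih4_U_of_mem_K hD hcK
    show ih4W N' q h 𝒪 𝒪 c + ih4U 𝒪 𝒪 (N' * q) q (Dvd.intro_left N' rfl) hq.out.ne_zero c = 0
    rw [h1, add_neg_cancel]
  set Λ := ihnLink p (N' * q) 𝒪 with hΛ
  have hy₀ne : Λ c ≠ 0 := fun h0 => hc0 (Λ.map_eq_zero_iff.mp h0)
  have hU : ∀ c' : ↥(parabolicHoms 𝒪 (Gamma0 (N' * q)) 𝒪),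
      Λ ((tdmSysU (N' * q) q (Dvd.intro_left N' rfl) hq.out.ne_zero).homPar 𝒪 𝒪 c')
        = (t2fUq p N' q).baseChange 𝒪 (Λ c') := fun c' =>
    ihnLink_U p (N' * q) 𝒪 q hq.out (Dvd.intro_left N' rfl) c'
  have hW : ∀ c' : ↥(parabolicHoms 𝒪 (Gamma0 (N' * q)) 𝒪),
      Λ ((t2fSysW N' q h).homPar 𝒪 𝒪 c') = (t2fW p N' q h).baseChange 𝒪 (Λ c') := fun c' =>
    ihnLink_homPar p (N' * q) 𝒪 (t2fSysW N' q h) c'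
  have hyK : Λ c ∈ ihePartK p N' q h (𝒪' := 𝒪) := by
    refine ⟨?_, ?_⟩
    · rw [← hW, ← hU, ← map_add, hc1, map_zero]
    · rw [← hW, ← hU, ← map_add, hc2, map_zero]
  have hyT : Λ c ∈ ihnYT p (N' * q) a S := ihnLink_mem_YT p (N' * q) a S c hcT
  have hUT : ∀ (ℓ : ℕ) (hℓ : ℓ.Prime) (hℓN : ¬ ℓ ∣ N' * q), ℓ ∉ S →
      t2fUq p N' q * tdmHeckeP p (N' * q) (CuspForm.heckeAlgebra.T hℓ hℓN (Set.notMem_empty ℓ))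
        = tdmHeckeP p (N' * q) (CuspForm.heckeAlgebra.T hℓ hℓN (Set.notMem_empty ℓ))
          * t2fUq p N' q := by
    intro ℓ hℓ hℓN _
    rw [t2fUq, ← map_mul, ← map_mul]
    exact congrArg _ (mul_comm _ _)
  set U := (t2fUq p N' q).baseChange 𝒪 with hUdef
  set W := (t2fW p N' q h).baseChange 𝒪 with hWdef
  have h2 : (2 : 𝒪) ≠ 0 := two_ne_zero
  have hUW : ∀ y ∈ ihePartK p N' q h (𝒪' := 𝒪), U y = -W y := fun y hy =>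
    eq_neg_of_add_eq_zero_right hy.2
  have hUU : U (U (Λ c)) = Λ c := by
    rw [hUW _ hyK, map_neg]
    have := hyK.1
    rw [neg_eq_iff_eq_neg]
    exact eq_neg_of_add_eq_zero_right this
  obtain ⟨e, y, he, hy, hUy, hyy⟩ := ihe_exists_eigen h2 U hy₀ne hUU
  have hyY : y ∈ ihnYT p (N' * q) a S ⊓ ihePartK p N' q h := by
    have hU0 : U (Λ c) ∈ ihnYT p (N' * q) a S ⊓ ihePartK p N' q h :=
      ⟨ihnYT_stable_of_comm p (N' * q) a S (t2fUq p N' q) hUT hyT, ihePartK_U p N' q h hyK⟩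
    rcases hyy with rfl | rfl
    · exact Submodule.add_mem _ ⟨hyT, hyK⟩ hU0
    · exact Submodule.sub_mem _ ⟨hyT, hyK⟩ hU0
  have he2 : e ^ 2 = 1 := by
    rcases he with rfl | rfl <;> ring
  have hWy : W y = -(e • y) := by
    have := hUW y hyY.2
    rw [hUy] at this
    rw [this, neg_neg]
  refine ⟨e, he2, fun hbot => hy ?_⟩
  have hmem : y ∈ mltcFrobNewY p N' q h a S e :=
    (mem_mltcFrobNewY p N' q h a S e).mpr ⟨hyY.1, hUy, hWy⟩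
  rw [hbot] at hmem
  exact (Submodule.mem_bot 𝒪).mp hmem

end YEps

section Core

variable {𝒪 : Type} [CommRing 𝒪] [IsDomain 𝒪] [IsDiscreteValuationRing 𝒪] [CharZero 𝒪]
  [IsAdicComplete (maximalIdeal 𝒪) 𝒪] [Finite (ResidueField 𝒪)]

/-- **(D-new)** for a place `𝔓` and a `ℤ_p`-algebra structure on `𝒪` -/
theorem mltc_frobNew_core (hKEY : MltcKeyTTContract) (𝔓 : FFPlace) (hp2 : 𝔓.p ≠ 2)
    [Algebra ℤ_[𝔓.p] 𝒪] (hp𝒪 : (𝔓.p : 𝒪) ∈ maximalIdeal 𝒪) (N' : ℕ) [NeZero N'] (h : ¬ 𝔓.p ∣ N')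
    (S : Finset ℕ) (hpS : 𝔓.p ∈ S) (hNS : ∀ r : ℕ, r.Prime → r ∣ N' → r ∈ S)
    (ρbar : ResidualGaloisRep (ResidueField 𝒪)) (habs : ρbar.IsAbsolutelyIrreducible)
    (a : ℕ → 𝒪) (ρ : GaloisRepAdic 𝒪)
    (hres : ρ.residual.IsEquiv (ρbar.baseChangeAlong (ResidueField.map (algebraMap 𝒪 𝒪))))
    (hcyc : ρ.DetIsCyclotomic 𝔓.p)
    (hfrob : ∀ ℓ : ℕ, ℓ.Prime → ℓ ∉ S → ∀ P : ValuationSubring Qbar, P.LiesOverPrime ℓ →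
      ∀ σ : GQ, P.IsFrobeniusAt σ ℓ →
        LinearMap.charpoly (ρ.ρ σ) = X ^ 2 - C (a ℓ) * X + C ((ℓ : 𝒪)))
    (L : Submodule 𝒪 ρ.V) (hL : MltcOrdLine ρ 𝔓.P L) (φ : GQ) (hφ : 𝔓.P.IsFrobeniusAt φ 𝔓.p)
    (z : 𝒪) (hz : MltcFrobOn ρ L φ z) (c : Ih4H 𝒪 𝒪 (N' * 𝔓.p)) (hc0 : c ≠ 0)
    (hc : ∀ ℓ : ℕ, ℓ.Prime → ℓ ∉ S → ih4Op 𝒪 (N' * 𝔓.p) ℓ c = a ℓ • c)
    (hcK : c ∈ ih4K (ih4Cor N' 𝔓.p h 𝒪 𝒪) (ih4W N' 𝔓.p h 𝒪 𝒪)) :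
    z ^ 2 = 1 := by
  classical
  have hp : 𝔓.p.Prime := 𝔓.hp
  have hp0 : (𝔓.p : 𝒪) ≠ 0 := Nat.cast_ne_zero.2 hp.ne_zero
  haveI : Finite (𝒪 ⧸ Ideal.span {(𝔓.p : 𝒪)}) := alpp_finite_quot _ hp0
  have h2lt : 2 < 𝔓.p := by
    have := hp.two_le
    omega
  haveI : NeZero (N' * 4) := ⟨Nat.mul_ne_zero (NeZero.ne N') (by norm_num)⟩
  have h4 : ¬ 𝔓.p ∣ N' * 4 := by
    intro hd
    rcases (Nat.Prime.dvd_mul hp).mp hd with hd | hd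
    · exact h hd
    · have h4' : 𝔓.p ∣ 2 ^ 2 := by norm_num; exact hd
      exact hp2 ((Nat.prime_dvd_prime_iff_eq hp Nat.prime_two).mp (hp.dvd_of_dvd_pow h4'))
  have hK : N' * 𝔓.p ∣ N' * 4 * 𝔓.p := ⟨4, by ring⟩
  have hF3 := mltc_frobC_F3 𝔓 (N' * 4) h4 hK (Dvd.intro_left N' rfl) h2lt
  have hNS' : ∀ r : ℕ, r.Prime → r ∣ N' * 𝔓.p → r ∈ S := by
    intro r hr hd
    rcases (Nat.Prime.dvd_mul hr).mp hd with hd | hd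
    · exact hNS r hr hd
    · rw [(Nat.prime_dvd_prime_iff_eq hr hp).mp hd]
      exact hpS
  -- the matrix representation
  obtain ⟨r, hcts, hrfrob, hrc, ⟨g₁, hg₁⟩, ⟨g₂, hg₂⟩, hI, ι₀, hι₀, hdet, z', htr, hdt, htr', hdt',
    hne⟩ := mltc_frob_rep 𝔓.p hp2 hp𝒪 S ρbar habs a ρ hres hcyc hfrob 𝔓.P 𝔓.hP L hL φ hφ z hz
  have h2 : (2 : 𝒪) ≠ 0 := two_ne_zero
  have hCH : ∀ g : GQ, ∀ y ∈ ihnYT 𝔓.p (N' * 𝔓.p) a S,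
      (alptGal 𝔓.p (N' * 𝔓.p) g).baseChange 𝒪 ((alptGal 𝔓.p (N' * 𝔓.p) g).baseChange 𝒪 y)
      - (r g).trace • (alptGal 𝔓.p (N' * 𝔓.p) g).baseChange 𝒪 y + (r g).det • y = 0 :=
    fun g y hy => ihnYT_CH 𝔓.p (N' * 𝔓.p) hp𝒪 a S hpS hNS' r hcts hrfrob g hy
  have hnorm : ∀ τ ∈ 𝔓.I, φ * τ * φ⁻¹ ∈ 𝔓.I := fun τ hτ =>
    s33_conj_mem 𝔓.P hφ.mem_decompositionSubgroup hτ
  have hcT : ∀ (ℓ : ℕ) (hℓ : ℓ.Prime) (hℓN : ¬ ℓ ∣ N' * 𝔓.p), ℓ ∉ S →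
      (tdmSysT (N' * 𝔓.p) ℓ hℓ hℓN).homPar 𝒪 𝒪 c = a ℓ • c := by
    intro ℓ hℓ hℓN hℓS
    have h1 := hc ℓ hℓ hℓS
    rw [ih4Op_of_not_dvd 𝒪 (N' * 𝔓.p) hℓ hℓN] at h1
    exact h1
  obtain ⟨ε, hε2, hYne⟩ := mltcFrobNewY_ne_bot 𝔓.p N' 𝔓.p h a S c hc0 hcT hcK
  have hzε : z = ε := by
    refine mltc_frob_NEW 𝒪 (mltc_frobC_data 𝔓 (N' * 4) h4 hK) hF3 hp𝒪 hp0 r
      (ihnYT 𝔓.p (N' * 𝔓.p) a S) hCH h2 complexConjugation hrc g₁ g₂ hg₁ hg₂ hI ι₀ hι₀ hdet φ hnorm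
      z z' (r ι₀).det htr hdt htr' hdt' hne ε (mltcFrobNewY 𝔓.p N' 𝔓.p h a S ε)
      (mltcFrobNewY_le 𝔓.p N' 𝔓.p h a S ε) hYne
      (fun m hm => mltcFrobNewY_sat 𝔓.p N' 𝔓.p h a S ε hp0 hm)
      (fun g m hm => mltcFrobNewY_stable 𝔓.p N' 𝔓.p h a S ε g hm) ?_
    intro y hy
    have hy' := (mem_mltcFrobNewY 𝔓.p N' 𝔓.p h a S ε).mp hy
    exact mltc_frobNew_eps hKEY 𝔓 N' h h4 hK φ hφ ε hε2 hy'.2.1 hy'.2.2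
  rw [hzε]
  exact hε2

end Core

/-- **(D-new)** from the key lemma `Tinf ∩ w_p Tinf ⊆ formal part` -/
theorem mltc_frobNew (hKEY : MltcKeyTTContract) : MltcFrobNewContract := by
  intro 𝒪 _ _ _ _ _ _ p hpF hp2 hp𝒪 N' _ h S hpS hNS ρbar habs a ρ hres hcyc hfrob P hP L hL φ hφ z hz
    c hc0 hc hcK
  have hp : p.Prime := hpF.out
  letI : Algebra ℤ_[p] 𝒪 := tePadicAlgebra p 𝒪 hp𝒪
  exact mltc_frobNew_core hKEY ⟨P, p, hp, hP⟩ hp2 hp𝒪 N' h S hpS hNS ρbar habs a ρ hres hcyc hfrob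
    L hL φ hφ z hz c hc0 hc hcK

end Fermat.Agent.MLT
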