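/-
MLT stream Crit/Frob (helper6), part 7: **(D-fl) and (D-new) closed**: the two Frobenius contracts of
`Contracts/StepP.lean` from helper1's geometric inputs `mlte_esTT` (Eichler–Shimura at `p` modulo the
formal part) and `mlte_keyTT` (`Tinf ∩ w_p Tinf ⊆` formal part).
-/
import Mathlib
import Fermat.Agent.Lib.MLT.Crit.FrobNew
import Fermat.Agent.Lib.MLT.Eta.KeyTT
import Fermat.Agent.Lib.MLT.Eta.EsTT

set_option autoImplicit false

namespace Fermat.Agent.MLT

/-- **(D-fl)** Eichler–Shimura at `p`, level prime to `p` -/
theorem mltc_frobFlContract : MltcFrobFlContract := mltc_frobFl mlte_esTT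

/-- **(D-new)** the Frobenius eigenvalue of a `p`-new eigenclass -/
theorem mltc_frobNewContract : MltcFrobNewContract := mltc_frobNew mlte_keyTT

end Fermat.Agent.MLT
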