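/-
MLT stream Crit (helper6): the Wiles--Lenstra criterion for noetherian local `R`
(reduction to the finite case through the quotients `R ⧸ (ker φ ⊓ p ^ N)` and Krull's
intersection theorem).
-/
import Fermat.Agent.Lib.MLT.Crit.Fin

set_option autoImplicit false
set_option linter.unusedSectionVars false
set_option linter.style.haveILetI false

namespace Fermat.Agent.MLT

universe u v w

open IsLocalRing

section Krull

variable {O : Type u} [CommRing O] [IsDomain O] [IsDiscreteValuationRing O]
  {R : Type v} [CommRing R] [IsLocalRing R] [IsNoetherianRing R] [Algebra O R]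

/-- `R ⧸ p ^ N` is spanned over `O` by finitely many elements (`p` the kernel of an
augmentation). -/
theorem mltc_finite_quot_pow (ε : R →ₐ[O] O) (N : ℕ) :
    ∃ F : Finset R, ∀ r : R, ∃ s ∈ Submodule.span O (F : Set R), r - s ∈ RingHom.ker ε ^ N := by
  classical
  set p : Ideal R := RingHom.ker ε with hp
  induction N with
  | zero => exact ⟨∅, fun r => ⟨0, Submodule.zero_mem _, by simp⟩⟩
  | succ N ih =>
    obtain ⟨F, hF⟩ := ih
    obtain ⟨G, hG⟩ := (IsNoetherian.noetherian (p ^ N) : (p ^ N).FG)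
    refine ⟨F ∪ G, fun r => ?_⟩
    obtain ⟨s, hs, hrs⟩ := hF r
    rw [← hG] at hrs
    obtain ⟨c, hc⟩ := (Submodule.mem_span_finset (R := R)).1 hrs
    -- `r - s = ∑ c y • y`; replace `c y` by its augmentation
    refine ⟨s + ∑ y ∈ G, (ε (c y)) • y, ?_, ?_⟩
    · apply Submodule.add_mem
      · exact Submodule.span_mono (by simp) hs
      · refine Submodule.sum_mem _ fun y hy => Submodule.smul_mem _ _ ?_
        exact Submodule.subset_span (by simp [hy])
    · have h1 : r - (s + ∑ y ∈ G, (ε (c y)) • y) =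
          ∑ y ∈ G, (c y - algebraMap O R (ε (c y))) * y := by
        rw [← sub_sub, ← hc.2]
        rw [← Finset.sum_sub_distrib]
        refine Finset.sum_congr rfl fun y _ => ?_
        rw [smul_eq_mul, Algebra.smul_def (ε (c y)) y, sub_mul]
      rw [h1]
      refine Ideal.sum_mem _ fun y hy => ?_
      rw [pow_succ, mul_comm (p ^ N) p]
      refine Ideal.mul_mem_mul ?_ ?_
      · rw [hp, RingHom.mem_ker, map_sub, AlgHom.commutes, Algebra.algebraMap_self_apply,
          sub_self]
      · rw [← hG]; exact Submodule.subset_span hy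

variable {T : Type w} [CommRing T] [Algebra O T] [Module.Finite O T] [Module.Free O T]

/-- **Wiles--Lenstra criterion**: `R ↠ T`, `R` noetherian local, `T` finite free over `O`;
if `length Φ_R ≤ length (O/η_T) < ∞` then `R → T` is injective. -/
theorem mltc_crit_iso (φ : R →ₐ[O] T) (hφ : Function.Surjective φ) (π : T →ₐ[O] O)
    (hfin : mltc_phiLen (π.comp φ) ≠ ⊤)
    (hle : mltc_phiLen (π.comp φ) ≤ Module.length O (O ⧸ mltc_eta π)) :
    Function.Injective φ := by
  classical
  haveI : Nontrivial T := π.toRingHom.domain_nontrivial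
  set 𝔞 : Ideal R := RingHom.ker φ with h𝔞def
  set p : Ideal R := RingHom.ker (π.comp φ) with hpdef
  have h𝔞 : 𝔞 ≠ ⊤ := RingHom.ker_ne_top φ
  have key : ∀ N : ℕ, 𝔞 ≤ p ^ N := by
    intro N
    let J : Ideal R := 𝔞 ⊓ p ^ N
    have hJ : J ≠ ⊤ := fun h => h𝔞 (top_le_iff.1 (h ▸ inf_le_left))
    haveI : Nontrivial (R ⧸ J) := Ideal.Quotient.nontrivial_iff.2 hJ
    haveI : IsLocalRing (R ⧸ J) :=
      IsLocalRing.of_surjective' (Ideal.Quotient.mk J) Ideal.Quotient.mk_surjective
    let φN : R ⧸ J →ₐ[O] T := Ideal.Quotient.liftₐ J φ (fun a ha => ha.1)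
    have hφN : Function.Surjective φN := fun t => by
      obtain ⟨r, rfl⟩ := hφ t
      exact ⟨Ideal.Quotient.mk J r, rfl⟩
    -- finiteness over `O`
    obtain ⟨F, hF⟩ := mltc_finite_quot_pow (π.comp φ) N
    haveI : Module.Finite O (R ⧸ p ^ N) := by
      refine ⟨⟨F.image (Ideal.Quotient.mk (p ^ N)), ?_⟩⟩
      rw [eq_top_iff]
      rintro y -
      obtain ⟨r, rfl⟩ := Ideal.Quotient.mk_surjective y
      obtain ⟨s, hs, hrs⟩ := hF r
      have h1 : Ideal.Quotient.mk (p ^ N) r = Ideal.Quotient.mk (p ^ N) s :=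
        Ideal.Quotient.eq.2 hrs
      rw [h1, Finset.coe_image]
      exact Submodule.apply_mem_span_image_of_mem_span
        (Ideal.Quotient.mkₐ O (p ^ N)).toLinearMap hs
    let g : R ⧸ J →ₗ[O] T × (R ⧸ p ^ N) :=
      LinearMap.prod φN.toLinearMap
        (Ideal.Quotient.factorₐ O (inf_le_right : J ≤ p ^ N)).toLinearMap
    have hg : Function.Injective g := by
      rw [injective_iff_map_eq_zero]
      intro y hy
      obtain ⟨r, rfl⟩ := Ideal.Quotient.mk_surjective y
      have h1 : φ r = 0 := congrArg Prod.fst hy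
      have h2 : Ideal.Quotient.mk (p ^ N) r = 0 := congrArg Prod.snd hy
      rw [Ideal.Quotient.eq_zero_iff_mem] at h2 ⊢
      exact ⟨h1, h2⟩
    haveI : Module.Finite O (R ⧸ J) := Module.Finite.of_injective g hg
    -- comparison of cotangent spaces
    let q : R →ₐ[O] R ⧸ J := Ideal.Quotient.mkₐ O J
    have hcomap : RingHom.ker (π.comp φ) ≤ (RingHom.ker (π.comp φN)).comap q := by
      intro r hr
      rw [Ideal.mem_comap, RingHom.mem_ker]
      exact hr
    have hsurj : Function.Surjective (Ideal.mapCotangent _ _ q hcomap) := by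
      intro y
      obtain ⟨⟨z, hz⟩, rfl⟩ := Ideal.toCotangent_surjective _ y
      obtain ⟨r, rfl⟩ := Ideal.Quotient.mk_surjective z
      exact ⟨Ideal.toCotangent _ ⟨r, hz⟩, rfl⟩
    have hlenN : mltc_phiLen (π.comp φN) ≤ mltc_phiLen (π.comp φ) :=
      Module.length_le_of_surjective _ hsurj
    have hinj := mltc_crit_fin φN hφN π (ne_top_of_le_ne_top hfin hlenN) (hlenN.trans hle)
    intro r hr
    have h3 : φN (Ideal.Quotient.mk J r) = φN 0 := by
      rw [map_zero]; exact hr
    have h0 := hinj h3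
    rw [Ideal.Quotient.eq_zero_iff_mem] at h0
    exact h0.2
  rw [injective_iff_map_eq_zero]
  intro r hr
  have hmem : r ∈ ⨅ N : ℕ, p ^ N := by
    rw [Ideal.mem_iInf]; exact fun N => key N hr
  rw [Ideal.iInf_pow_eq_bot_of_isLocalRing p (RingHom.ker_ne_top _)] at hmem
  exact hmem

end Krull

end Fermat.Agent.MLT
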