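/-
MLT stream Crit (helper6): proof of `MltCritContract` (numerical criterion, Diamond's module
version of the Wiles--Lenstra criterion).
-/
import Fermat.Agent.Lib.MLT.Crit.Krull
import Fermat.Agent.Lib.MLT.Crit.Omega

set_option autoImplicit false

namespace Fermat.Agent.MLT

universe u v w x

/-- **Numerical criterion.** -/
theorem mltc_crit : MltCritContract.{u, v, w, x} := by
  intro O _ _ _ _ R _ _ _ _ T _ _ _ _ H _ _ _ _ _ _ φ π d hφ hd0 hd hfinor hle
  have hB2 := mltc_length_eta_le_phiLen φ hφ π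
  have hΩ := mltc_omegaLen_le (H := H) π d hd hd0
  have hd0' : (d : ℕ∞) ≠ 0 := by exact_mod_cast hd0.ne'
  have hfin : mltc_phiLen (π.comp φ) ≠ ⊤ := by
    rcases hfinor with h | h
    · exact h
    · intro htop
      rw [htop, ENat.mul_top hd0'] at hle
      exact h (top_le_iff.1 hle)
  have h1 : (d : ℕ∞) * mltc_phiLen (π.comp φ) ≤
      (d : ℕ∞) * Module.length O (O ⧸ mltc_eta π) := hle.trans hΩ
  have hab : mltc_phiLen (π.comp φ) ≤ Module.length O (O ⧸ mltc_eta π) := by
    by_cases hb : Module.length O (O ⧸ mltc_eta π) = ⊤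
    · rw [hb]; exact le_top
    · generalize mltc_phiLen (π.comp φ) = a at *
      generalize Module.length O (O ⧸ mltc_eta π) = b at *
      lift a to ℕ using hfin
      lift b to ℕ using hb
      have h2 : d * a ≤ d * b := by exact_mod_cast h1
      exact_mod_cast Nat.le_of_mul_le_mul_left h2 hd0
  have heq : mltc_phiLen (π.comp φ) = Module.length O (O ⧸ mltc_eta π) :=
    le_antisymm hab hB2
  refine ⟨mltc_crit_iso φ hφ π hfin hab, heq, le_antisymm hΩ ?_⟩
  rw [← heq]; exact hle

end Fermat.Agent.MLT
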