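import Fermat.Agent.Lib.MLT.Crit.RPAbs
import Fermat.Agent.Lib.T1.Asm.Res.EigenChar
import Fermat.Prelude.Def_FLTPrelim_ModularRep
import Fermat.Agent.Lib.MLT.Contracts.RP

/-!
# MLT / Crit (helper6): `|a_q(f)| < q + 1` for a normalised eigenform of level prime to `q`

The strict form of the trivial bound for Hecke eigenvalues (weight two, `Γ₀(N)`, `q ∤ N`), via the
Petersson product: over the fundamental domain `D₁` of the stabiliser,
`∫_{D₁} ‖f∣ρ₀ - c f‖² = (2 (q+1) - 2 Re (c̄ a_q)) ‖f‖²` for `|c| = 1`; equality would force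
`f∣ρ₀ = c f`, so `|f|² y²` would be invariant under `z ↦ q z`, contradicting the decay at `i∞`.
-/

set_option autoImplicit false

open MeasureTheory UpperHalfPlane Set Matrix.SpecialLinearGroup CongruenceSubgroup
open scoped Modular MatrixGroups ENNReal NNReal Pointwise ComplexConjugate Manifold ModularForm

open P2MW.S_ModularForm_heckeT_slash_eq_self_of_mem_Gamma0.ModularForm.HeckeSlashInvariance
open ModularForm (heckeMatrix heckeDiagMatrix val_heckeMatrix val_heckeDiagMatrix)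

namespace Fermat.Agent.MLT

open Fermat.Agent.S31P

section adj

variable {ℓ : ℕ} [Fact ℓ.Prime]

/-- the adjointness data of `T_ℓ` on `Γ₀(N)`, with its base points exposed. -/
theorem mltc_rp_exists_adjData (N : ℕ) (hℓN : ¬ ℓ ∣ N) :
    ∃ A : AdjData ((Gamma0 N).map (mapGL ℝ)) (OnePoint (ZMod ℓ)), A.ρ = heckeRep ℓ ∧
      A.x₀ = ((0 : ZMod ℓ) : OnePoint (ZMod ℓ)) ∧ A.x₁ = OnePoint.infty := by
  have hℓ : ℓ.Prime := Fact.out
  have hcop : IsCoprime (ℓ : ℤ) (N : ℤ) :=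
    Nat.isCoprime_iff_coprime.mpr ((Nat.Prime.coprime_iff_not_dvd hℓ).mpr hℓN)
  obtain ⟨a, b, hab⟩ := hcop
  have h : (ℓ : ℤ) * a - N * (-b) = 1 := by linarith
  refine ⟨{
    ρ := heckeRep ℓ
    det_pos := heckeRep_det_pos
    x₀ := ((0 : ZMod ℓ) : OnePoint (ZMod ℓ))
    act₀ := ?_
    inj := ?_
    s := fun x => x.elim (mapGL ℝ (sInf N a (-b) h)) (fun j => mapGL ℝ (sCoe j))
    s_mem := ?_
    e := fun x => x.elim (mapGL ℝ (eInf N a (-b) h)) (fun _ => 1)
    e_mem := ?_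
    rel := ?_
    x₁ := OnePoint.infty
    central := central_of_scalar heckeRep_infty_mul_zero
    slash_triv := slash_two_scalar (by exact_mod_cast hℓ.pos) heckeRep_infty_mul_zero }, rfl, rfl,
      rfl⟩
  · rintro _ ⟨g, hg, rfl⟩
    obtain ⟨g', hg', hmul⟩ := heckeRep_mul hℓN g (dvd_of_mem_Gamma0 hg)
      ((0 : ZMod ℓ) : OnePoint (ZMod ℓ))
    exact ⟨_, mapGL ℝ g', Subgroup.mem_map_of_mem _ (mem_Gamma0_of_dvd hg'), hmul⟩
  · rintro x y _ ⟨ε, -, rfl⟩ hxy
    exact heckeRep_inj x y ε hxy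
  · intro x
    induction x using OnePoint.rec with
    | infty => exact Subgroup.mem_map_of_mem _ (sInf_mem N a (-b) h)
    | coe j => exact Subgroup.mem_map_of_mem _ (sCoe_mem N j)
  · intro x
    induction x using OnePoint.rec with
    | infty => exact Subgroup.mem_map_of_mem _ (eInf_mem N a (-b) h)
    | coe j => exact Subgroup.one_mem _
  · intro x
    induction x using OnePoint.rec with
    | infty => exact rel_infty N a (-b) h
    | coe j => exact rel_coe j

/-- `ρ₀ ρ_∞` is the scalar matrix `ℓ`. -/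
theorem mltc_rp_zero_mul_infty :
    ((heckeRep ℓ ((0 : ZMod ℓ) : OnePoint (ZMod ℓ)) *
      heckeRep ℓ (OnePoint.infty : OnePoint (ZMod ℓ)) : GL (Fin 2) ℝ) :
      Matrix (Fin 2) (Fin 2) ℝ) = !![(ℓ : ℝ), 0; 0, (ℓ : ℝ)] := by
  rw [Matrix.GeneralLinearGroup.coe_mul, heckeRep_entries_coe, heckeRep_entries_infty]
  ext a b
  fin_cases a <;> fin_cases b <;> simp [Matrix.mul_apply, Fin.sum_univ_two]

/-- a positive scalar matrix acts trivially on the upper half plane. -/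
theorem mltc_rp_scalar_smul {z : GL (Fin 2) ℝ} {c : ℝ} (hc : 0 < c)
    (hz : (z : Matrix (Fin 2) (Fin 2) ℝ) = !![c, 0; 0, c]) (τ : ℍ) : z • τ = τ := by
  have hdet : z.det.val = c * c := by
    rw [Matrix.GeneralLinearGroup.val_det_apply, hz, Matrix.det_fin_two_of]
    ring
  have hdetpos : 0 < z.det.val := by rw [hdet]; positivity
  have hc' : (c : ℂ) ≠ 0 := by exact_mod_cast hc.ne'
  apply UpperHalfPlane.ext
  rw [UpperHalfPlane.coe_smul_of_det_pos hdetpos]
  simp [UpperHalfPlane.num, UpperHalfPlane.denom, hz]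
  field_simp

/-- `ρ_∞` multiplies imaginary parts by `ℓ`. -/
theorem mltc_rp_im_infty_smul (τ : ℍ) :
    (heckeRep ℓ (OnePoint.infty : OnePoint (ZMod ℓ)) • τ).im = (ℓ : ℝ) * τ.im := by
  have hℓ : ℓ.Prime := Fact.out
  have hpos : (0 : ℝ) < ℓ := by exact_mod_cast hℓ.pos
  rw [UpperHalfPlane.im_smul_eq_div_normSq]
  have hden : denom (heckeRep ℓ (OnePoint.infty : OnePoint (ZMod ℓ))) τ = 1 := by
    rw [UpperHalfPlane.denom, heckeRep_entries_infty]
    simp
  have hdet : (heckeRep ℓ (OnePoint.infty : OnePoint (ZMod ℓ))).det.val = ℓ := by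
    rw [Matrix.GeneralLinearGroup.val_det_apply, heckeRep_entries_infty, Matrix.det_fin_two_of]
    ring
  rw [hden, hdet, abs_of_pos hpos]
  simp

end adj

section main

variable (N : ℕ) [NeZero N]

/-- `pInt (T_q f) g` as a sum over the coset representatives. -/
theorem mltc_rp_pInt_heckeT {q : ℕ} [NeZero q] (hq : q.Prime) (hqN : ¬ q ∣ N)
    (f g : CuspForm (Gamma0 N) 2) :
    pInt (Gamma0 N) 2 (CuspForm.heckeTLin 2 hq hqN f) g =
      ∑ x, ∫ τ in s31pDom (Gamma0 N),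
        petersson 2 ((f : ℍ → ℂ) ∣[(2 : ℤ)] heckeRep q x) g τ := by
  have : Fact q.Prime := ⟨hq⟩
  obtain ⟨Cf, hCf⟩ := CuspFormClass.petersson_bounded_left 2 (Gamma0 N) f f
  obtain ⟨Cg, hCg⟩ := CuspFormClass.petersson_bounded_left 2 (Gamma0 N) g g
  have hfc := continuous_cuspForm (Gamma0 N) 2 f
  have hgc := continuous_cuspForm (Gamma0 N) 2 g
  have hDfin := s31p_volume_dom_lt_top (Gamma0 N)
  rw [pInt, CuspForm.coe_heckeTLin_apply, heckeT_eq_sum_onePoint]
  rw [← integral_finsetSum]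
  · refine integral_congr_ae (Filter.Eventually.of_forall fun τ => ?_)
    exact petersson_sum_left _ _ _ _ τ
  · intro x _
    have := mltc_rp_integrableOn hfc hgc hCf hCg (heckeRep q x) 1 1 (heckeRep_det_pos x)
      (by simp) hDfin (D := s31pDom (Gamma0 N))
    simp only [SlashAction.slash_one, one_smul] at this
    exact this

/-- the key integral identity: for `‖c‖ = 1` the integral of `‖f∣ρ₀ - c f‖²` over `D₁`. -/
theorem mltc_rp_integral_sq {q : ℕ} [Fact q.Prime] (hqN : ¬ q ∣ N)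
    (f : CuspForm (Gamma0 N) 2) (a : ℂ)
    (hf : CuspForm.heckeTLin 2 (Fact.out : q.Prime) hqN f = a • f)
    (A : AdjData ((Gamma0 N).map (mapGL ℝ)) (OnePoint (ZMod q))) (hAρ : A.ρ = heckeRep q)
    (c : ℂ) (hc : conj c * c = 1) :
    IntegrableOn (petersson 2 (((f : ℍ → ℂ) ∣[(2 : ℤ)] A.ρ A.x₀) - c • (f : ℍ → ℂ))
          (((f : ℍ → ℂ) ∣[(2 : ℤ)] A.ρ A.x₀) - c • (f : ℍ → ℂ)))
        (⋃ x, A.s x • s31pDom (Gamma0 N)) volume ∧
    ∫ τ in ⋃ x, A.s x • s31pDom (Gamma0 N),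
        petersson 2 (((f : ℍ → ℂ) ∣[(2 : ℤ)] A.ρ A.x₀) - c • (f : ℍ → ℂ))
          (((f : ℍ → ℂ) ∣[(2 : ℤ)] A.ρ A.x₀) - c • (f : ℍ → ℂ)) τ =
      (2 * ((q : ℂ) + 1) - c * conj a - conj c * a) * pInt (Gamma0 N) 2 f f := by
  have hq : q.Prime := Fact.out
  have : NeZero q := ⟨hq.ne_zero⟩
  obtain ⟨Cf, hCf⟩ := CuspFormClass.petersson_bounded_left 2 (Gamma0 N) f f
  have hfinv : ∀ γ ∈ (Gamma0 N).map (mapGL ℝ), (f : ℍ → ℂ) ∣[(2 : ℤ)] γ = f := fun γ hγ =>
    SlashInvariantFormClass.slash_action_eq f γ hγ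
  have hfc := continuous_cuspForm (Gamma0 N) 2 f
  have hDfin := s31p_volume_dom_lt_top (Gamma0 N)
  have hD := s31p_isFD_dom (Gamma0 N) (neg_one_mem_Gamma0' N)
  set D := s31pDom (Gamma0 N) with hDdef
  set D₁ := ⋃ x, A.s x • D with hD₁def
  set F : ℍ → ℂ := (f : ℍ → ℂ) ∣[(2 : ℤ)] A.ρ A.x₀ with hFdef
  set P : ℂ := pInt (Gamma0 N) 2 f f with hP
  have hPint : P = ∫ τ in D, petersson 2 f f τ := rfl
  have hPconj : conj P = P := pInt_conj_symm (Gamma0 N) 2 f f
  -- finiteness of the volume of `D₁`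
  have hD₁fin : volume D₁ < ⊤ := by
    rw [hD₁def, hD.measure_iUnion A.s A.s_mem (A.stab_hK (hker_Gamma0 N)) A.stab_huniq]
    exact ENNReal.mul_lt_top (by simp) hDfin
  -- the four integrals
  have hcross : ∫ τ in D₁, petersson 2 F f τ = conj a * P := by
    rw [hD₁def, hFdef, mltc_rp_int_cross A hfinv hfinv (det_pos_Gamma0 N) hD hDfin (hker_Gamma0 N)
      hfc hfc hCf hCf, hAρ, ← mltc_rp_pInt_heckeT N hq hqN f f, hf, pInt_smul_left]
  have hcross' : ∫ τ in D₁, petersson 2 f F τ = a * P := by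
    have h1 : ∀ τ, petersson 2 f F τ = conj (petersson 2 F f τ) := fun τ =>
      petersson_symm 2 F f τ
    simp_rw [h1]
    rw [integral_conj, hcross, map_mul, Complex.conj_conj, hPconj]
  have hcard : (Fintype.card (OnePoint (ZMod q)) : ℂ) = (q : ℂ) + 1 := by
    have : Fintype.card (OnePoint (ZMod q)) = q + 1 := by
      rw [show Fintype.card (OnePoint (ZMod q)) = Fintype.card (Option (ZMod q)) from
        Fintype.card_congr (Equiv.refl _), Fintype.card_option, ZMod.card]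
    rw [this]; push_cast; ring
  have hinv : ∫ τ in D₁, petersson 2 f f τ = ((q : ℂ) + 1) * P := by
    rw [hD₁def, mltc_rp_int_inv A hfinv hfinv (det_pos_Gamma0 N) hD hDfin (hker_Gamma0 N)
      hfc hfc hCf hCf, hcard, ← hPint]
  have hslash : ∫ τ in D₁, petersson 2 F F τ = ((q : ℂ) + 1) * P := by
    rw [hD₁def, hFdef, mltc_rp_int_slash A hfinv hfinv (det_pos_Gamma0 N) hD (hker_Gamma0 N)]
    exact hinv
  -- integrability
  have hint : ∀ a b : GL (Fin 2) ℝ, 0 < a.det.val → 0 < b.det.val →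
      IntegrableOn (petersson 2 ((f : ℍ → ℂ) ∣[(2 : ℤ)] a) ((f : ℍ → ℂ) ∣[(2 : ℤ)] b)) D₁
        volume := fun a b ha hb => by
    have := mltc_rp_integrableOn hfc hfc hCf hCf a b 1 ha hb hD₁fin
    simp only [one_smul] at this
    exact this
  have hdet0 : 0 < (A.ρ A.x₀).det.val := A.det_pos _
  have hone : (0 : ℝ) < (1 : GL (Fin 2) ℝ).det.val := by simp
  have i1 : IntegrableOn (petersson 2 F F) D₁ volume := hint _ _ hdet0 hdet0
  have i2 : IntegrableOn (petersson 2 F f) D₁ volume := by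
    have := hint _ 1 hdet0 hone
    rwa [SlashAction.slash_one] at this
  have i3 : IntegrableOn (petersson 2 f F) D₁ volume := by
    have := hint 1 _ hone hdet0
    rwa [SlashAction.slash_one] at this
  have i4 : IntegrableOn (petersson 2 f f) D₁ volume := by
    have := hint 1 1 hone hone
    rwa [SlashAction.slash_one] at this
  -- pointwise expansion
  have hexp : ∀ τ, petersson 2 (F - c • (f : ℍ → ℂ)) (F - c • (f : ℍ → ℂ)) τ =
      petersson 2 F F τ - c * petersson 2 F f τ - conj c * petersson 2 f F τ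
        + petersson 2 f f τ := by
    intro τ
    simp only [petersson, Pi.sub_apply, Pi.smul_apply, smul_eq_mul, map_sub, map_mul]
    linear_combination (conj (f τ) * f τ * ((τ.im : ℂ)) ^ (2 : ℤ)) * hc
  have j2 : IntegrableOn (fun τ => c * petersson 2 F f τ) D₁ volume := i2.const_mul c
  have j3 : IntegrableOn (fun τ => conj c * petersson 2 f F τ) D₁ volume := i3.const_mul (conj c)
  have j12 : IntegrableOn (fun τ => petersson 2 F F τ - c * petersson 2 F f τ) D₁ volume :=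
    i1.sub j2
  have j123 : IntegrableOn (fun τ => petersson 2 F F τ - c * petersson 2 F f τ
      - conj c * petersson 2 f F τ) D₁ volume := j12.sub j3
  have j1234 : IntegrableOn (fun τ => petersson 2 F F τ - c * petersson 2 F f τ
      - conj c * petersson 2 f F τ + petersson 2 f f τ) D₁ volume := j123.add i4
  refine ⟨j1234.congr (Filter.Eventually.of_forall fun τ => (hexp τ).symm), ?_⟩
  simp_rw [hexp]
  rw [integral_add j123 i4, integral_sub j12 j3, integral_sub i1 j2, integral_const_mul,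
    integral_const_mul, hslash, hcross, hcross', hinv]
  ring

/-- **Strict trivial bound**: every eigenvalue of `T_q` (`q ∤ N`) on `S₂(Γ₀(N))` has absolute
value `< q + 1`. -/
theorem mltc_rp_eigenvalue_norm_lt {q : ℕ} (hq : q.Prime) (hqN : ¬ q ∣ N)
    (f : CuspForm (Gamma0 N) 2) (hf0 : f ≠ 0) (a : ℂ)
    (hf : CuspForm.heckeTLin 2 hq hqN f = a • f) :
    ‖a‖ < (q : ℝ) + 1 := by
  have : Fact q.Prime := ⟨hq⟩
  have : NeZero q := ⟨hq.ne_zero⟩
  by_contra hcon
  rw [not_lt] at hcon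
  have hqpos : (0 : ℝ) < q := by exact_mod_cast hq.pos
  have hnorm_pos : 0 < ‖a‖ := by linarith
  have ha0 : a ≠ 0 := norm_pos_iff.mp hnorm_pos
  obtain ⟨A, hAρ, hA0, hA1⟩ := mltc_rp_exists_adjData (ℓ := q) N hqN
  have hna : ((‖a‖ : ℝ) : ℂ) ≠ 0 := by exact_mod_cast hnorm_pos.ne'
  have haa : conj a * a = ((‖a‖ : ℝ) : ℂ) * ((‖a‖ : ℝ) : ℂ) := by
    rw [mul_comm, Complex.mul_conj, Complex.normSq_eq_norm_sq]
    push_cast
    ring
  set c : ℂ := a / ((‖a‖ : ℝ) : ℂ) with hcdef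
  have hc : conj c * c = 1 := by
    rw [hcdef, map_div₀, Complex.conj_ofReal, div_mul_div_comm, haa]
    field_simp
  have hca : conj c * a = ((‖a‖ : ℝ) : ℂ) := by
    rw [hcdef, map_div₀, Complex.conj_ofReal, div_mul_eq_mul_div, haa]
    field_simp
  have hca' : c * conj a = ((‖a‖ : ℝ) : ℂ) := by
    rw [hcdef, div_mul_eq_mul_div, mul_comm a, haa]
    field_simp
  obtain ⟨hhint, key⟩ := mltc_rp_integral_sq N hqN f a hf A hAρ c hc
  rw [hca, hca'] at key
  set D₁ := ⋃ x, A.s x • s31pDom (Gamma0 N) with hD₁def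
  set h : ℍ → ℂ := ((f : ℍ → ℂ) ∣[(2 : ℤ)] A.ρ A.x₀) - c • (f : ℍ → ℂ) with hh
  -- real forms
  have hPself := pInt_self (Gamma0 N) 2 (f : ℍ → ℂ)
  set Pr : ℝ := ∫ τ in s31pDom (Gamma0 N), ‖f τ‖ ^ 2 * τ.im ^ (2 : ℤ) with hPr
  have hPr_nonneg : 0 ≤ Pr := integral_nonneg fun τ => by
    have := τ.im_pos
    positivity
  have hPr_pos : 0 < Pr := by
    refine lt_of_le_of_ne hPr_nonneg fun h0 => hf0 ?_
    apply pInt_self_eq_zero (Gamma0 N) 2 f
    rw [hPself, ← h0]
    simp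
  have hL : ∫ τ in D₁, petersson 2 h h τ =
      ((∫ τ in D₁, ‖h τ‖ ^ 2 * τ.im ^ (2 : ℤ) : ℝ) : ℂ) := by
    rw [← integral_complex_ofReal]
    refine integral_congr_ae (Filter.Eventually.of_forall fun τ => ?_)
    exact petersson_self 2 h τ
  have hreal : ∫ τ in D₁, ‖h τ‖ ^ 2 * τ.im ^ (2 : ℤ) = (2 * ((q : ℝ) + 1) - ‖a‖ - ‖a‖) * Pr := by
    have := key
    rw [hL, hPself] at this
    exact_mod_cast this
  have hnn : ∀ τ : ℍ, 0 ≤ ‖h τ‖ ^ 2 * τ.im ^ (2 : ℤ) := fun τ => by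
    have := τ.im_pos
    positivity
  have h0 : ∫ τ in D₁, ‖h τ‖ ^ 2 * τ.im ^ (2 : ℤ) = 0 := by
    refine le_antisymm ?_ (integral_nonneg hnn)
    rw [hreal]
    nlinarith
  have hint : IntegrableOn (fun τ : ℍ => ‖h τ‖ ^ 2 * τ.im ^ (2 : ℤ)) D₁ volume := by
    refine hhint.norm.congr (Filter.Eventually.of_forall fun τ => ?_)
    simp only
    rw [petersson_self, Complex.norm_real, Real.norm_of_nonneg (hnn τ)]
  have hae := (integral_eq_zero_iff_of_nonneg_ae (Filter.Eventually.of_forall hnn) hint).mp h0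
  -- an open subset of `D₁`
  set U : Set ℍ := A.s A.x₀ • 𝒟ᵒ with hU
  have hUsub : U ⊆ D₁ := by
    refine subset_trans ?_ (Set.subset_iUnion (fun x => A.s x • s31pDom (Gamma0 N)) A.x₀)
    exact Set.smul_set_mono (ModularGroup.fdo_subset_fd.trans (s31p_fd_subset_dom (Gamma0 N)))
  have hUopen : IsOpen U := ModularGroup.isOpen_fdo.smul (A.s A.x₀)
  have hUne : U.Nonempty := ⟨_, Set.smul_mem_smul_set s31p_two_I_mem_fdo⟩
  have hfholo : MDifferentiable 𝓘(ℂ) 𝓘(ℂ) (f : ℍ → ℂ) := CuspFormClass.holo f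
  have hhholo : MDifferentiable 𝓘(ℂ) 𝓘(ℂ) h := (hfholo.slash 2 _).sub (hfholo.const_smul c)
  have hhcont : Continuous h := hhholo.continuous
  have hae' : (fun τ : ℍ => ‖h τ‖ ^ 2 * τ.im ^ (2 : ℤ)) =ᵐ[volume.restrict U] 0 :=
    ae_restrict_of_ae_restrict_of_subset hUsub hae
  have hcont : Continuous (fun τ : ℍ => ‖h τ‖ ^ 2 * τ.im ^ (2 : ℤ)) := by
    have h2 : Continuous fun τ : ℍ => τ.im ^ (2 : ℤ) :=
      UpperHalfPlane.continuous_im.zpow₀ 2 fun τ => Or.inl τ.im_ne_zero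
    exact (hhcont.norm.pow 2).mul h2
  have heq := Measure.eqOn_open_of_ae_eq hae' hUopen hcont.continuousOn continuousOn_const
  have hh0U : ∀ τ ∈ U, h τ = 0 := by
    intro τ hτ
    have := heq hτ
    simp only [Pi.zero_apply, mul_eq_zero] at this
    rcases this with h1 | h1
    · simpa using h1
    · exact absurd h1 (zpow_ne_zero _ τ.im_ne_zero)
  have hh0 : h = 0 := s31p_eq_zero_of_eqOn hhholo hUopen hUne hh0U
  have hF : (f : ℍ → ℂ) ∣[(2 : ℤ)] A.ρ A.x₀ = c • (f : ℍ → ℂ) := sub_eq_zero.mp hh0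
  -- invariance of `Φ = |f|² y²` under `ρ₀`, hence under `ρ_∞`
  have hΦ0 : ∀ τ, petersson 2 f f (A.ρ A.x₀ • τ) = petersson 2 f f τ := by
    intro τ
    rw [← petersson_two_slash _ _ _ (A.det_pos _), hF]
    simp only [petersson, Pi.smul_apply, smul_eq_mul, map_mul]
    linear_combination (conj (f τ) * f τ * ((τ.im : ℂ)) ^ (2 : ℤ)) * hc
  have hΦ1 : ∀ τ, petersson 2 f f (heckeRep q (OnePoint.infty : OnePoint (ZMod q)) • τ) =
      petersson 2 f f τ := by
    intro τ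
    have h1 := hΦ0 (heckeRep q (OnePoint.infty : OnePoint (ZMod q)) • τ)
    rw [hAρ, hA0, ← mul_smul,
      mltc_rp_scalar_smul hqpos (mltc_rp_zero_mul_infty (ℓ := q))] at h1
    exact h1.symm
  have hiter : ∀ m : ℕ, ∀ τ : ℍ, ∃ τ' : ℍ, petersson 2 f f τ' = petersson 2 f f τ ∧
      τ'.im = (q : ℝ) ^ m * τ.im := by
    intro m
    induction m with
    | zero => exact fun τ => ⟨τ, rfl, by simp⟩
    | succ m ih =>
      intro τ
      obtain ⟨τ', h1, h2⟩ := ih τ
      refine ⟨heckeRep q (OnePoint.infty : OnePoint (ZMod q)) • τ', by rw [hΦ1, h1], ?_⟩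
      rw [mltc_rp_im_infty_smul, h2]
      ring
  -- decay at `i∞`
  have hzero : IsZeroAtImInfty (petersson 2 (f : ℍ → ℂ) (f : ℍ → ℂ)) :=
    UpperHalfPlane.IsZeroAtImInfty.petersson_isZeroAtImInfty_left 2 (Gamma0 N)
      (CuspFormClass.zero_at_infty f) f
  have hΦzero : ∀ τ : ℍ, petersson 2 f f τ = 0 := by
    intro τ
    by_contra hne
    have hpos : 0 < ‖petersson 2 f f τ‖ := norm_pos_iff.mpr hne
    have hmem : ∀ᶠ z : ℍ in atImInfty,
        ‖petersson 2 (f : ℍ → ℂ) (f : ℍ → ℂ) z‖ < ‖petersson 2 f f τ‖ := by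
      have := hzero.eventually (Metric.ball_mem_nhds (0 : ℂ) hpos)
      simpa [Metric.mem_ball, dist_zero_right] using this
    obtain ⟨B, hB⟩ := (atImInfty_mem _).mp hmem
    obtain ⟨m, hm⟩ := pow_unbounded_of_one_lt (B / τ.im)
      (by exact_mod_cast hq.one_lt : (1 : ℝ) < q)
    obtain ⟨τ', h1, h2⟩ := hiter m τ
    have hB' : B ≤ τ'.im := by
      rw [h2]
      have := (div_lt_iff₀ τ.im_pos).mp hm
      exact this.le
    have := hB τ' hB'
    change ‖petersson 2 (f : ℍ → ℂ) (f : ℍ → ℂ) τ'‖ < ‖petersson 2 f f τ‖ at this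
    rw [h1] at this
    exact lt_irrefl _ this
  apply hf0
  apply DFunLike.coe_injective
  funext τ
  have := hΦzero τ
  simp only [petersson, mul_eq_zero, map_eq_zero] at this
  rcases this with (h1 | h1) | h1
  · simpa using h1
  · simpa using h1
  · exact absurd h1 (zpow_ne_zero _ (by exact_mod_cast τ.im_ne_zero))

/-- `|a_q(f)| < q + 1` for a normalised eigenform of level prime to `q`. -/
theorem mltc_rp_norm_lt {q : ℕ} (hq : q.Prime) (hqN : ¬ q ∣ N)
    (f : CuspForm (Gamma0 N) 2) (hf : f.IsNormalizedEigenform) :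
    ‖ModularFormClass.qCoeff f q‖ < (q : ℝ) + 1 :=
  mltc_rp_eigenvalue_norm_lt N hq hqN f hf.ne_zero _
    (Fermat.Agent.T1.ter_heckeTLin_eigen hf hq hqN)

/-- `T_q - c` is injective on `S₂(Γ₀(N))` whenever `q + 1 ≤ |c|` (e.g. `c = ± (q + 1)`). -/
theorem mltc_rp_injective_sub {q : ℕ} (hq : q.Prime) (hqN : ¬ q ∣ N) (c : ℂ)
    (hc : (q : ℝ) + 1 ≤ ‖c‖) :
    Function.Injective (CuspForm.heckeTLin 2 hq hqN - c • (LinearMap.id :
      CuspForm (Gamma0 N) 2 →ₗ[ℂ] CuspForm (Gamma0 N) 2)) := by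
  rw [← LinearMap.ker_eq_bot, LinearMap.ker_eq_bot']
  intro f hf
  by_contra hf0
  have h1 : CuspForm.heckeTLin 2 hq hqN f = c • f := by
    have := hf
    simp only [LinearMap.sub_apply, LinearMap.smul_apply, LinearMap.id_apply] at this
    exact sub_eq_zero.mp this
  exact absurd (mltc_rp_eigenvalue_norm_lt N hq hqN f hf0 c h1) (not_lt.mpr hc)

/-- the form of (R–P at `q`) used by the numerical criterion: `a_q ≠ ± (q + 1)`. -/
theorem mltc_rp_ne {q : ℕ} (hq : q.Prime) (hqN : ¬ q ∣ N)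
    (f : CuspForm (Gamma0 N) 2) (hf : f.IsNormalizedEigenform) :
    ModularFormClass.qCoeff f q ≠ (q : ℂ) + 1 ∧ ModularFormClass.qCoeff f q ≠ -((q : ℂ) + 1) := by
  have h := mltc_rp_norm_lt N hq hqN f hf
  have hq0 : (0 : ℝ) ≤ (q : ℝ) + 1 := by positivity
  have hn : ‖((q : ℂ) + 1)‖ = (q : ℝ) + 1 := by
    have : ((q : ℂ) + 1) = (((q : ℝ) + 1 : ℝ) : ℂ) := by push_cast; ring
    rw [this, Complex.norm_real, Real.norm_of_nonneg hq0]
  constructor
  · intro h1
    rw [h1, hn] at h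
    exact lt_irrefl _ h
  · intro h1
    rw [h1, norm_neg, hn] at h
    exact lt_irrefl _ h

end main

/-- (7) R–P at `q`, eigenvalue form. -/
theorem mltc_rp_eigen : MltRPEigenContract :=
  fun N _ _ hq hqN f hf0 a hf => mltc_rp_eigenvalue_norm_lt N hq hqN f hf0 a hf

/-- (7) R–P at `q`, strict bound for normalised eigenforms. -/
theorem mltc_rp : MltRPContract :=
  fun N _ _ hq hqN f hf => mltc_rp_norm_lt N hq hqN f hf

/-- (7) R–P at `q`, the `≠ ± (q + 1)` form. -/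
theorem mltc_rp_neContract : MltRPNeContract :=
  fun N _ _ hq hqN f hf => mltc_rp_ne N hq hqN f hf

/-- (7) R–P at `q`, injectivity form. -/
theorem mltc_rp_inj : MltRPInjContract :=
  fun N _ _ hq hqN c hc => mltc_rp_injective_sub N hq hqN c hc

end Fermat.Agent.MLT
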