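import Fermat.Agent.Lib.S31.Petersson.HeckeAdj

/-!
# MLT / Crit (helper6): the three Petersson integrals over the fundamental domain of the stabiliser

For an adjointness datum `A : AdjData Γ X` (Lib/S31/Petersson/AdjCore) and `Γ`-invariant weight two
functions `f, g`, we compute over `D₁ = ⋃ x, A.s x • D` (a fundamental domain of `A.stab`):

* `∫_{D₁} ⟨f∣ρ₀, g⟩ = ∑ x ∫_D ⟨f∣ρ x, g⟩`,
* `∫_{D₁} ⟨f, g⟩ = |X| • ∫_D ⟨f, g⟩`,
* `∫_{D₁} ⟨f∣ρ₀, g∣ρ₀⟩ = ∫_{D₁} ⟨f, g⟩`.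
-/

set_option autoImplicit false

open MeasureTheory UpperHalfPlane Set Matrix.SpecialLinearGroup
open scoped Modular MatrixGroups ENNReal NNReal Pointwise ComplexConjugate Manifold ModularForm

namespace Fermat.Agent.MLT

open Fermat.Agent.S31P

variable {Γ : Subgroup (GL (Fin 2) ℝ)} {X : Type} (A : AdjData Γ X)
  {f g : ℍ → ℂ} (hf : ∀ γ ∈ Γ, f ∣[(2 : ℤ)] γ = f) (hg : ∀ γ ∈ Γ, g ∣[(2 : ℤ)] γ = g)
  (hdet : ∀ γ ∈ Γ, 0 < γ.det.val)

include hf hg hdet in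
theorem mltc_rp_petersson_inv (γ : GL (Fin 2) ℝ) (hγ : γ ∈ Γ) (τ : ℍ) :
    petersson 2 f g (γ • τ) = petersson 2 f g τ := by
  rw [← petersson_two_slash _ _ _ (hdet _ hγ), hf _ hγ, hg _ hγ]

/-- integrability of Petersson integrands of slashes of bounded functions. -/
theorem mltc_rp_integrableOn {F G : ℍ → ℂ} (hFc : Continuous F) (hGc : Continuous G) {C₁ C₂ : ℝ}
    (hF : ∀ τ, ‖petersson 2 F F τ‖ ≤ C₁) (hG : ∀ τ, ‖petersson 2 G G τ‖ ≤ C₂)
    (a b c : GL (Fin 2) ℝ) (ha : 0 < a.det.val) (hb : 0 < b.det.val) {D : Set ℍ}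
    (hD : volume D < ⊤) :
    IntegrableOn (fun τ => petersson 2 (F ∣[(2 : ℤ)] a) (G ∣[(2 : ℤ)] b) (c • τ)) D volume :=
  s31p_integrableOn_of_bounded
    ((petersson_continuous 2 (continuous_slash hFc 2 a) (continuous_slash hGc 2 b)).comp
      (continuous_const_smul c))
    (fun τ => AdjData.norm_petersson_slash_le hF hG a b ha hb _) hD

include hf hg hdet in
/-- the cross term. -/
theorem mltc_rp_int_cross [Fintype X] [Countable Γ] {D : Set ℍ} (hD : IsFD Γ D volume)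
    (hDfin : volume D < ⊤)
    (hker : ∀ γ ∈ Γ, (∀ τ : ℍ, γ • τ = τ) → ∀ a : GL (Fin 2) ℝ, a * γ = γ * a)
    (hfc : Continuous f) (hgc : Continuous g) {Cf Cg : ℝ}
    (hfb : ∀ τ, ‖petersson 2 f f τ‖ ≤ Cf) (hgb : ∀ τ, ‖petersson 2 g g τ‖ ≤ Cg) :
    ∫ τ in ⋃ x, A.s x • D, petersson 2 (f ∣[(2 : ℤ)] A.ρ A.x₀) g τ =
      ∑ x, ∫ τ in D, petersson 2 (f ∣[(2 : ℤ)] A.ρ x) g τ := by
  have hi1 : ∀ a : GL (Fin 2) ℝ,
      IntegrableOn (fun τ => petersson 2 (f ∣[(2 : ℤ)] A.ρ A.x₀) g (a • τ)) D volume := fun a => by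
    have := mltc_rp_integrableOn hfc hgc hfb hgb (A.ρ A.x₀) 1 a (A.det_pos _) (by simp) hDfin
    simpa [SlashAction.slash_one] using this
  rw [hD.setIntegral_iUnion A.s A.s_mem (A.stab_hK hker) A.stab_huniq (fun x => hi1 _)]
  refine Finset.sum_congr rfl fun x _ => ?_
  refine integral_congr_ae (Filter.Eventually.of_forall fun τ => ?_)
  exact (A.petersson_rho_left hf hg hdet x τ).symm

include hf hg hdet in
/-- the invariant term. -/
theorem mltc_rp_int_inv [Fintype X] [Countable Γ] {D : Set ℍ} (hD : IsFD Γ D volume)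
    (hDfin : volume D < ⊤)
    (hker : ∀ γ ∈ Γ, (∀ τ : ℍ, γ • τ = τ) → ∀ a : GL (Fin 2) ℝ, a * γ = γ * a)
    (hfc : Continuous f) (hgc : Continuous g) {Cf Cg : ℝ}
    (hfb : ∀ τ, ‖petersson 2 f f τ‖ ≤ Cf) (hgb : ∀ τ, ‖petersson 2 g g τ‖ ≤ Cg) :
    ∫ τ in ⋃ x, A.s x • D, petersson 2 f g τ =
      (Fintype.card X : ℂ) * ∫ τ in D, petersson 2 f g τ := by
  have hi1 : ∀ a : GL (Fin 2) ℝ,
      IntegrableOn (fun τ => petersson 2 f g (a • τ)) D volume := fun a => by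
    have := mltc_rp_integrableOn hfc hgc hfb hgb 1 1 a (by simp) (by simp) hDfin
    simpa [SlashAction.slash_one] using this
  rw [hD.setIntegral_iUnion A.s A.s_mem (A.stab_hK hker) A.stab_huniq (fun x => hi1 _)]
  have : ∀ x, ∫ τ in D, petersson 2 f g (A.s x • τ) = ∫ τ in D, petersson 2 f g τ := fun x =>
    integral_congr_ae (Filter.Eventually.of_forall fun τ =>
      mltc_rp_petersson_inv hf hg hdet _ (A.s_mem x) τ)
  simp only [this, Finset.sum_const, Finset.card_univ, nsmul_eq_mul]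

include hf hg hdet in
/-- the slashed term. -/
theorem mltc_rp_int_slash [Fintype X] [Countable Γ] {D : Set ℍ} (hD : IsFD Γ D volume)
    (hker : ∀ γ ∈ Γ, (∀ τ : ℍ, γ • τ = τ) → ∀ a : GL (Fin 2) ℝ, a * γ = γ * a) :
    ∫ τ in ⋃ x, A.s x • D,
        petersson 2 (f ∣[(2 : ℤ)] A.ρ A.x₀) (g ∣[(2 : ℤ)] A.ρ A.x₀) τ =
      ∫ τ in ⋃ x, A.s x • D, petersson 2 f g τ := by
  have hD₁ : IsFD A.stab (⋃ x, A.s x • D) volume :=
    hD.sub A.s A.s_mem A.stab_le (A.stab_hK hker) A.stab_hex A.stab_huniq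
  have hcountable : Countable A.stab :=
    (Subgroup.inclusion_injective A.stab_le).countable
  have hpt : ∀ τ : ℍ, petersson 2 (f ∣[(2 : ℤ)] A.ρ A.x₀) (g ∣[(2 : ℤ)] A.ρ A.x₀) τ =
      petersson 2 f g (A.w • τ) := by
    intro τ
    rw [petersson_two_slash _ _ _ (A.det_pos _)]
    have h1 : A.ρ A.x₀ = (A.s A.x₁)⁻¹ * A.w := by rw [AdjData.w]; group
    conv_lhs => rw [h1, mul_smul]
    exact mltc_rp_petersson_inv hf hg hdet _ (Γ.inv_mem (A.s_mem _)) _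
  calc ∫ τ in ⋃ x, A.s x • D,
        petersson 2 (f ∣[(2 : ℤ)] A.ρ A.x₀) (g ∣[(2 : ℤ)] A.ρ A.x₀) τ
      = ∫ τ in ⋃ x, A.s x • D, petersson 2 f g (A.w • τ) :=
        integral_congr_ae (Filter.Eventually.of_forall hpt)
    _ = ∫ τ in A.w • ⋃ x, A.s x • D, petersson 2 f g τ := (s31p_setIntegral_smul _ _ _).symm
    _ = ∫ τ in ⋃ x, A.s x • D, petersson 2 f g τ :=
        (hD₁.conj A.w A.w_normalises).setIntegral_eq hD₁
          (fun γ hγ τ => mltc_rp_petersson_inv hf hg hdet γ (A.stab_le hγ) τ)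

end Fermat.Agent.MLT
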