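import Fermat.Agent.Lib.MLT.Crit.RP
import Fermat.Agent.Lib.Ihara.H4.HeckeAct
import Fermat.Agent.Lib.S22.HeckeFinite

/-!
# MLT / Crit (helper6): (7) R–P at `q` on the Betti modules

`T_q ∓ (q + 1)` is injective on `H(M) = parabolicHoms O Γ₀(M) O` (`O` a domain of characteristic
zero, `q ∤ M`), hence `c_q(a) = (q - 1) ((q + 1)² - a_q²) ≠ 0` for every eigenvalue `a_q` of `T_q`
on `H(M)`.  Transport of `mltc_rp_eigen` along `ih4Hecke0` through the minimal polynomial of `T_q`
over `ℤ`.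
-/

set_option autoImplicit false

open CongruenceSubgroup Polynomial Fermat.Agent.Ihara

namespace Fermat.Agent.MLT

section alg

variable (M : ℕ) [NeZero M]

/-- an integer `c` with `q + 1 ≤ |c|` is not a root of the minimal polynomial of `T_q` over `ℤ`. -/
theorem mltc_rp_minpoly_eval_ne {q : ℕ} (hq : q.Prime) (hqM : ¬ q ∣ M) (c : ℤ)
    (hc : (q : ℤ) + 1 ≤ |c|) :
    (minpoly ℤ (CuspForm.heckeAlgebra.T hq hqM (Set.notMem_empty q) :
      CuspForm.heckeAlgebra M 2 (∅ : Set ℕ))).eval c ≠ 0 := by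
  haveI := Fermat.Agent.S22Lib.moduleFinite_heckeAlgebra M 2 (∅ : Set ℕ)
  set t : CuspForm.heckeAlgebra M 2 (∅ : Set ℕ) :=
    CuspForm.heckeAlgebra.T hq hqM (Set.notMem_empty q) with ht
  have hint : IsIntegral ℤ t := Algebra.IsIntegral.isIntegral t
  set P := minpoly ℤ t with hP
  have hPm : P.Monic := minpoly.monic hint
  intro h0
  -- factor out the root
  have hroot : P.IsRoot c := h0
  have hfac : (X - C c) * (P /ₘ (X - C c)) = P := mul_divByMonic_eq_iff_isRoot.mpr hroot
  set Q := P /ₘ (X - C c) with hQ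
  have hQm : Q.Monic := by
    have h1 : ((X - C c) * Q).Monic := by rw [hfac]; exact hPm
    exact (monic_X_sub_C c).of_mul_monic_left h1
  have hdeg : Q.natDegree + 1 = P.natDegree := by
    rw [← hfac, (monic_X_sub_C c).natDegree_mul hQm, natDegree_X_sub_C, add_comm]
  -- `Q(t) ≠ 0` by minimality
  have hQt : aeval t Q ≠ 0 := by
    intro h
    have h1 : P.natDegree ≤ Q.natDegree := natDegree_le_natDegree (minpoly.min ℤ t hQm h)
    omega
  -- as an endomorphism of the space of cusp forms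
  have hQt' : ((aeval t Q : CuspForm.heckeAlgebra M 2 (∅ : Set ℕ)) :
      Module.End ℂ (CuspForm (Gamma0 M) 2)) ≠ 0 := fun h => hQt (Subtype.ext h)
  obtain ⟨v, hv⟩ : ∃ v, ((aeval t Q : CuspForm.heckeAlgebra M 2 (∅ : Set ℕ)) :
      Module.End ℂ (CuspForm (Gamma0 M) 2)) v ≠ 0 := by
    by_contra hcon
    push Not at hcon
    exact hQt' (LinearMap.ext hcon)
  set w := ((aeval t Q : CuspForm.heckeAlgebra M 2 (∅ : Set ℕ)) :
      Module.End ℂ (CuspForm (Gamma0 M) 2)) v with hw
  have hPt : aeval t P = 0 := minpoly.aeval ℤ t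
  have hrel : (t - (c : CuspForm.heckeAlgebra M 2 (∅ : Set ℕ))) * aeval t Q = 0 := by
    rw [← hPt, ← hfac, map_mul, map_sub, aeval_X, aeval_C, eq_intCast]
  have hrel' : ((t : Module.End ℂ (CuspForm (Gamma0 M) 2)) -
      (c : Module.End ℂ (CuspForm (Gamma0 M) 2))) *
      ((aeval t Q : CuspForm.heckeAlgebra M 2 (∅ : Set ℕ)) :
        Module.End ℂ (CuspForm (Gamma0 M) 2)) = 0 := by
    have := congrArg (fun s : CuspForm.heckeAlgebra M 2 (∅ : Set ℕ) =>
      (s : Module.End ℂ (CuspForm (Gamma0 M) 2))) hrel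
    simpa using this
  have heig : CuspForm.heckeTLin 2 hq hqM w = (c : ℂ) • w := by
    have := congrArg (fun f : Module.End ℂ (CuspForm (Gamma0 M) 2) => f v) hrel'
    simp only [Module.End.mul_apply, LinearMap.sub_apply, LinearMap.zero_apply,
      Module.End.intCast_apply] at this
    rw [sub_eq_zero] at this
    rw [hw, Int.cast_smul_eq_zsmul]
    exact this
  have hlt := mltc_rp_eigenvalue_norm_lt M hq hqM w hv (c : ℂ) heig
  have h5 : |c| < (q : ℤ) + 1 := by
    have h6 : ‖(c : ℂ)‖ = ((|c| : ℤ) : ℝ) := by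
      rw [Complex.norm_intCast, Int.cast_abs]
    rw [h6] at hlt
    exact_mod_cast hlt
  exact absurd h5 (not_lt.mpr hc)

end alg

section betti

variable (O : Type*) [CommRing O] [IsDomain O] [CharZero O] (M : ℕ) [NeZero M]

/-- `T_q - c` is injective on the Betti module `H(M)` for every integer `c` with `q + 1 ≤ |c|`. -/
theorem mltc_rp_betti_int {q : ℕ} (hq : q.Prime) (hqM : ¬ q ∣ M) (c : ℤ)
    (hc : (q : ℤ) + 1 ≤ |c|) (x : Ih4H O O M) (hx : ih4Op O M q x = (c : O) • x) : x = 0 := by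
  set t : CuspForm.heckeAlgebra M 2 (∅ : Set ℕ) :=
    CuspForm.heckeAlgebra.T hq hqM (Set.notMem_empty q) with ht
  set P := minpoly ℤ t with hP
  have hPc : P.eval c ≠ 0 := mltc_rp_minpoly_eval_ne M hq hqM c hc
  haveI := Fermat.Agent.S22Lib.moduleFinite_heckeAlgebra M 2 (∅ : Set ℕ)
  have hPt : aeval t P = 0 := minpoly.aeval ℤ t
  -- `P = (X - c) Q + P(c)`
  set Q := P /ₘ (X - C c) with hQ
  have hdiv : P = (X - C c) * Q + C (P.eval c) := by
    have h1 := modByMonic_add_div P (X - C c)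
    rw [modByMonic_X_sub_C_eq_C_eval, add_comm] at h1
    exact h1.symm
  have hrel : aeval t Q * (t - (c : CuspForm.heckeAlgebra M 2 (∅ : Set ℕ))) +
      ((P.eval c : ℤ) : CuspForm.heckeAlgebra M 2 (∅ : Set ℕ)) = 0 := by
    have h1 : aeval t ((X - C c) * Q + C (P.eval c)) = 0 := by rw [← hdiv]; exact hPt
    rw [map_add, map_mul, map_sub, aeval_X, aeval_C, aeval_C, eq_intCast, eq_intCast,
      mul_comm] at h1
    exact h1
  have himg := congrArg (ih4Hecke0 O M) hrel
  rw [map_add, map_mul, map_sub, map_zero, ih4Hecke0_T O M q hq hqM, map_intCast,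
    map_intCast] at himg
  have h2 := congrArg (fun f : Module.End O (Ih4H O O M) => f x) himg
  simp only [LinearMap.add_apply, Module.End.mul_apply, LinearMap.sub_apply,
    LinearMap.zero_apply, Module.End.intCast_apply] at h2
  have hx' : ih4Op O M q x = c • x := by rw [hx]; exact Int.cast_smul_eq_zsmul O c x
  rw [hx', sub_self, map_zero, zero_add, ← Int.cast_smul_eq_zsmul O] at h2
  apply Subtype.ext
  apply AddMonoidHom.ext
  intro γ
  have h6 := congrArg (fun y : Ih4H O O M => (y : Additive (Gamma0 M) →+ O) γ) h2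
  simp only [Submodule.coe_smul, AddMonoidHom.smul_apply, Submodule.coe_zero,
    AddMonoidHom.zero_apply, smul_eq_mul] at h6
  rcases mul_eq_zero.mp h6 with h7 | h7
  · exact absurd (by exact_mod_cast h7) hPc
  · exact h7

/-- **(7) on the Betti modules**: `c_q(a) ≠ 0` for every eigenvalue `a` of `T_q` on `H(M)`. -/
theorem mltc_rp_betti_cq {q : ℕ} (hq : q.Prime) (hqM : ¬ q ∣ M) (a : O) (x : Ih4H O O M)
    (hx0 : x ≠ 0) (hx : ih4Op O M q x = a • x) :
    ((q : O) - 1) * (((q : O) + 1) ^ 2 - a ^ 2) ≠ 0 := by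
  have h1 : (q : O) - 1 ≠ 0 := by
    have : ((q : O) - 1) = ((q - 1 : ℕ) : O) := by
      rw [Nat.cast_sub hq.one_lt.le, Nat.cast_one]
    rw [this, Nat.cast_ne_zero]
    have := hq.two_le
    omega
  have h2 : (q : O) + 1 - a ≠ 0 := by
    intro h
    have ha : a = (((q : ℤ) + 1 : ℤ) : O) := by
      push_cast
      exact (sub_eq_zero.mp h).symm
    refine hx0 (mltc_rp_betti_int O M hq hqM ((q : ℤ) + 1) ?_ x (by rw [hx, ha]))
    exact le_abs_self _
  have h3 : (q : O) + 1 + a ≠ 0 := by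
    intro h
    have ha : a = ((-((q : ℤ) + 1) : ℤ) : O) := by
      push_cast
      exact (neg_eq_of_add_eq_zero_right h).symm
    refine hx0 (mltc_rp_betti_int O M hq hqM (-((q : ℤ) + 1)) ?_ x (by rw [hx, ha]))
    rw [abs_neg]
    exact le_abs_self _
  have h4 : ((q : O) + 1) ^ 2 - a ^ 2 = ((q : O) + 1 - a) * ((q : O) + 1 + a) := by ring
  rw [h4]
  exact mul_ne_zero h1 (mul_ne_zero h2 h3)

end betti

end Fermat.Agent.MLT
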