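/-
MLT stream Crit/Step (helper6): **abstract algebra of the induction step on `Σ`**.

* `mltc_phiLen_le_of_surjective` : `length Φ_T ≤ length Φ_R` for `R ↠ T`;
* `mltc_phiLen_comp_bijective`   : invariance of `length Φ` under an isomorphism;
* `mltc_mem_torsP_iff_of_adjoin` : (B) `H[p]` is the joint eigenspace of a set of `O`-algebra
  generators of `T`;
* `mltc_torsI_eq_orthogonal`     : (D) `H[I] = H[p]^⊥` for a `T`-equivariant left-nondegenerate
  pairing when `η ≠ 0`;
* `mltc_finrank_torsP_free`      : `rank_O H[p] = d` for `H` free of rank `d` over `T`, `η ≠ 0`;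
* `mltc_length_quot_ne_top`      : `length (O/I) < ∞` for `I ≠ 0`;
* `mltc_step_abs`                : the numerical step (from `mltc_crit`).
-/
import Fermat.Agent.Lib.MLT.Crit.Main
import Fermat.Agent.Lib.MLT.Crit.BaseMain

set_option autoImplicit false
set_option linter.unusedSectionVars false
set_option linter.unusedVariables false
set_option linter.style.haveILetI false

namespace Fermat.Agent.MLT

universe u v w x

open IsLocalRing

section Cot

variable {O : Type u} [CommRing O]
  {R : Type v} [CommRing R] [Algebra O R] {T : Type w} [CommRing T] [Algebra O T]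

/-- `length Φ_T ≤ length Φ_R` for a surjection `R ↠ T` of augmented `O`-algebras -/
theorem mltc_phiLen_le_of_surjective (φ : R →ₐ[O] T) (hφ : Function.Surjective φ)
    (π : T →ₐ[O] O) : mltc_phiLen π ≤ mltc_phiLen (π.comp φ) := by
  unfold mltc_phiLen
  have hle : RingHom.ker (π.comp φ) ≤ (RingHom.ker π).comap φ := by
    intro r hr
    rw [Ideal.mem_comap, RingHom.mem_ker]
    exact (RingHom.mem_ker).1 hr
  let f : (RingHom.ker (π.comp φ)).Cotangent →ₗ[O] (RingHom.ker π).Cotangent :=
    Ideal.mapCotangent (RingHom.ker (π.comp φ)) (RingHom.ker π) φ hle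
  have hf : Function.Surjective f := by
    intro y
    obtain ⟨⟨t, ht⟩, rfl⟩ := Ideal.toCotangent_surjective _ y
    obtain ⟨r, rfl⟩ := hφ t
    have hr : r ∈ RingHom.ker (π.comp φ) := by
      rw [RingHom.mem_ker]
      exact (RingHom.mem_ker).1 ht
    exact ⟨Ideal.toCotangent _ ⟨r, hr⟩, rfl⟩
  exact Module.length_le_of_surjective f hf

/-- `length Φ` is invariant under an isomorphism -/
theorem mltc_phiLen_comp_bijective (φ : R →ₐ[O] T) (hφ : Function.Bijective φ)
    (π : T →ₐ[O] O) : mltc_phiLen (π.comp φ) = mltc_phiLen π := by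
  refine le_antisymm ?_ (mltc_phiLen_le_of_surjective φ hφ.2 π)
  let e : R ≃ₐ[O] T := AlgEquiv.ofBijective φ hφ
  have h1 : ((π.comp φ).comp (e.symm : T →ₐ[O] R)) = π := by
    ext t
    show π (φ (e.symm t)) = π t
    have : φ (e.symm t) = t := e.apply_symm_apply t
    rw [this]
  have h2 := mltc_phiLen_le_of_surjective (e.symm : T →ₐ[O] R) e.symm.surjective (π.comp φ)
  rwa [h1] at h2

end Cot

section Tors

variable {O : Type u} [CommRing O] {T : Type w} [CommRing T] [Algebra O T]
  {H : Type x} [AddCommGroup H] [Module O H] [Module T H] [IsScalarTower O T H]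

theorem mltc_mem_torsP' (π : T →ₐ[O] O) (y : H) :
    y ∈ mltc_torsP π H ↔ ∀ t ∈ RingHom.ker π, t • y = 0 := by
  simp only [mltc_torsP, Submodule.restrictScalars_mem, Submodule.mem_torsionBySet_iff]
  constructor
  · intro h t ht; exact h ⟨t, ht⟩
  · intro h t; exact h t.1 t.2

theorem mltc_mem_torsI' (π : T →ₐ[O] O) (y : H) :
    y ∈ mltc_torsI π H ↔ ∀ t : T, (∀ s ∈ RingHom.ker π, t * s = 0) → t • y = 0 := by
  simp only [mltc_torsI, Submodule.restrictScalars_mem, Submodule.mem_torsionBySet_iff]
  constructor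
  · intro h t ht
    refine h ⟨t, ?_⟩
    rw [SetLike.mem_coe, Submodule.mem_annihilator]
    intro s hs
    rw [smul_eq_mul]
    exact ht s hs
  · intro h t
    have := t.2
    rw [SetLike.mem_coe, Submodule.mem_annihilator] at this
    exact h t.1 (fun s hs => by simpa [smul_eq_mul] using this s hs)

/-- `y ∈ H[p]` iff every `t ∈ T` acts on `y` through `π` -/
theorem mltc_mem_torsP_iff_forall (π : T →ₐ[O] O) (y : H) :
    y ∈ mltc_torsP π H ↔ ∀ t : T, t • y = π t • y := by
  rw [mltc_mem_torsP']
  constructor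
  · intro h t
    have h1 : t - algebraMap O T (π t) ∈ RingHom.ker π := by
      rw [RingHom.mem_ker, map_sub, AlgHom.commutes, Algebra.algebraMap_self_apply, sub_self]
    have h2 := h _ h1
    rw [sub_smul, algebraMap_smul, sub_eq_zero] at h2
    exact h2
  · intro h t ht
    rw [h t, (RingHom.mem_ker).1 ht, zero_smul]

/-- **(B)** `H[p]` is the joint eigenspace of any set of `O`-algebra generators of `T` -/
theorem mltc_mem_torsP_iff_of_adjoin (π : T →ₐ[O] O) (G : Set T)
    (hG : Algebra.adjoin O G = ⊤) (y : H) :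
    y ∈ mltc_torsP π H ↔ ∀ g ∈ G, g • y = π g • y := by
  rw [mltc_mem_torsP_iff_forall]
  constructor
  · intro h g _
    exact h g
  · intro h t
    have ht : t ∈ Algebra.adjoin O G := by rw [hG]; exact Algebra.mem_top
    induction ht using Algebra.adjoin_induction with
    | mem g hg => exact h g hg
    | algebraMap o => rw [algebraMap_smul, AlgHom.commutes, Algebra.algebraMap_self_apply]
    | add s t _ _ hs ht => rw [add_smul, hs, ht, map_add, add_smul]
    | mul s t _ _ hs ht =>
      rw [mul_smul, ht, smul_comm, hs, map_mul, mul_smul, smul_comm]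

/-- **(D)** `H[I] = H[p]^⊥` for a `T`-equivariant, left-nondegenerate pairing when `η ≠ 0` -/
theorem mltc_torsI_eq_orthogonal [IsDomain O] (π : T →ₐ[O] O) (hη : mltc_eta π ≠ ⊥)
    (β : H →ₗ[O] H →ₗ[O] O) (hadj : ∀ (t : T) (x y : H), β (t • x) y = β x (t • y))
    (hnd : ∀ y : H, (∀ z : H, β z y = 0) → y = 0) (y : H) :
    y ∈ mltc_torsI π H ↔ ∀ x ∈ mltc_torsP π H, β x y = 0 := by
  have hsurj : Function.Surjective π := fun o => ⟨algebraMap O T o, by simp⟩
  -- an element `s` of `I` with `π s ≠ 0`
  obtain ⟨s, hsI, hs0⟩ : ∃ s : T, (∀ r ∈ RingHom.ker π, s * r = 0) ∧ π s ≠ 0 := by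
    by_contra hcon
    push Not at hcon
    apply hη
    rw [eq_bot_iff]
    intro c hc
    obtain ⟨s, hs, rfl⟩ := (Ideal.mem_map_iff_of_surjective π hsurj).1 hc
    rw [Submodule.mem_annihilator] at hs
    rw [Ideal.mem_bot]
    exact hcon s (fun r hr => by simpa [smul_eq_mul] using hs r hr)
  rw [mltc_mem_torsI']
  constructor
  · intro hy x hx
    have h1 : s • x = π s • x := (mltc_mem_torsP_iff_forall π x).1 hx s
    have h2 : π s * β x y = 0 := by
      have : β (s • x) y = β x (s • y) := hadj s x y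
      rw [h1, map_smul, LinearMap.smul_apply, smul_eq_mul, hy s hsI, map_zero] at this
      exact this
    exact (mul_eq_zero.1 h2).resolve_left hs0
  · intro hy t ht
    apply hnd
    intro z
    rw [← hadj]
    apply hy
    rw [mltc_mem_torsP']
    intro r hr
    rw [← mul_smul, mul_comm, ht r hr, zero_smul]

end Tors

section Len

variable {O : Type u} [CommRing O] [IsDomain O] [IsDiscreteValuationRing O]

/-- `length (O/(c)) < ∞` for `c ≠ 0` -/
theorem mltc_length_quot_span_ne_top {c : O} (hc : c ≠ 0) :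
    Module.length O (O ⧸ Ideal.span {c}) ≠ ⊤ := by
  have h := Ring.ord_ne_top (R := O) (mem_nonZeroDivisors_of_ne_zero hc)
  exact h

/-- `length (O/I) < ∞` for `I ≠ 0` -/
theorem mltc_length_quot_ne_top {I : Ideal O} (hI : I ≠ ⊥) : Module.length O (O ⧸ I) ≠ ⊤ := by
  obtain ⟨c, hc⟩ := (IsPrincipalIdealRing.principal I).principal
  have hc' : I = Ideal.span {c} := hc
  have hc0 : c ≠ 0 := by
    intro h0
    apply hI
    rw [hc', h0]
    simp
  rw [hc']
  exact mltc_length_quot_span_ne_top hc0

end Len

section Free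

variable {O : Type u} [CommRing O] [IsDomain O] [IsDiscreteValuationRing O]
  {T : Type w} [CommRing T] [Algebra O T] [Module.Finite O T] [Module.Free O T]
  {H : Type x} [AddCommGroup H] [Module O H] [Module T H] [IsScalarTower O T H]

/-- `rank_O H[p] = d` for `H` free of rank `d` over `T`, when `η ≠ 0` -/
theorem mltc_finrank_torsP_free (π : T →ₐ[O] O) (hη : mltc_eta π ≠ ⊥) {d : ℕ}
    (b : Module.Basis (Fin d) T H) : Module.finrank O (mltc_torsP π H) = d := by
  classical
  obtain ⟨e, heI, he0, -, hgen⟩ := mltc_exists_gen_ann π hη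
  have he : e ≠ 0 := fun h => he0 (by rw [h, map_zero])
  -- the map `O^d → H[p]`, `c ↦ ∑ (c i • e) • b i`
  have hmem : ∀ c : Fin d → O, (∑ i, (c i • e) • b i) ∈ mltc_torsP π H := by
    intro c
    rw [mltc_mem_torsP']
    intro t ht
    rw [Finset.smul_sum]
    refine Finset.sum_eq_zero fun i _ => ?_
    rw [← mul_smul, mul_smul_comm, mul_comm, heI t ht, smul_zero, zero_smul]
  let Φ : (Fin d → O) →ₗ[O] mltc_torsP π H :=
    { toFun := fun c => ⟨∑ i, (c i • e) • b i, hmem c⟩
      map_add' := by
        intro c c'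
        apply Subtype.ext
        show ∑ i, ((c + c') i • e) • b i = ∑ i, (c i • e) • b i + ∑ i, (c' i • e) • b i
        rw [← Finset.sum_add_distrib]
        refine Finset.sum_congr rfl fun i _ => ?_
        rw [Pi.add_apply, add_smul, add_smul]
      map_smul' := by
        intro o c
        apply Subtype.ext
        show ∑ i, ((o • c) i • e) • b i = o • ∑ i, (c i • e) • b i
        rw [Finset.smul_sum]
        refine Finset.sum_congr rfl fun i _ => ?_
        rw [Pi.smul_apply, smul_eq_mul, mul_smul, smul_assoc] }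
  have hinj : Function.Injective Φ := by
    rw [injective_iff_map_eq_zero]
    intro c hc
    have h1 : ∑ i, (c i • e) • b i = 0 := congrArg Subtype.val hc
    have h2 := (Fintype.linearIndependent_iff.1 b.linearIndependent) (fun i => c i • e) h1
    funext i
    rcases smul_eq_zero.1 (h2 i) with h | h
    · exact h
    · exact absurd h he
  have hsurj : Function.Surjective Φ := by
    rintro ⟨y, hy⟩
    rw [mltc_mem_torsP'] at hy
    -- the coordinates of `y` lie in `Ann (ker π) = O e`
    have hcoord : ∀ i, ∃ o : O, b.repr y i = o • e := by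
      intro i
      apply hgen
      intro s hs
      have h1 : s • y = 0 := hy s hs
      have h2 : b.repr (s • y) i = 0 := by rw [h1, map_zero]; rfl
      rw [map_smul, Finsupp.smul_apply, smul_eq_mul] at h2
      rw [mul_comm]
      exact h2
    choose c hc using hcoord
    refine ⟨c, Subtype.ext ?_⟩
    show ∑ i, (c i • e) • b i = y
    conv_rhs => rw [← b.sum_repr y]
    refine Finset.sum_congr rfl fun i _ => ?_
    rw [hc i]
  let E : (Fin d → O) ≃ₗ[O] mltc_torsP π H := LinearEquiv.ofBijective Φ ⟨hinj, hsurj⟩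
  rw [← E.finrank_eq, Module.finrank_pi, Fintype.card_fin]

end Free

section Step

variable {O : Type u} [CommRing O] [IsDomain O] [IsDiscreteValuationRing O]
  [IsAdicComplete (maximalIdeal O) O]
  {R : Type v} [CommRing R] [IsLocalRing R] [IsNoetherianRing R] [Algebra O R]
  {T : Type w} [CommRing T] [Algebra O T] [Module.Finite O T] [Module.Free O T]
  {H : Type x} [AddCommGroup H] [Module O H] [Module T H] [IsScalarTower O T H]
  [Module.Finite O H] [Module.Free O H]

/-- **the numerical step**: if `length Φ_{R'} ≤ E + L` and `d E + d L ≤ length Ω_{H'}` with `E`, `L`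
finite, then `R' ≅ T'` and the numerical invariants hold at the new level -/
theorem mltc_step_abs (φ : R →ₐ[O] T) (π : T →ₐ[O] O) (d : ℕ) (hφ : Function.Surjective φ)
    (hd0 : 0 < d) (hd : Module.finrank O (mltc_torsP π H) = d) (E L : ℕ∞) (hE : E ≠ ⊤)
    (hL : L ≠ ⊤) (hΦ : mltc_phiLen (π.comp φ) ≤ E + L)
    (hΩ : (d : ℕ∞) * E + (d : ℕ∞) * L ≤ mltc_omegaLen π H) :
    Function.Injective φ ∧
      mltc_phiLen (π.comp φ) = Module.length O (O ⧸ mltc_eta π) ∧
      Module.length O (O ⧸ mltc_eta π) ≠ ⊤ ∧
      mltc_omegaLen π H = (d : ℕ∞) * Module.length O (O ⧸ mltc_eta π) := by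
  have hfin : mltc_phiLen (π.comp φ) ≠ ⊤ :=
    ne_top_of_le_ne_top (fun h => (ENat.add_eq_top.1 h).elim hE hL) hΦ
  have hle : (d : ℕ∞) * mltc_phiLen (π.comp φ) ≤ mltc_omegaLen π H := by
    refine le_trans ?_ hΩ
    rw [← mul_add]
    exact mul_le_mul_right hΦ _
  obtain ⟨h1, h2, h3⟩ := mltc_crit.{u, v, w, x} O R T H φ π d hφ hd0 hd (Or.inl hfin) hle
  exact ⟨h1, h2, by rw [← h2]; exact hfin, h3⟩

end Step

end Fermat.Agent.MLT
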