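/-
MLT stream Crit/Step (helper6): **the Galois side of the induction step `Σ → Σ ∪ {q}`**.

* `mltc_cond_mono`, `mltc_cond_of_unr`, `mltc_cond_unr`, `mltc_cond_bc`, `mltc_cond_det` : the
  hypotheses of helper7's generic growth bound for `𝒟 = B.cond Σ`, `𝒟' = B.cond (Σ ∪ {q})`;
* `mltc_exists_piR`   : (G1) the canonical map `πR : R_{Σ ∪ q} → R_Σ`;
* `mltc_frob_point`   : the Frobenius polynomials of the `𝒪`-point `π ∘ φ` of `R_Σ`;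
* `mltc_rigid`        : (4) `π' ∘ φ' = (π ∘ φ) ∘ πR` (trace rigidity + uniqueness in `D'.universal`);
* `mltc_phiLen_step`  : (G3) `length Φ(π' ∘ φ') ≤ length Φ(π ∘ φ) + length 𝒪/(c_q(a_q))`.
-/
import Mathlib
import Fermat.Agent.Lib.MLT.TWO.Growth
import Fermat.Agent.Lib.Alpha.S32.Rigid
import Fermat.Agent.Lib.Helper6.GaloisRepAdicLemmas
import Fermat.Agent.Lib.MLT.Contracts.Step

set_option autoImplicit false
set_option linter.unusedSectionVars false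
set_option linter.unusedVariables false
set_option linter.style.haveILetI false

open IsLocalRing Polynomial Fermat.Agent.TW Fermat.Agent.Ihara GaloisRep Fermat.Agent.S53Lib
open Fermat.Agent.Alpha (AlpyFrob alpyHecke alpyHecke_eq alpy_frob_datum alpy_rigid
  alpy_trace_baseChange)

namespace Fermat.Agent.MLT

local notation "Qbar" => AlgebraicClosure ℚ
local notation "GQ" => (AlgebraicClosure ℚ ≃ₐ[ℚ] AlgebraicClosure ℚ)

variable {𝒪 : Type} [CommRing 𝒪] [IsDomain 𝒪] [IsDiscreteValuationRing 𝒪] [CharZero 𝒪]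
  [IsAdicComplete (maximalIdeal 𝒪) 𝒪] [Finite (ResidueField 𝒪)]

/-! ### The deformation conditions -/

section Cond

variable (B : MltBase 𝒪) (Sig : Finset ℕ) (q : ℕ)

theorem mltc_cond_mono {A : Type} [CommRing A] [IsLocalRing A] [Algebra 𝒪 A]
    (ρ : GaloisRepAdic A) (h : B.cond Sig ρ) : B.cond (insert q Sig) ρ := by
  refine ⟨⟨h.1.1, h.1.2.1, fun ℓ hℓ hℓT => h.1.2.2 ℓ hℓ ?_⟩, h.2⟩
  intro hmem
  apply hℓT
  rcases Finset.mem_union.1 hmem with h1 | h1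
  · exact Finset.mem_union_left _ h1
  · exact Finset.mem_union_right _ (Finset.mem_insert_of_mem h1)

theorem mltc_cond_of_unr {A : Type} [CommRing A] [IsLocalRing A] [Algebra 𝒪 A]
    (ρ : GaloisRepAdic A) (h : B.cond (insert q Sig) ρ) (hunr : ρ.IsUnramifiedAt q) :
    B.cond Sig ρ := by
  refine ⟨⟨h.1.1, h.1.2.1, fun ℓ hℓ hℓT => ?_⟩, h.2⟩
  by_cases hℓq : ℓ = q
  · subst hℓq
    exact hunr
  · refine h.1.2.2 ℓ hℓ ?_
    intro hmem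
    apply hℓT
    rcases Finset.mem_union.1 hmem with h1 | h1
    · exact Finset.mem_union_left _ h1
    · rcases Finset.mem_insert.1 h1 with h2 | h2
      · exact absurd h2 hℓq
      · exact Finset.mem_union_right _ h2

theorem mltc_cond_unr (hq : q.Prime) (hqT : q ∉ B.Smin ∪ Sig)
    {A : Type} [CommRing A] [IsLocalRing A] [Algebra 𝒪 A]
    (ρ : GaloisRepAdic A) (h : B.cond Sig ρ) : ρ.IsUnramifiedAt q :=
  h.1.2.2 q hq hqT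

theorem mltc_cond_det {A : Type} [CommRing A] [IsLocalRing A] [Algebra 𝒪 A]
    (ρ : GaloisRepAdic A) (h : B.cond Sig ρ) : ρ.DetIsCyclotomic B.p := h.1.1

theorem mltc_cond_bc {A A' : Type} [CommRing A] [IsLocalRing A] [Algebra 𝒪 A] [CommRing A']
    [IsLocalRing A'] [Algebra 𝒪 A'] (ψ : A →ₐ[𝒪] A') (hψ : IsLocalHom (ψ : A →+* A'))
    (hsurj : Function.Surjective ψ) (ρ : GaloisRepAdic A) (h : B.cond Sig ρ) :
    B.cond Sig (ρ.baseChangeAlong (ψ : A →+* A') hψ) := by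
  refine ⟨⟨detIsCyclotomic_baseChangeAlong _ hψ ρ h.1.1, ?_,
    fun ℓ hℓ hℓS => isUnramifiedAt_baseChangeAlong _ hψ ρ (h.1.2.2 ℓ hℓ hℓS)⟩,
    fun ℓ hℓ hℓp hne => isUnipotentOnInertiaAt_baseChangeAlong _ hψ ρ (h.2 ℓ hℓ hℓp hne)⟩
  have hX : mltX B.p B.flat ρ := h.1.2.1
  show mltX B.p B.flat (ρ.baseChangeAlong (ψ : A →+* A') hψ)
  unfold mltX at hX ⊢
  cases hfl : B.flat with
  | true =>
    rw [hfl] at hX
    exact isFlatAt_baseChangeAlong_of_surjective _ hψ hsurj ρ hX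
  | false =>
    rw [hfl] at hX
    exact mlto_isOrdinaryAt_baseChangeAlong _ hψ ρ hX

end Cond

/-! ### The canonical map `R_{Σ ∪ q} → R_Σ` -/

section PiR

variable (B : MltBase 𝒪) (Sig : Finset ℕ) (q : ℕ)
  (D : DeformationRingData 𝒪 B.ρbar (B.cond Sig))
  (D' : DeformationRingData 𝒪 B.ρbar (B.cond (insert q Sig)))

/-- **(G1)** the canonical map `R_{Σ ∪ q} → R_Σ` -/
theorem mltc_exists_piR :
    ∃ (πR : D'.R →ₐ[𝒪] D.R) (hπR : IsLocalHom (πR : D'.R →+* D.R)),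
      (D'.ρ.baseChangeAlong (πR : D'.R →+* D.R) hπR).IsEquiv D.ρ := by
  obtain ⟨πR, ⟨hπR, he⟩, -⟩ := D'.universal D.R D.residue_surjective D.ρ
    (mltc_cond_mono B Sig q D.ρ D.isOfType) D.residual_isEquiv
  exact ⟨πR, hπR, he⟩

end PiR

/-! ### The `𝒪`-points -/

section Point

theorem mltc_residue_self_surjective :
    Function.Surjective (residue 𝒪 ∘ algebraMap 𝒪 𝒪) := by
  intro x
  obtain ⟨y, rfl⟩ := residue_surjective x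
  exact ⟨y, rfl⟩

variable (B : MltBase 𝒪) (hB : B.Valid) (Sig : Finset ℕ) (hSig : B.IsAux Sig)
  [NeZero (B.level Sig)]
  (θ : CuspForm.heckeAlgebra (B.level Sig) 2 (↑(B.bad Sig) : Set ℕ) →+* ResidueField 𝒪)
  (D : DeformationRingData 𝒪 B.ρbar (B.cond Sig))
  (Hk : CuspForm.HeckeGaloisRepDatum (B.level Sig) (↑(B.bad Sig) : Set ℕ) 𝒪 θ (IhdT 𝒪 θ))
  (hHk : Hk.π = ihdPi 𝒪 θ)
  (φ : D.R →ₐ[𝒪] IhdT 𝒪 θ) (hφ : IsLocalHom (φ : D.R →+* IhdT 𝒪 θ))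
  (hcompat : (D.ρ.baseChangeAlong (φ : D.R →+* IhdT 𝒪 θ) hφ).IsEquiv Hk.ρ)
  (a : ℕ → 𝒪) (π : IhdT 𝒪 θ →ₐ[𝒪] 𝒪) (hπa : MltcPoint B Sig θ a π)

/-- every `𝒪`-algebra map from a deformation ring to `𝒪` is local -/
theorem mltc_isLocalHom_point (x : D.R →ₐ[𝒪] 𝒪) : IsLocalHom (x : D.R →+* 𝒪) :=
  isLocalHom_of_algHom D.instIsLocalHom D.residue_surjective inferInstance
    mltc_residue_self_surjective x

include hB hSig in
theorem mltc_hNS : ∀ r : ℕ, r.Prime → r ∣ B.level Sig → r ∈ B.bad Sig := by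
  intro r hr hdvd
  unfold MltBase.level at hdvd
  unfold MltBase.bad
  rcases (Nat.Prime.dvd_mul hr).mp hdvd with h | h
  · exact Finset.mem_union_left _ (hB.N0_sub r hr h)
  · obtain ⟨q', hq', hd⟩ := (Prime.dvd_finsetProd_iff hr.prime _).mp h
    have h1 : r ∣ q' := hr.dvd_of_dvd_pow hd
    have h2 : r = q' := (Nat.prime_dvd_prime_iff_eq hr (hSig q' hq').1).mp h1
    rw [h2]
    exact Finset.mem_union_right _ hq'

include hB hSig hHk hcompat hπa in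
/-- **the Frobenius polynomials of the point `π ∘ φ` of `R_Σ`** -/
theorem mltc_frob_point (hx : IsLocalHom ((π.comp φ : D.R →ₐ[𝒪] 𝒪) : D.R →+* 𝒪)) :
    AlpyFrob (B.bad Sig) (D.ρ.baseChangeAlong ((π.comp φ : D.R →ₐ[𝒪] 𝒪) : D.R →+* 𝒪) hx) a := by
  intro ℓ hℓ hℓS P hP σ hσ
  have hℓN : ¬ ℓ ∣ B.level Sig := fun h => hℓS (mltc_hNS B hB Sig hSig ℓ hℓ h)
  have hℓS' : ℓ ∉ (↑(B.bad Sig) : Set ℕ) := hℓS
  have h1 := Hk.charpoly_frob ℓ hℓ hℓN hℓS' P hP σ hσ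
  have h3 : LinearMap.charpoly (Hk.ρ.ρ σ) =
      (LinearMap.charpoly (D.ρ.ρ σ)).map (φ : D.R →+* IhdT 𝒪 θ) := by
    rw [← Fermat.Agent.Lib.Helper6.charpoly_baseChangeAlong (φ : D.R →+* IhdT 𝒪 θ) hφ D.ρ σ]
    obtain ⟨e1⟩ := hcompat
    exact Fermat.Agent.Lib.Helper6.charpoly_eq_of_galoisRepAdic_equiv e1 σ
  rw [Fermat.Agent.Lib.Helper6.charpoly_baseChangeAlong]
  have h4 : ((π.comp φ : D.R →ₐ[𝒪] 𝒪) : D.R →+* 𝒪) =
      (π : IhdT 𝒪 θ →+* 𝒪).comp (φ : D.R →+* IhdT 𝒪 θ) := rfl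
  rw [h4, ← Polynomial.map_map, ← h3, h1, hHk]
  simp only [Polynomial.map_add, Polynomial.map_sub, Polynomial.map_mul, Polynomial.map_pow,
    Polynomial.map_X, Polynomial.map_C]
  rw [map_natCast]
  have h5 : (π : IhdT 𝒪 θ →+* 𝒪) (ihdPi 𝒪 θ (CuspForm.heckeAlgebra.T hℓ hℓN hℓS')) = a ℓ :=
    hπa ℓ hℓ hℓN hℓS'
  rw [h5]

include hB hSig hHk hcompat hπa in
/-- the trace of Frobenius at the point `π ∘ φ` -/
theorem mltc_trace_point {ℓ : ℕ} (hℓ : ℓ.Prime) (hℓS : ℓ ∉ B.bad Sig)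
    (P : ValuationSubring Qbar) (hP : P.LiesOverPrime ℓ) (σ : GQ) (hσ : P.IsFrobeniusAt σ ℓ) :
    (π.comp φ : D.R →ₐ[𝒪] 𝒪) (D.ρ.trace σ) = a ℓ := by
  have hx := mltc_isLocalHom_point B Sig D (π.comp φ)
  have h1 := mltc_frob_point B hB Sig hSig θ D Hk hHk φ hφ hcompat a π hπa hx ℓ hℓ hℓS P hP σ hσ
  have h2 := alpy_trace_baseChange D.ρ ((π.comp φ : D.R →ₐ[𝒪] 𝒪) : D.R →+* 𝒪) hx σ
  set ρx := D.ρ.baseChangeAlong ((π.comp φ : D.R →ₐ[𝒪] 𝒪) : D.R →+* 𝒪) hx with hρx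
  let b : Module.Basis (Fin 2) 𝒪 ρx.V := Module.finBasisOfFinrankEq 𝒪 ρx.V ρx.finrank_eq
  obtain ⟨h3, -⟩ := Fermat.Agent.S31T.s31t_trace_det_of_charpoly b (ρx.ρ σ) (a ℓ) (ℓ : 𝒪) h1
  rw [← LinearMap.trace_eq_matrix_trace 𝒪 b] at h3
  have h6 : (π.comp φ : D.R →ₐ[𝒪] 𝒪) (D.ρ.trace σ) =
      ((π.comp φ : D.R →ₐ[𝒪] 𝒪) : D.R →+* 𝒪) (LinearMap.trace D.R D.ρ.V (D.ρ.ρ σ)) := rfl
  rw [h6, ← h2]
  exact h3

end Point

/-! ### Rigidity and the growth of `Φ` -/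

section Step

variable (B : MltBase 𝒪) (hB : B.Valid) (Sig : Finset ℕ) (q : ℕ) (hSig : B.IsAux Sig)
  (hq : q.Prime) (hqS0 : q ∉ B.S0) (hqSig : q ∉ Sig)
  [NeZero (B.level Sig)] [NeZero (B.level (insert q Sig))]
  (θ : CuspForm.heckeAlgebra (B.level Sig) 2 (↑(B.bad Sig) : Set ℕ) →+* ResidueField 𝒪)
  (θ' : CuspForm.heckeAlgebra (B.level (insert q Sig)) 2 (↑(B.bad (insert q Sig)) : Set ℕ) →+*
    ResidueField 𝒪)
  (D : DeformationRingData 𝒪 B.ρbar (B.cond Sig))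
  (D' : DeformationRingData 𝒪 B.ρbar (B.cond (insert q Sig)))
  (Hk : CuspForm.HeckeGaloisRepDatum (B.level Sig) (↑(B.bad Sig) : Set ℕ) 𝒪 θ (IhdT 𝒪 θ))
  (Hk' : CuspForm.HeckeGaloisRepDatum (B.level (insert q Sig)) (↑(B.bad (insert q Sig)) : Set ℕ) 𝒪
    θ' (IhdT 𝒪 θ'))
  (hHk : Hk.π = ihdPi 𝒪 θ) (hHk' : Hk'.π = ihdPi 𝒪 θ')
  (φ : D.R →ₐ[𝒪] IhdT 𝒪 θ) (hφ : IsLocalHom (φ : D.R →+* IhdT 𝒪 θ))
  (hcompat : (D.ρ.baseChangeAlong (φ : D.R →+* IhdT 𝒪 θ) hφ).IsEquiv Hk.ρ)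
  (φ' : D'.R →ₐ[𝒪] IhdT 𝒪 θ') (hφ' : IsLocalHom (φ' : D'.R →+* IhdT 𝒪 θ'))
  (hcompat' : (D'.ρ.baseChangeAlong (φ' : D'.R →+* IhdT 𝒪 θ') hφ').IsEquiv Hk'.ρ)
  (a : ℕ → 𝒪) (π : IhdT 𝒪 θ →ₐ[𝒪] 𝒪) (hπa : MltcPoint B Sig θ a π)
  (π' : IhdT 𝒪 θ' →ₐ[𝒪] 𝒪) (hπa' : MltcPoint B (insert q Sig) θ' a π')
  (πR : D'.R →ₐ[𝒪] D.R) (hπR : IsLocalHom (πR : D'.R →+* D.R))
  (hπρ : (D'.ρ.baseChangeAlong (πR : D'.R →+* D.R) hπR).IsEquiv D.ρ)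

include hSig hq hqS0 in
theorem mltc_isAux_insert : B.IsAux (insert q Sig) := by
  intro r hr
  rcases Finset.mem_insert.1 hr with h | h
  · rw [h]
    exact ⟨hq, hqS0⟩
  · exact hSig r h

theorem mltc_bad_subset : B.bad Sig ⊆ B.bad (insert q Sig) := by
  unfold MltBase.bad
  exact Finset.union_subset_union_right (Finset.subset_insert q Sig)

include hB hSig hq hqS0 hHk hHk' hcompat hcompat' hπa hπa' hπρ in
/-- **(4) rigidity**: the point `π' ∘ φ'` of `R_{Σ ∪ q}` is the point `π ∘ φ` of `R_Σ` composed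
with the canonical map -/
theorem mltc_rigid : π'.comp φ' = (π.comp φ).comp πR := by
  classical
  have hSig' : B.IsAux (insert q Sig) := mltc_isAux_insert B Sig q hSig hq hqS0
  have hNS' := mltc_hNS B hB (insert q Sig) hSig'
  set f : D'.R →ₐ[𝒪] 𝒪 := π'.comp φ' with hf
  set g : D'.R →ₐ[𝒪] 𝒪 := (π.comp φ).comp πR with hg
  have hfl : IsLocalHom (f : D'.R →+* 𝒪) := mltc_isLocalHom_point B (insert q Sig) D' f
  have hgl : IsLocalHom (g : D'.R →+* 𝒪) := mltc_isLocalHom_point B (insert q Sig) D' g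
  have hxl : IsLocalHom ((π.comp φ : D.R →ₐ[𝒪] 𝒪) : D.R →+* 𝒪) :=
    mltc_isLocalHom_point B Sig D (π.comp φ)
  have hπ'l : IsLocalHom (π' : IhdT 𝒪 θ' →+* 𝒪) :=
    isLocalHom_of_algHom (inferInstance : IsLocalHom (algebraMap 𝒪 (IhdT 𝒪 θ')))
      (ihd_residue_surjective 𝒪 θ') inferInstance mltc_residue_self_surjective π'
  -- `ρ_f ≅ Hk'.ρ ⊗ π'`
  have e1 : (D'.ρ.baseChangeAlong (f : D'.R →+* 𝒪) hfl).IsEquiv
      (Hk'.ρ.baseChangeAlong (π' : IhdT 𝒪 θ' →+* 𝒪) hπ'l) := by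
    have h1 := mlto_bc_comp (φ' : D'.R →+* IhdT 𝒪 θ') hφ' (π' : IhdT 𝒪 θ' →+* 𝒪) hπ'l hfl D'.ρ
    exact mlto_isEquiv_trans (mlto_isEquiv_symm h1) (mlto_isEquiv_bc hcompat' _ hπ'l)
  -- `ρ_g ≅ ρ_x ⊗ ...`: Frobenius polynomials
  have hFg : AlpyFrob (B.bad (insert q Sig)) (D'.ρ.baseChangeAlong (g : D'.R →+* 𝒪) hgl)
      (fun ℓ => (π' : IhdT 𝒪 θ' →+* 𝒪) (alpyHecke Hk' ℓ)) := by
    intro ℓ hℓ hℓS' P hP σ hσ
    have hℓS : ℓ ∉ B.bad Sig := fun h => hℓS' (mltc_bad_subset B Sig q h)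
    have hℓN' : ¬ ℓ ∣ B.level (insert q Sig) := fun h => hℓS' (hNS' ℓ hℓ h)
    have hℓS'' : ℓ ∉ (↑(B.bad (insert q Sig)) : Set ℕ) := hℓS'
    have h1 := mltc_frob_point B hB Sig hSig θ D Hk hHk φ hφ hcompat a π hπa hxl ℓ hℓ hℓS P hP σ hσ
    have e2 : (D'.ρ.baseChangeAlong (g : D'.R →+* 𝒪) hgl).IsEquiv
        (D.ρ.baseChangeAlong ((π.comp φ : D.R →ₐ[𝒪] 𝒪) : D.R →+* 𝒪) hxl) := by
      have h2 := mlto_bc_comp (πR : D'.R →+* D.R) hπR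
        ((π.comp φ : D.R →ₐ[𝒪] 𝒪) : D.R →+* 𝒪) hxl hgl D'.ρ
      exact mlto_isEquiv_trans (mlto_isEquiv_symm h2) (mlto_isEquiv_bc hπρ _ hxl)
    obtain ⟨e2'⟩ := e2
    show LinearMap.charpoly ((D'.ρ.baseChangeAlong (g : D'.R →+* 𝒪) hgl).ρ σ) =
      X ^ 2 - C ((π' : IhdT 𝒪 θ' →+* 𝒪) (alpyHecke Hk' ℓ)) * X + C ((ℓ : 𝒪))
    rw [← Fermat.Agent.Lib.Helper6.charpoly_eq_of_galoisRepAdic_equiv e2' σ, h1,
      alpyHecke_eq Hk' hℓ hℓN' hℓS'', hHk']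
    have h5 : (π' : IhdT 𝒪 θ' →+* 𝒪) (ihdPi 𝒪 θ' (CuspForm.heckeAlgebra.T hℓ hℓN' hℓS'')) = a ℓ :=
      hπa' ℓ hℓ hℓN' hℓS''
    rw [h5]
  obtain ⟨e3⟩ := alpy_rigid (B.bad (insert q Sig)) Hk'.ρ Hk'.residual_absIrr (alpyHecke Hk')
    (alpy_frob_datum hNS' Hk') (π' : IhdT 𝒪 θ' →+* 𝒪) hπ'l _ hFg
  -- uniqueness
  have hcond : B.cond (insert q Sig) (D'.ρ.baseChangeAlong (f : D'.R →+* 𝒪) hfl) :=
    mltc_cond_bc B (insert q Sig) f hfl (fun o => ⟨algebraMap 𝒪 D'.R o, by simp⟩) D'.ρ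
      D'.isOfType
  have hres := mlto_residual_bc D' f hfl
  obtain ⟨ψ₀, -, huniq⟩ := D'.universal 𝒪 mltc_residue_self_surjective _ hcond hres
  have h1 : f = ψ₀ := huniq f ⟨hfl, ⟨GaloisRepAdic.Equiv.refl _⟩⟩
  have h2 : g = ψ₀ := by
    refine huniq g ⟨hgl, ?_⟩
    exact mlto_isEquiv_symm (mlto_isEquiv_trans e1 ⟨e3⟩)
  rw [h1, h2]

include hB hSig hq hqS0 hqSig hHk hHk' hcompat hcompat' hπa hπa' hπρ in
/-- **(G3) the growth of `Φ`**: `length Φ(π' ∘ φ') ≤ length Φ(π ∘ φ) + length 𝒪/(c_q(a_q))` -/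
theorem mltc_phiLen_step :
    mltc_phiLen (π'.comp φ') ≤ mltc_phiLen (π.comp φ) +
      Module.length 𝒪 (𝒪 ⧸ Ideal.span {mltcCq q (a q)}) := by
  classical
  haveI : Fact B.p.Prime := ⟨hB.prime⟩
  have hpS0 : B.p ∈ B.S0 := hB.Smin_sub hB.p_mem_Smin
  have hqp : q ≠ B.p := fun h => hqS0 (h ▸ hpS0)
  have hqT : q ∉ B.Smin ∪ Sig := by
    intro h
    rcases Finset.mem_union.1 h with h1 | h1
    · exact hqS0 (hB.Smin_sub h1)
    · exact hqSig h1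
  obtain ⟨P, σ, hP, hσ⟩ := Fermat.Agent.Lib.Helper6.exists_frobenius q hq
  have hgrow := mlto_growth_generic (𝒟 := B.cond Sig) (𝒟' := B.cond (insert q Sig)) B.p q hq hqp
    (fun A _ _ _ ρ h hunr => mltc_cond_of_unr B Sig q ρ h hunr)
    (fun A _ _ _ ρ h => mltc_cond_mono B Sig q ρ h)
    (fun A _ _ _ ρ h => mltc_cond_unr B Sig q hq hqT ρ h)
    (fun A A' _ _ _ _ _ _ ψ hψ hsurj ρ h => mltc_cond_bc B (insert q Sig) ψ hψ hsurj ρ h)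
    (fun A _ _ _ ρ h => mltc_cond_det B (insert q Sig) ρ h)
    D D' πR hπR hπρ (π.comp φ) P hP σ hσ hB.mem
  have hrig := mltc_rigid B hB Sig q hSig hq hqS0 θ θ' D D' Hk Hk' hHk hHk' φ hφ hcompat φ' hφ'
    hcompat' a π hπa π' hπa' πR hπR hπρ
  have hqbad : q ∉ B.bad Sig := by
    unfold MltBase.bad
    intro h
    rcases Finset.mem_union.1 h with h1 | h1
    · exact hqS0 h1
    · exact hqSig h1
  have htr := mltc_trace_point B hB Sig hSig θ D Hk hHk φ hφ hcompat a π hπa hq hqbad P hP σ hσ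
  rw [hrig]
  have h2 := hgrow.2
  rw [htr] at h2
  exact h2

end Step

end Fermat.Agent.MLT
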