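/-
MLT stream Crit/Step (helper6): **rigidity between two arbitrary levels** (generic form of
`Crit/StepGal.lean`, for the step at `p`: `flat/peu → ord`, level `N → N p`).

Two deformation problems `𝒟`, `𝒟'` for the same `ρbar`, rings `D`, `D'`, a map `πR : D'.R → D.R`
carrying the universal deformation of `D'` to that of `D`; Hecke data of levels `N`, `N'` away from
`S ⊆ S'`, comparison maps `φ`, `φ'`, points `π`, `π'` with the same eigenvalues `a ℓ` (`ℓ ∉ S'`).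

* `mltc_frob_point_gen`  : Frobenius polynomials of the point `π ∘ φ`;
* `mltc_trace_point_gen` : its Frobenius traces;
* `mltc_rigid_gen`       : `π' ∘ φ' = (π ∘ φ) ∘ πR`.
-/
import Mathlib
import Fermat.Agent.Lib.MLT.Crit.StepGal

set_option autoImplicit false
set_option linter.unusedSectionVars false
set_option linter.unusedVariables false
set_option linter.style.haveILetI false

open IsLocalRing Polynomial Fermat.Agent.TW Fermat.Agent.Ihara GaloisRep Fermat.Agent.S53Lib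
open Fermat.Agent.Alpha (AlpyFrob alpyHecke alpyHecke_eq alpy_frob_datum alpy_rigid
  alpy_trace_baseChange)

namespace Fermat.Agent.MLT

local notation "Qbar" => AlgebraicClosure ℚ
local notation "GQ" => (AlgebraicClosure ℚ ≃ₐ[ℚ] AlgebraicClosure ℚ)

variable {𝒪 : Type} [CommRing 𝒪] [IsDomain 𝒪] [IsDiscreteValuationRing 𝒪] [CharZero 𝒪]
  [IsAdicComplete (maximalIdeal 𝒪) 𝒪] [Finite (ResidueField 𝒪)]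
  {ρbar : ResidualGaloisRep (ResidueField 𝒪)}

section Point

variable {𝒟 : ∀ ⦃A : Type⦄ [CommRing A] [IsLocalRing A] [Algebra 𝒪 A], GaloisRepAdic A → Prop}
  {N : ℕ} [NeZero N] {S : Finset ℕ} (hNS : ∀ r : ℕ, r.Prime → r ∣ N → r ∈ S)
  (θ : CuspForm.heckeAlgebra N 2 (↑S : Set ℕ) →+* ResidueField 𝒪)
  (D : DeformationRingData 𝒪 ρbar 𝒟)
  (Hk : CuspForm.HeckeGaloisRepDatum N (↑S : Set ℕ) 𝒪 θ (IhdT 𝒪 θ))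
  (hHk : Hk.π = ihdPi 𝒪 θ)
  (φ : D.R →ₐ[𝒪] IhdT 𝒪 θ) (hφ : IsLocalHom (φ : D.R →+* IhdT 𝒪 θ))
  (hcompat : (D.ρ.baseChangeAlong (φ : D.R →+* IhdT 𝒪 θ) hφ).IsEquiv Hk.ρ)
  (a : ℕ → 𝒪) (π : IhdT 𝒪 θ →ₐ[𝒪] 𝒪)
  (hπa : ∀ (ℓ : ℕ) (hℓ : ℓ.Prime) (hℓN : ¬ ℓ ∣ N) (hℓS : ℓ ∉ (↑S : Set ℕ)),
    π (ihdPi 𝒪 θ (CuspForm.heckeAlgebra.T hℓ hℓN hℓS)) = a ℓ)

/-- every `𝒪`-algebra map from a deformation ring to `𝒪` is local -/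
theorem mltc_isLocalHom_point_gen (x : D.R →ₐ[𝒪] 𝒪) : IsLocalHom (x : D.R →+* 𝒪) :=
  isLocalHom_of_algHom D.instIsLocalHom D.residue_surjective inferInstance
    mltc_residue_self_surjective x

include hNS hHk hcompat hπa in
/-- **the Frobenius polynomials of the point `π ∘ φ`** -/
theorem mltc_frob_point_gen (hx : IsLocalHom ((π.comp φ : D.R →ₐ[𝒪] 𝒪) : D.R →+* 𝒪)) :
    AlpyFrob S (D.ρ.baseChangeAlong ((π.comp φ : D.R →ₐ[𝒪] 𝒪) : D.R →+* 𝒪) hx) a := by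
  intro ℓ hℓ hℓS P hP σ hσ
  have hℓN : ¬ ℓ ∣ N := fun h => hℓS (hNS ℓ hℓ h)
  have hℓS' : ℓ ∉ (↑S : Set ℕ) := hℓS
  have h1 := Hk.charpoly_frob ℓ hℓ hℓN hℓS' P hP σ hσ
  have h3 : LinearMap.charpoly (Hk.ρ.ρ σ) =
      (LinearMap.charpoly (D.ρ.ρ σ)).map (φ : D.R →+* IhdT 𝒪 θ) := by
    rw [← Fermat.Agent.Lib.Helper6.charpoly_baseChangeAlong (φ : D.R →+* IhdT 𝒪 θ) hφ D.ρ σ]
    obtain ⟨e1⟩ := hcompat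
    exact Fermat.Agent.Lib.Helper6.charpoly_eq_of_galoisRepAdic_equiv e1 σ
  rw [Fermat.Agent.Lib.Helper6.charpoly_baseChangeAlong]
  have h4 : ((π.comp φ : D.R →ₐ[𝒪] 𝒪) : D.R →+* 𝒪) =
      (π : IhdT 𝒪 θ →+* 𝒪).comp (φ : D.R →+* IhdT 𝒪 θ) := rfl
  rw [h4, ← Polynomial.map_map, ← h3, h1, hHk]
  simp only [Polynomial.map_add, Polynomial.map_sub, Polynomial.map_mul, Polynomial.map_pow,
    Polynomial.map_X, Polynomial.map_C]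
  rw [map_natCast]
  have h5 : (π : IhdT 𝒪 θ →+* 𝒪) (ihdPi 𝒪 θ (CuspForm.heckeAlgebra.T hℓ hℓN hℓS')) = a ℓ :=
    hπa ℓ hℓ hℓN hℓS'
  rw [h5]

include hNS hHk hcompat hπa in
/-- the trace of Frobenius at the point `π ∘ φ` -/
theorem mltc_trace_point_gen {ℓ : ℕ} (hℓ : ℓ.Prime) (hℓS : ℓ ∉ S)
    (P : ValuationSubring Qbar) (hP : P.LiesOverPrime ℓ) (σ : GQ) (hσ : P.IsFrobeniusAt σ ℓ) :
    (π.comp φ : D.R →ₐ[𝒪] 𝒪) (D.ρ.trace σ) = a ℓ := by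
  have hx := mltc_isLocalHom_point_gen D (π.comp φ)
  have h1 := mltc_frob_point_gen hNS θ D Hk hHk φ hφ hcompat a π hπa hx ℓ hℓ hℓS P hP σ hσ
  have h2 := alpy_trace_baseChange D.ρ ((π.comp φ : D.R →ₐ[𝒪] 𝒪) : D.R →+* 𝒪) hx σ
  set ρx := D.ρ.baseChangeAlong ((π.comp φ : D.R →ₐ[𝒪] 𝒪) : D.R →+* 𝒪) hx with hρx
  let b : Module.Basis (Fin 2) 𝒪 ρx.V := Module.finBasisOfFinrankEq 𝒪 ρx.V ρx.finrank_eq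
  obtain ⟨h3, -⟩ := Fermat.Agent.S31T.s31t_trace_det_of_charpoly b (ρx.ρ σ) (a ℓ) (ℓ : 𝒪) h1
  rw [← LinearMap.trace_eq_matrix_trace 𝒪 b] at h3
  have h6 : (π.comp φ : D.R →ₐ[𝒪] 𝒪) (D.ρ.trace σ) =
      ((π.comp φ : D.R →ₐ[𝒪] 𝒪) : D.R →+* 𝒪) (LinearMap.trace D.R D.ρ.V (D.ρ.ρ σ)) := rfl
  rw [h6, ← h2]
  exact h3

end Point

section Rigid

variable {𝒟 𝒟' : ∀ ⦃A : Type⦄ [CommRing A] [IsLocalRing A] [Algebra 𝒪 A], GaloisRepAdic A → Prop}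
  (hbc : ∀ ⦃A A' : Type⦄ [CommRing A] [IsLocalRing A] [Algebra 𝒪 A] [CommRing A'] [IsLocalRing A']
    [Algebra 𝒪 A'] (ψ : A →ₐ[𝒪] A') (hψ : IsLocalHom (ψ : A →+* A')), Function.Surjective ψ →
    ∀ ρ : GaloisRepAdic A, 𝒟' ρ → 𝒟' (ρ.baseChangeAlong (ψ : A →+* A') hψ))
  {N N' : ℕ} [NeZero N] [NeZero N'] {S S' : Finset ℕ} (hSS' : S ⊆ S')
  (hNS : ∀ r : ℕ, r.Prime → r ∣ N → r ∈ S) (hNS' : ∀ r : ℕ, r.Prime → r ∣ N' → r ∈ S')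
  (θ : CuspForm.heckeAlgebra N 2 (↑S : Set ℕ) →+* ResidueField 𝒪)
  (θ' : CuspForm.heckeAlgebra N' 2 (↑S' : Set ℕ) →+* ResidueField 𝒪)
  (D : DeformationRingData 𝒪 ρbar 𝒟) (D' : DeformationRingData 𝒪 ρbar 𝒟')
  (Hk : CuspForm.HeckeGaloisRepDatum N (↑S : Set ℕ) 𝒪 θ (IhdT 𝒪 θ))
  (Hk' : CuspForm.HeckeGaloisRepDatum N' (↑S' : Set ℕ) 𝒪 θ' (IhdT 𝒪 θ'))
  (hHk : Hk.π = ihdPi 𝒪 θ) (hHk' : Hk'.π = ihdPi 𝒪 θ')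
  (φ : D.R →ₐ[𝒪] IhdT 𝒪 θ) (hφ : IsLocalHom (φ : D.R →+* IhdT 𝒪 θ))
  (hcompat : (D.ρ.baseChangeAlong (φ : D.R →+* IhdT 𝒪 θ) hφ).IsEquiv Hk.ρ)
  (φ' : D'.R →ₐ[𝒪] IhdT 𝒪 θ') (hφ' : IsLocalHom (φ' : D'.R →+* IhdT 𝒪 θ'))
  (hcompat' : (D'.ρ.baseChangeAlong (φ' : D'.R →+* IhdT 𝒪 θ') hφ').IsEquiv Hk'.ρ)
  (a : ℕ → 𝒪) (π : IhdT 𝒪 θ →ₐ[𝒪] 𝒪)
  (hπa : ∀ (ℓ : ℕ) (hℓ : ℓ.Prime) (hℓN : ¬ ℓ ∣ N) (hℓS : ℓ ∉ (↑S : Set ℕ)),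
    π (ihdPi 𝒪 θ (CuspForm.heckeAlgebra.T hℓ hℓN hℓS)) = a ℓ)
  (π' : IhdT 𝒪 θ' →ₐ[𝒪] 𝒪)
  (hπa' : ∀ (ℓ : ℕ) (hℓ : ℓ.Prime) (hℓN : ¬ ℓ ∣ N') (hℓS : ℓ ∉ (↑S' : Set ℕ)),
    π' (ihdPi 𝒪 θ' (CuspForm.heckeAlgebra.T hℓ hℓN hℓS)) = a ℓ)
  (πR : D'.R →ₐ[𝒪] D.R) (hπR : IsLocalHom (πR : D'.R →+* D.R))
  (hπρ : (D'.ρ.baseChangeAlong (πR : D'.R →+* D.R) hπR).IsEquiv D.ρ)

include hbc hSS' hNS hNS' hHk hHk' hcompat hcompat' hπa hπa' hπρ in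
/-- **rigidity between two levels**: `π' ∘ φ' = (π ∘ φ) ∘ πR` -/
theorem mltc_rigid_gen : π'.comp φ' = (π.comp φ).comp πR := by
  classical
  set f : D'.R →ₐ[𝒪] 𝒪 := π'.comp φ' with hf
  set g : D'.R →ₐ[𝒪] 𝒪 := (π.comp φ).comp πR with hg
  have hfl : IsLocalHom (f : D'.R →+* 𝒪) := mltc_isLocalHom_point_gen D' f
  have hgl : IsLocalHom (g : D'.R →+* 𝒪) := mltc_isLocalHom_point_gen D' g
  have hxl : IsLocalHom ((π.comp φ : D.R →ₐ[𝒪] 𝒪) : D.R →+* 𝒪) :=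
    mltc_isLocalHom_point_gen D (π.comp φ)
  have hπ'l : IsLocalHom (π' : IhdT 𝒪 θ' →+* 𝒪) :=
    isLocalHom_of_algHom (inferInstance : IsLocalHom (algebraMap 𝒪 (IhdT 𝒪 θ')))
      (ihd_residue_surjective 𝒪 θ') inferInstance mltc_residue_self_surjective π'
  have e1 : (D'.ρ.baseChangeAlong (f : D'.R →+* 𝒪) hfl).IsEquiv
      (Hk'.ρ.baseChangeAlong (π' : IhdT 𝒪 θ' →+* 𝒪) hπ'l) := by
    have h1 := mlto_bc_comp (φ' : D'.R →+* IhdT 𝒪 θ') hφ' (π' : IhdT 𝒪 θ' →+* 𝒪) hπ'l hfl D'.ρ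
    exact mlto_isEquiv_trans (mlto_isEquiv_symm h1) (mlto_isEquiv_bc hcompat' _ hπ'l)
  have hFg : AlpyFrob S' (D'.ρ.baseChangeAlong (g : D'.R →+* 𝒪) hgl)
      (fun ℓ => (π' : IhdT 𝒪 θ' →+* 𝒪) (alpyHecke Hk' ℓ)) := by
    intro ℓ hℓ hℓS' P hP σ hσ
    have hℓS : ℓ ∉ S := fun h => hℓS' (hSS' h)
    have hℓN' : ¬ ℓ ∣ N' := fun h => hℓS' (hNS' ℓ hℓ h)
    have hℓS'' : ℓ ∉ (↑S' : Set ℕ) := hℓS'
    have h1 := mltc_frob_point_gen hNS θ D Hk hHk φ hφ hcompat a π hπa hxl ℓ hℓ hℓS P hP σ hσ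
    have e2 : (D'.ρ.baseChangeAlong (g : D'.R →+* 𝒪) hgl).IsEquiv
        (D.ρ.baseChangeAlong ((π.comp φ : D.R →ₐ[𝒪] 𝒪) : D.R →+* 𝒪) hxl) := by
      have h2 := mlto_bc_comp (πR : D'.R →+* D.R) hπR
        ((π.comp φ : D.R →ₐ[𝒪] 𝒪) : D.R →+* 𝒪) hxl hgl D'.ρ
      exact mlto_isEquiv_trans (mlto_isEquiv_symm h2) (mlto_isEquiv_bc hπρ _ hxl)
    obtain ⟨e2'⟩ := e2
    show LinearMap.charpoly ((D'.ρ.baseChangeAlong (g : D'.R →+* 𝒪) hgl).ρ σ) =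
      X ^ 2 - C ((π' : IhdT 𝒪 θ' →+* 𝒪) (alpyHecke Hk' ℓ)) * X + C ((ℓ : 𝒪))
    rw [← Fermat.Agent.Lib.Helper6.charpoly_eq_of_galoisRepAdic_equiv e2' σ, h1,
      alpyHecke_eq Hk' hℓ hℓN' hℓS'', hHk']
    have h5 : (π' : IhdT 𝒪 θ' →+* 𝒪) (ihdPi 𝒪 θ' (CuspForm.heckeAlgebra.T hℓ hℓN' hℓS'')) = a ℓ :=
      hπa' ℓ hℓ hℓN' hℓS''
    rw [h5]
  obtain ⟨e3⟩ := alpy_rigid S' Hk'.ρ Hk'.residual_absIrr (alpyHecke Hk')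
    (alpy_frob_datum hNS' Hk') (π' : IhdT 𝒪 θ' →+* 𝒪) hπ'l _ hFg
  have hcond : 𝒟' (D'.ρ.baseChangeAlong (f : D'.R →+* 𝒪) hfl) :=
    hbc f hfl (fun o => ⟨algebraMap 𝒪 D'.R o, by simp⟩) D'.ρ D'.isOfType
  have hres := mlto_residual_bc D' f hfl
  obtain ⟨ψ₀, -, huniq⟩ := D'.universal 𝒪 mltc_residue_self_surjective _ hcond hres
  have h1 : f = ψ₀ := huniq f ⟨hfl, ⟨GaloisRepAdic.Equiv.refl _⟩⟩
  have h2 : g = ψ₀ := by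
    refine huniq g ⟨hgl, ?_⟩
    exact mlto_isEquiv_symm (mlto_isEquiv_trans e1 ⟨e3⟩)
  rw [h1, h2]

end Rigid

end Fermat.Agent.MLT
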