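/-
MLT stream Crit/Step (helper6): **the Hecke side of the induction on `Σ`**.

For a base datum `B`, an admissible `Σ`, a residual eigencharacter `θ` and an eigensystem `a`
occurring in `H_Σ` (`mltcEig B Σ a ≠ ⊥`):

* `mltc_eig_residue`     : `a ℓ ≡ t ℓ mod 𝔪` (`ℓ ∉ S_Σ`);
* `mltc_exists_point`    : the point `π : T_Σ → 𝒪` with `π T_ℓ = a ℓ`;
* `mltc_adjoin_T`        : `T_Σ` is generated over `𝒪` by the `T_ℓ`, `ℓ ∉ S_Σ`;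
* `mltc_torsP_eq_eig`    : `H_Σ[ker π] = X_Σ(a)` for every compatible module structure;
* `mltc_cq_ne_zero`      : `c_q(a_q) ≠ 0` for `q ∉ S_Σ` ((7), `mltc_rp_betti_cq`).
-/
import Mathlib
import Fermat.Agent.Lib.MLT.Min.Act
import Fermat.Agent.Lib.Ihara.Sc.Level
import Fermat.Agent.Lib.MLT.Crit.RPBetti
import Fermat.Agent.Lib.MLT.Crit.StepAlg
import Fermat.Agent.Lib.MLT.Contracts.Step

set_option autoImplicit false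
set_option linter.unusedSectionVars false
set_option linter.unusedVariables false
set_option linter.style.haveILetI false

open IsLocalRing Polynomial Fermat.Agent.TW Fermat.Agent.Ihara

namespace Fermat.Agent.MLT

set_option maxSynthPendingDepth 3

variable {𝒪 : Type} [CommRing 𝒪] [IsDomain 𝒪] [IsDiscreteValuationRing 𝒪] [CharZero 𝒪]
  [IsAdicComplete (maximalIdeal 𝒪) 𝒪] [Finite (ResidueField 𝒪)]
  (B : MltBase 𝒪) (hB : B.Valid) (Sig : Finset ℕ) (hSig : B.IsAux Sig) [NeZero (B.level Sig)]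

/-- a non-zero element of the eigenspace -/
theorem mltc_exists_mem_eig {a : ℕ → 𝒪} (h : mltcEig B Sig a ≠ ⊥) :
    ∃ x : ↥(B.H Sig), x ≠ 0 ∧ x ∈ mltcEig B Sig a := by
  obtain ⟨x, hx, hx0⟩ := (Submodule.ne_bot_iff _).1 h
  exact ⟨x, hx0, hx⟩

include hB in
/-- **`a ℓ ≡ t ℓ mod 𝔪`** for an eigensystem occurring in `H_Σ` -/
theorem mltc_eig_residue {a : ℕ → 𝒪} (h : mltcEig B Sig a ≠ ⊥) {ℓ : ℕ} (hℓ : ℓ.Prime)
    (hℓS : ℓ ∉ B.bad Sig) : residue 𝒪 (a ℓ) = residue 𝒪 (B.t ℓ) := by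
  classical
  obtain ⟨x, hx0, hx⟩ := mltc_exists_mem_eig B Sig h
  have hxv0 : (x : Ih4H 𝒪 𝒪 (B.level Sig)) ≠ 0 := fun h0 => hx0 (Subtype.ext h0)
  have hℓSig : ℓ ∉ Sig := fun h1 => hℓS (Finset.mem_union_right _ h1)
  have hℓcut : ℓ ∉ B.cut := fun h1 => hℓS (Finset.mem_union_left _ (hB.cut_sub ℓ h1).2)
  have hθ : B.theta Sig ℓ = B.t ℓ := B.theta_of_good Sig hℓSig hℓcut
  have hPs : ℓ ∈ B.Ps Sig := Or.inl ⟨hℓ, hℓS⟩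
  have hmem : (x : Ih4H 𝒪 𝒪 (B.level Sig)) ∈ ih4Part 𝒪 (B.level Sig) (B.Ps Sig) (B.theta Sig) :=
    x.2
  have hnil := (ih4_mem_part 𝒪).1 hmem ℓ hPs
  rw [hθ] at hnil
  set S : Module.End 𝒪 (Ih4H 𝒪 𝒪 (B.level Sig)) :=
    ih4Op 𝒪 (B.level Sig) ℓ - algebraMap 𝒪 (Module.End 𝒪 (Ih4H 𝒪 𝒪 (B.level Sig))) (B.t ℓ) with hS
  set u : 𝒪 := a ℓ - B.t ℓ with hu
  have hSx : ∀ N : ℕ, (S ^ N) (x : Ih4H 𝒪 𝒪 (B.level Sig)) =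
      u ^ N • (x : Ih4H 𝒪 𝒪 (B.level Sig)) := by
    intro N
    induction N with
    | zero => simp
    | succ k ih =>
      rw [pow_succ', Module.End.mul_apply, ih, map_smul, hS, LinearMap.sub_apply,
        Module.algebraMap_end_apply, hx ℓ hℓ hℓS, ← sub_smul, smul_smul, pow_succ]
  rw [← sub_eq_zero, ← map_sub, residue_eq_zero_iff]
  by_contra hunit
  have hu' : IsUnit u := by
    rw [mem_maximalIdeal, mem_nonunits_iff, not_not] at hunit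
    exact hunit
  apply hxv0
  apply ih4p_eq_zero_of_forall_mem 𝒪
  intro n
  obtain ⟨N, hN⟩ := hnil n
  rw [hSx N] at hN
  obtain ⟨v, hv⟩ := hu'.pow N
  have h1 : (x : Ih4H 𝒪 𝒪 (B.level Sig)) =
      ((v⁻¹ : 𝒪ˣ) : 𝒪) • (u ^ N • (x : Ih4H 𝒪 𝒪 (B.level Sig))) := by
    rw [smul_smul, ← hv, Units.inv_mul, one_smul]
  rw [h1]
  exact Submodule.smul_mem _ _ hN

include hB hSig in
/-- **the point of `T_Σ` of an eigensystem occurring in `H_Σ`** -/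
theorem mltc_exists_point
    (θ : CuspForm.heckeAlgebra (B.level Sig) 2 (↑(B.bad Sig) : Set ℕ) →+* ResidueField 𝒪)
    (hθ : B.IsTheta Sig θ) {a : ℕ → 𝒪} (h : mltcEig B Sig a ≠ ⊥) :
    ∃ π : IhdT 𝒪 θ →ₐ[𝒪] 𝒪, MltcPoint B Sig θ a π := by
  obtain ⟨x, hx0, hx⟩ := mltc_exists_mem_eig B Sig h
  have hxv0 : (x : Ih4H 𝒪 𝒪 (B.level Sig)) ≠ 0 := fun h0 => hx0 (Subtype.ext h0)
  have hNS := mltm_hNS' B hB Sig hSig
  obtain ⟨χ, hχ⟩ := ihsc_exists_char 𝒪 (B.level Sig) (↑(B.bad Sig) : Set ℕ) hNS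
    (x : Ih4H 𝒪 𝒪 (B.level Sig)) hxv0 a (fun ℓ hℓ hℓS => hx ℓ hℓ (fun h1 => hℓS (Finset.mem_coe.2 h1)))
  have hres : ((residue 𝒪).comp χ) = θ := by
    apply mltm_hecke_hom_ext B hB Sig hSig
    intro ℓ hℓ hℓN hℓS
    rw [RingHom.comp_apply, hχ ℓ hℓ hℓN hℓS, hθ ℓ hℓ hℓN hℓS]
    exact mltc_eig_residue B hB Sig h hℓ (fun h1 => hℓS (Finset.mem_coe.2 h1))
  obtain ⟨π, hπ⟩ := ihd_exists_point 𝒪 θ χ (fun t => by rw [← hres]; rfl)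
  exact ⟨π, fun ℓ hℓ hℓN hℓS => by rw [hπ, hχ ℓ hℓ hℓN hℓS]⟩

include hB hSig in
/-- `T_Σ` is generated over `𝒪` by the `T_ℓ`, `ℓ ∉ S_Σ` -/
theorem mltc_adjoin_T
    (θ : CuspForm.heckeAlgebra (B.level Sig) 2 (↑(B.bad Sig) : Set ℕ) →+* ResidueField 𝒪) :
    Algebra.adjoin 𝒪 {t : IhdT 𝒪 θ | ∃ (ℓ : ℕ) (hℓ : ℓ.Prime) (hℓN : ¬ ℓ ∣ B.level Sig)
      (hℓS : ℓ ∉ (↑(B.bad Sig) : Set ℕ)), t = ihdPi 𝒪 θ (CuspForm.heckeAlgebra.T hℓ hℓN hℓS)} = ⊤ := by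
  set G : Set (IhdT 𝒪 θ) := {t : IhdT 𝒪 θ | ∃ (ℓ : ℕ) (hℓ : ℓ.Prime) (hℓN : ¬ ℓ ∣ B.level Sig)
      (hℓS : ℓ ∉ (↑(B.bad Sig) : Set ℕ)), t = ihdPi 𝒪 θ (CuspForm.heckeAlgebra.T hℓ hℓN hℓS)} with hG
  have hNS := mltm_hNS' B hB Sig hSig
  rw [eq_top_iff, ← ihd_adjoin_range_pi 𝒪 θ]
  refine Algebra.adjoin_le ?_
  rintro _ ⟨t, rfl⟩
  show ihdPi 𝒪 θ t ∈ Algebra.adjoin 𝒪 G
  induction t using ihk_hecke_induction hNS with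
  | T ℓ hℓ hℓN hℓS => exact Algebra.subset_adjoin ⟨ℓ, hℓ, hℓN, hℓS, rfl⟩
  | int r =>
    rw [map_intCast]
    exact intCast_mem _ r
  | add x y hx hy =>
    rw [map_add]
    exact Subalgebra.add_mem _ hx hy
  | mul x y hx hy =>
    rw [map_mul]
    exact Subalgebra.mul_mem _ hx hy

include hB hSig in
/-- **`H_Σ[ker π] = X_Σ(a)`** for every compatible module structure -/
theorem mltc_torsP_eq_eig
    (θ : CuspForm.heckeAlgebra (B.level Sig) 2 (↑(B.bad Sig) : Set ℕ) →+* ResidueField 𝒪)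
    (a : ℕ → 𝒪) (π : IhdT 𝒪 θ →ₐ[𝒪] 𝒪) (hπ : MltcPoint B Sig θ a π)
    [Module (IhdT 𝒪 θ) ↥(B.H Sig)] [IsScalarTower 𝒪 (IhdT 𝒪 θ) ↥(B.H Sig)]
    (hc : MltcCompat B Sig θ) : mltc_torsP π ↥(B.H Sig) = mltcEig B Sig a := by
  have hNS := mltm_hNS B hB Sig hSig
  ext x
  rw [mltc_mem_torsP_iff_of_adjoin π _ (mltc_adjoin_T B hB Sig hSig θ) x, mem_mltcEig]
  constructor
  · intro h ℓ hℓ hℓS
    have hℓN : ¬ ℓ ∣ B.level Sig := fun hd => hℓS (hNS ℓ hℓ hd)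
    have hℓS' : ℓ ∉ (↑(B.bad Sig) : Set ℕ) := fun h1 => hℓS (Finset.mem_coe.1 h1)
    have h1 := h _ ⟨ℓ, hℓ, hℓN, hℓS', rfl⟩
    rw [← hc ℓ hℓ hℓN hℓS' x, h1, hπ ℓ hℓ hℓN hℓS']
    rfl
  · rintro h _ ⟨ℓ, hℓ, hℓN, hℓS, rfl⟩
    apply Subtype.ext
    rw [hc ℓ hℓ hℓN hℓS x, hπ ℓ hℓ hℓN hℓS, h ℓ hℓ (fun h1 => hℓS (Finset.mem_coe.2 h1))]
    rfl

include hB hSig in
/-- **(7)** `c_q(a_q) ≠ 0` for an eigensystem occurring in `H_Σ` and a prime `q ∉ S_Σ` -/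
theorem mltc_cq_ne_zero {a : ℕ → 𝒪} (h : mltcEig B Sig a ≠ ⊥) {q : ℕ} (hq : q.Prime)
    (hqS : q ∉ B.bad Sig) : mltcCq q (a q) ≠ 0 := by
  obtain ⟨x, hx0, hx⟩ := mltc_exists_mem_eig B Sig h
  have hxv0 : (x : Ih4H 𝒪 𝒪 (B.level Sig)) ≠ 0 := fun h0 => hx0 (Subtype.ext h0)
  have hqN : ¬ q ∣ B.level Sig := fun hd => hqS (mltm_hNS B hB Sig hSig q hq hd)
  exact mltc_rp_betti_cq 𝒪 (B.level Sig) hq hqN (a q) (x : Ih4H 𝒪 𝒪 (B.level Sig)) hxv0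
    (hx q hq hqS)

end Fermat.Agent.MLT
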