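/-
MLT stream Crit/Step (helper6): **the induction on `Σ`**: `R_Σ ≅ T_Σ` for every admissible `Σ`.

* `MltcNum B a d Σ θ D φ` : the numerical invariant at level `Σ`: `φ : R_Σ → T_Σ` is bijective and,
  for the point `π` of `T_Σ` with eigenvalues `a`, `rank X_Σ(a) = d`,
  `length Φ(π ∘ φ) = length 𝒪/η(π) < ∞`, `length Ω(π, H_Σ) = d · length 𝒪/η(π)`;
* `MltcInv B a d Σ`       : `MltcNum` for every surjective comparison map of level `Σ`;
* `mltc_inv_base`         : `MltcInv B a d ∅` from `MltRT B ∅` (helper2) and `mltc_base`;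
* `mltc_inv_step`         : `MltcInv B a d Σ → MltcInv B a d (Σ ∪ {q})` from the growth bounds;
* `mltc_bij`              : every surjective comparison map `R_Σ → T_Σ` is bijective.
-/
import Mathlib
import Fermat.Agent.Lib.MLT.Crit.StepGal
import Fermat.Agent.Lib.MLT.Crit.StepHecke
import Fermat.Agent.Lib.MLT.Min.Eta0

set_option autoImplicit false
set_option linter.unusedSectionVars false
set_option linter.unusedVariables false
set_option linter.style.haveILetI false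

open IsLocalRing Polynomial Fermat.Agent.TW Fermat.Agent.Ihara GaloisRep

namespace Fermat.Agent.MLT

set_option maxSynthPendingDepth 3

variable {𝒪 : Type} [CommRing 𝒪] [IsDomain 𝒪] [IsDiscreteValuationRing 𝒪] [CharZero 𝒪]
  [IsAdicComplete (maximalIdeal 𝒪) 𝒪] [Finite (ResidueField 𝒪)]

/-- **the numerical invariant** at level `Σ` for one comparison map `φ : R_Σ → T_Σ` -/
def MltcNum (B : MltBase 𝒪) (a : ℕ → 𝒪) (d : ℕ) (Sig : Finset ℕ) [NeZero (B.level Sig)]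
    (θ : CuspForm.heckeAlgebra (B.level Sig) 2 (↑(B.bad Sig) : Set ℕ) →+* ResidueField 𝒪)
    (D : DeformationRingData 𝒪 B.ρbar (B.cond Sig)) (φ : D.R →ₐ[𝒪] IhdT 𝒪 θ) : Prop :=
  Function.Bijective φ ∧
  ∃ (π : IhdT 𝒪 θ →ₐ[𝒪] 𝒪) (_ : Module (IhdT 𝒪 θ) ↥(B.H Sig))
    (_ : IsScalarTower 𝒪 (IhdT 𝒪 θ) ↥(B.H Sig)),
    MltcPoint B Sig θ a π ∧ MltcCompat B Sig θ ∧
    Module.finrank 𝒪 (mltcEig B Sig a) = d ∧
    Module.length 𝒪 (𝒪 ⧸ mltc_eta π) ≠ ⊤ ∧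
    mltc_phiLen (π.comp φ) = Module.length 𝒪 (𝒪 ⧸ mltc_eta π) ∧
    mltc_omegaLen π ↥(B.H Sig) = (d : ℕ∞) * Module.length 𝒪 (𝒪 ⧸ mltc_eta π)

/-- the numerical invariant for every surjective comparison map of level `Σ` -/
def MltcInv (B : MltBase 𝒪) (a : ℕ → 𝒪) (d : ℕ) (Sig : Finset ℕ) [NeZero (B.level Sig)] : Prop :=
  ∀ (θ : CuspForm.heckeAlgebra (B.level Sig) 2 (↑(B.bad Sig) : Set ℕ) →+* ResidueField 𝒪),
    B.IsTheta Sig θ → ∀ (D : DeformationRingData 𝒪 B.ρbar (B.cond Sig))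
      (Hk : CuspForm.HeckeGaloisRepDatum (B.level Sig) (↑(B.bad Sig) : Set ℕ) 𝒪 θ (IhdT 𝒪 θ)),
      Hk.π = ihdPi 𝒪 θ →
    ∀ (φ : D.R →ₐ[𝒪] IhdT 𝒪 θ) (hφ : IsLocalHom (φ : D.R →+* IhdT 𝒪 θ)),
      (D.ρ.baseChangeAlong (φ : D.R →+* IhdT 𝒪 θ) hφ).IsEquiv Hk.ρ → Function.Surjective φ →
      MltcNum B a d Sig θ D φ

/-! ### The base case -/

section Base

variable (B : MltBase 𝒪) (hB : B.Valid) [NeZero (B.level ∅)]

omit [NeZero (B.level ∅)] in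
theorem mltc_isAux_empty : B.IsAux ∅ := fun q hq => absurd hq (Finset.notMem_empty q)

include hB in
/-- **the base case**: `MltRT B ∅` gives the numerical invariant at the minimal level -/
theorem mltc_inv_base (hMin : MltRT B ∅) (a : ℕ → 𝒪) (ha : mltcEig B ∅ a ≠ ⊥) :
    MltcInv B a (Module.finrank 𝒪 (mltcEig B ∅ a)) ∅ := by
  classical
  intro θ hθ D Hk hHk φ hφ hcompat hsurj
  have hSig : B.IsAux ∅ := mltc_isAux_empty B
  obtain ⟨hbij, ⟨r, ψ, f, hψ, hker⟩, act, hact, d₀, hd₀, w, hw⟩ := hMin θ hθ D Hk hHk φ hφ hcompat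
  refine ⟨hbij, ?_⟩
  -- the module structure
  letI instM : Module (IhdT 𝒪 θ) ↥(B.H ∅) := Module.compHom _ (act : IhdT 𝒪 θ →+* Module.End 𝒪 ↥(B.H ∅))
  have hsmul : ∀ (t : IhdT 𝒪 θ) (x : ↥(B.H ∅)), t • x = act t x := fun _ _ => rfl
  haveI instT : IsScalarTower 𝒪 (IhdT 𝒪 θ) ↥(B.H ∅) := ⟨fun o t x => by
    rw [hsmul, hsmul, map_smul, LinearMap.smul_apply]⟩
  have hcompatM : MltcCompat B ∅ θ := fun ℓ hℓ hℓN hℓS x => by
    rw [hsmul]
    exact hact ℓ hℓ hℓN hℓS x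
  -- the point
  obtain ⟨π, hπ⟩ := mltc_exists_point B hB ∅ hSig θ hθ ha
  -- the `T`-basis of `H_∅`
  have hli : LinearIndependent (IhdT 𝒪 θ) w := by
    rw [Fintype.linearIndependent_iff]
    intro c hc
    have h0 : (0 : ↥(B.H ∅)) = ∑ i, act (c i) (w i) := by
      rw [← hc]
      rfl
    have h0' : (0 : ↥(B.H ∅)) = ∑ i, act ((fun _ => (0 : IhdT 𝒪 θ)) i) (w i) := by
      simp
    obtain ⟨c₀, -, huniq⟩ := hw 0
    have h1 := huniq c h0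
    have h2 := huniq (fun _ => 0) h0'
    intro i
    rw [h1, ← h2]
  have hspan : ⊤ ≤ Submodule.span (IhdT 𝒪 θ) (Set.range w) := by
    rintro x -
    obtain ⟨c, hc, -⟩ := hw x
    rw [hc]
    refine Submodule.sum_mem _ fun i _ => ?_
    rw [← hsmul]
    exact Submodule.smul_mem _ _ (Submodule.subset_span ⟨i, rfl⟩)
  let b : Module.Basis (Fin d₀) (IhdT 𝒪 θ) ↥(B.H ∅) := Module.Basis.mk hli hspan
  -- `η ≠ 0`
  have hNS := mltm_hNS B hB ∅ hSig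
  have hη : mltc_eta π ≠ ⊥ := mltm_eta_ne_bot_ihdT θ hNS π
  -- the base contract for `T`
  have hψ' : Function.Surjective (φ.comp ψ) := hbij.2.comp hψ
  have hker' : RingHom.ker (φ.comp ψ) = Ideal.span (Set.range f) := by
    rw [← hker]
    ext z
    rw [RingHom.mem_ker, RingHom.mem_ker]
    constructor
    · intro hz
      exact hbij.1 (by rw [map_zero]; exact hz)
    · intro hz
      show φ (ψ z) = 0
      have : ψ z = 0 := hz
      rw [this, map_zero]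
  obtain ⟨hΦ, hΩ⟩ := mltc_base.{0, 0, 0} 𝒪 r (IhdT 𝒪 θ) (φ.comp ψ) f hψ' hker' π
  have hd : Module.finrank 𝒪 (mltc_torsP π ↥(B.H ∅)) = d₀ := mltc_finrank_torsP_free π hη b
  rw [mltc_torsP_eq_eig B hB ∅ hSig θ a π hπ hcompatM] at hd
  refine ⟨π, instM, instT, hπ, hcompatM, rfl, mltc_length_quot_ne_top hη, ?_, ?_⟩
  · rw [mltc_phiLen_comp_bijective φ hbij π, hΦ]
  · rw [hd]
    exact hΩ ↥(B.H ∅) d₀ ⟨b⟩

end Base

/-! ### The induction step -/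

section Step

variable (B : MltBase 𝒪) (hB : B.Valid) (hp : B.p = 3 ∨ B.p = 5) (hS0 : B.S0 = B.Smin ∪ B.cut)
  (Sig : Finset ℕ) (q : ℕ) (hSig : B.IsAux Sig) (hq : q.Prime) (hqS0 : q ∉ B.S0) (hqSig : q ∉ Sig)
  [NeZero (B.level Sig)] [NeZero (B.level (insert q Sig))]

include hB hp hS0 hSig hq hqS0 hqSig in
/-- **the induction step** -/
theorem mltc_inv_step (a : ℕ → 𝒪) (d : ℕ) (hd0 : 0 < d)
    (hθex : ∃ θ : CuspForm.heckeAlgebra (B.level Sig) 2 (↑(B.bad Sig) : Set ℕ) →+* ResidueField 𝒪,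
      B.IsTheta Sig θ)
    (hDex : Nonempty (DeformationRingData 𝒪 B.ρbar (B.cond Sig)))
    (hCmp : ∀ (θ : CuspForm.heckeAlgebra (B.level Sig) 2 (↑(B.bad Sig) : Set ℕ) →+*
        ResidueField 𝒪), B.IsTheta Sig θ → ∀ D : DeformationRingData 𝒪 B.ρbar (B.cond Sig),
      ∃ (Hk : CuspForm.HeckeGaloisRepDatum (B.level Sig) (↑(B.bad Sig) : Set ℕ) 𝒪 θ (IhdT 𝒪 θ))
        (φ : D.R →ₐ[𝒪] IhdT 𝒪 θ) (hφ : IsLocalHom (φ : D.R →+* IhdT 𝒪 θ)),
        Hk.π = ihdPi 𝒪 θ ∧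
        (D.ρ.baseChangeAlong (φ : D.R →+* IhdT 𝒪 θ) hφ).IsEquiv Hk.ρ ∧ Function.Surjective φ)
    (hAct : MltcActAt 𝒪 B) (hUp : MltcEigUpAt 𝒪 B) (hMult : MltcMultOneAt 𝒪 B)
    (hOmega : MltcOmegaUpAt 𝒪 B) (hInv : MltcInv B a d Sig) :
    MltcInv B a d (insert q Sig) := by
  classical
  intro θ' hθ' D' Hk' hHk' φ' hφ' hcompat' hsurj'
  have hSig' : B.IsAux (insert q Sig) := mltc_isAux_insert B Sig q hSig hq hqS0
  -- the data at level `Σ`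
  obtain ⟨θ, hθ⟩ := hθex
  obtain ⟨D⟩ := hDex
  obtain ⟨Hk, φ, hφ, hHk, hcompat, hsurj⟩ := hCmp θ hθ D
  obtain ⟨hbij, π, instM, instT, hπ, hcompatM, hdX, hE, hΦ, hΩ⟩ :=
    hInv θ hθ D Hk hHk φ hφ hcompat hsurj
  letI := instM
  haveI := instT
  -- the eigenspaces
  have hX : mltcEig B Sig a ≠ ⊥ := by
    intro h0
    rw [h0, finrank_bot] at hdX
    omega
  have h5a := hUp hB hp hS0 Sig q hSig hq hqS0 hqSig a
  have h8 := hMult hB hp hS0 Sig q hSig hq hqS0 hqSig a hX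
  have hdX' : Module.finrank 𝒪 (mltcEig B (insert q Sig) a) = d := by omega
  have hX' : mltcEig B (insert q Sig) a ≠ ⊥ := by
    intro h0
    rw [h0, finrank_bot] at hdX'
    omega
  -- the point and the module structure at level `Σ ∪ {q}`
  obtain ⟨π', hπ'⟩ := mltc_exists_point B hB (insert q Sig) hSig' θ' hθ' hX'
  obtain ⟨act', hact'⟩ := hAct hB hS0 (insert q Sig) hSig' θ' hθ'
  letI instM' : Module (IhdT 𝒪 θ') ↥(B.H (insert q Sig)) :=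
    Module.compHom _ (act' : IhdT 𝒪 θ' →+* Module.End 𝒪 ↥(B.H (insert q Sig)))
  have hsmul : ∀ (t : IhdT 𝒪 θ') (x : ↥(B.H (insert q Sig))), t • x = act' t x := fun _ _ => rfl
  haveI instT' : IsScalarTower 𝒪 (IhdT 𝒪 θ') ↥(B.H (insert q Sig)) := ⟨fun o t x => by
    rw [hsmul, hsmul, map_smul, LinearMap.smul_apply]⟩
  have hcompatM' : MltcCompat B (insert q Sig) θ' := fun ℓ hℓ hℓN hℓS x => by
    rw [hsmul]
    exact hact' ℓ hℓ hℓN hℓS x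
  -- `c_q(a_q) ≠ 0`
  have hqbad : q ∉ B.bad Sig := by
    unfold MltBase.bad
    intro h
    rcases Finset.mem_union.1 h with h1 | h1
    · exact hqS0 h1
    · exact hqSig h1
  have hc : mltcCq q (a q) ≠ 0 := mltc_cq_ne_zero B hB Sig hSig hX hq hqbad
  have hL : Module.length 𝒪 (𝒪 ⧸ Ideal.span {mltcCq q (a q)}) ≠ ⊤ :=
    mltc_length_quot_span_ne_top hc
  -- the growth of `Φ`
  obtain ⟨πR, hπR, hπρ⟩ := mltc_exists_piR B Sig q D D'
  have hgrowΦ := mltc_phiLen_step B hB Sig q hSig hq hqS0 hqSig θ θ' D D' Hk Hk' hHk hHk' φ hφ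
    hcompat φ' hφ' hcompat' a π hπ π' hπ' πR hπR hπρ
  rw [hΦ] at hgrowΦ
  -- the growth of `Ω`
  have hgrowΩ := hOmega hB hp hS0 Sig q hSig hq hqS0 hqSig a θ θ' hθ hθ' π π' hπ hπ' hcompatM
    hcompatM' hX hc (le_of_eq (hdX'.trans hdX.symm))
  rw [hΩ, hdX] at hgrowΩ
  -- the criterion
  have hdP' : Module.finrank 𝒪 (mltc_torsP π' ↥(B.H (insert q Sig))) = d := by
    rw [mltc_torsP_eq_eig B hB (insert q Sig) hSig' θ' a π' hπ' hcompatM']
    exact hdX'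
  obtain ⟨hinj, h1, h2, h3⟩ := mltc_step_abs.{0, 0, 0, 0} φ' π' d hsurj' hd0 hdP'
    (Module.length 𝒪 (𝒪 ⧸ mltc_eta π)) (Module.length 𝒪 (𝒪 ⧸ Ideal.span {mltcCq q (a q)}))
    hE hL hgrowΦ hgrowΩ
  exact ⟨⟨hinj, hsurj'⟩, π', instM', instT', hπ', hcompatM', hdX', h2, h1, h3⟩

end Step

/-! ### The induction -/

section Main

variable (B : MltBase 𝒪) (hB : B.Valid) (hp : B.p = 3 ∨ B.p = 5) (hS0 : B.S0 = B.Smin ∪ B.cut)

theorem mltc_neZero_level {Sig : Finset ℕ} (hN0 : B.N0 ≠ 0) (hSig : B.IsAux Sig) :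
    NeZero (B.level Sig) :=
  ⟨B.level_ne_zero Sig hN0 (fun q hq => (hSig q hq).1)⟩

include hB hp hS0 in
/-- **the induction**: the numerical invariant at the minimal level propagates to every admissible
`Σ` (generic in the way the base case is obtained: `MltRT B ∅`, or a step at `p` from another base
datum) -/
theorem mltc_inv_all (a : ℕ → 𝒪) (d : ℕ) (hd0 : 0 < d)
    (hBase : ∀ [NeZero (B.level ∅)], MltcInv B a d ∅)
    (hRing : ∀ Sig : Finset ℕ, B.IsAux Sig →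
      Nonempty (DeformationRingData 𝒪 B.ρbar (B.cond Sig)))
    (hCmp : ∀ Sig : Finset ℕ, B.IsAux Sig → ∀ [NeZero (B.level Sig)]
      (θ : CuspForm.heckeAlgebra (B.level Sig) 2 (↑(B.bad Sig) : Set ℕ) →+* ResidueField 𝒪),
      B.IsTheta Sig θ → ∀ D : DeformationRingData 𝒪 B.ρbar (B.cond Sig),
      ∃ (Hk : CuspForm.HeckeGaloisRepDatum (B.level Sig) (↑(B.bad Sig) : Set ℕ) 𝒪 θ (IhdT 𝒪 θ))
        (φ : D.R →ₐ[𝒪] IhdT 𝒪 θ) (hφ : IsLocalHom (φ : D.R →+* IhdT 𝒪 θ)),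
        Hk.π = ihdPi 𝒪 θ ∧
        (D.ρ.baseChangeAlong (φ : D.R →+* IhdT 𝒪 θ) hφ).IsEquiv Hk.ρ ∧ Function.Surjective φ)
    (hTheta : MltcThetaAt 𝒪 B)
    (hAct : MltcActAt 𝒪 B) (hUp : MltcEigUpAt 𝒪 B) (hMult : MltcMultOneAt 𝒪 B)
    (hOmega : MltcOmegaUpAt 𝒪 B) :
    ∀ Sig : Finset ℕ, B.IsAux Sig → ∀ [NeZero (B.level Sig)], MltcInv B a d Sig := by
  classical
  have hN0 : B.N0 ≠ 0 := hB.N0_sqfree.ne_zero
  intro Sig
  induction Sig using Finset.induction_on with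
  | empty =>
    intro _ inst
    exact hBase
  | insert q Sig hqSig ih =>
    intro hSig' _
    have hSig : B.IsAux Sig := fun r hr => hSig' r (Finset.mem_insert_of_mem hr)
    haveI := mltc_neZero_level B hN0 hSig
    obtain ⟨hq, hqS0⟩ := hSig' q (Finset.mem_insert_self q Sig)
    exact mltc_inv_step B hB hp hS0 Sig q hSig hq hqS0 hqSig a d hd0 (hTheta Sig hSig)
      (hRing Sig hSig) (fun θ hθ D => hCmp Sig hSig θ hθ D) hAct hUp hMult hOmega (ih hSig)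

include hB hp hS0 in
/-- **`R_Σ ≅ T_Σ` for every admissible `Σ`**: every surjective comparison map is bijective -/
theorem mltc_bij
    (hMin : ∀ [NeZero (B.level ∅)], MltRT B ∅)
    (hRing : ∀ Sig : Finset ℕ, B.IsAux Sig →
      Nonempty (DeformationRingData 𝒪 B.ρbar (B.cond Sig)))
    (hCmp : ∀ Sig : Finset ℕ, B.IsAux Sig → ∀ [NeZero (B.level Sig)]
      (θ : CuspForm.heckeAlgebra (B.level Sig) 2 (↑(B.bad Sig) : Set ℕ) →+* ResidueField 𝒪),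
      B.IsTheta Sig θ → ∀ D : DeformationRingData 𝒪 B.ρbar (B.cond Sig),
      ∃ (Hk : CuspForm.HeckeGaloisRepDatum (B.level Sig) (↑(B.bad Sig) : Set ℕ) 𝒪 θ (IhdT 𝒪 θ))
        (φ : D.R →ₐ[𝒪] IhdT 𝒪 θ) (hφ : IsLocalHom (φ : D.R →+* IhdT 𝒪 θ)),
        Hk.π = ihdPi 𝒪 θ ∧
        (D.ρ.baseChangeAlong (φ : D.R →+* IhdT 𝒪 θ) hφ).IsEquiv Hk.ρ ∧ Function.Surjective φ)
    (hTheta : MltcThetaAt 𝒪 B) (hEigen : MltcEigenAt 𝒪 B)
    (hAct : MltcActAt 𝒪 B) (hUp : MltcEigUpAt 𝒪 B) (hMult : MltcMultOneAt 𝒪 B)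
    (hOmega : MltcOmegaUpAt 𝒪 B) :
    ∀ Sig : Finset ℕ, B.IsAux Sig → ∀ [NeZero (B.level Sig)]
      (θ : CuspForm.heckeAlgebra (B.level Sig) 2 (↑(B.bad Sig) : Set ℕ) →+* ResidueField 𝒪),
      B.IsTheta Sig θ → ∀ (D : DeformationRingData 𝒪 B.ρbar (B.cond Sig))
        (Hk : CuspForm.HeckeGaloisRepDatum (B.level Sig) (↑(B.bad Sig) : Set ℕ) 𝒪 θ (IhdT 𝒪 θ)),
        Hk.π = ihdPi 𝒪 θ →
      ∀ (φ : D.R →ₐ[𝒪] IhdT 𝒪 θ) (hφ : IsLocalHom (φ : D.R →+* IhdT 𝒪 θ)),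
        (D.ρ.baseChangeAlong (φ : D.R →+* IhdT 𝒪 θ) hφ).IsEquiv Hk.ρ → Function.Surjective φ →
        Function.Bijective φ := by
  classical
  have hN0 : B.N0 ≠ 0 := hB.N0_sqfree.ne_zero
  haveI inst0 : NeZero (B.level ∅) := mltc_neZero_level B hN0 (mltc_isAux_empty B)
  obtain ⟨a, ha⟩ := hEigen
  have hd0 : 0 < Module.finrank 𝒪 (mltcEig B ∅ a) := by
    have hnt : Nontrivial ↥(mltcEig B ∅ a) := Submodule.nontrivial_iff_ne_bot.2 ha
    exact Module.finrank_pos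
  have hBase : ∀ [NeZero (B.level ∅)], MltcInv B a (Module.finrank 𝒪 (mltcEig B ∅ a)) ∅ := by
    intro inst
    have hinst : inst = inst0 := Subsingleton.elim _ _
    subst hinst
    exact mltc_inv_base B hB hMin a ha
  have key := mltc_inv_all B hB hp hS0 a _ hd0 hBase hRing hCmp hTheta hAct hUp hMult hOmega
  intro Sig hSig _ θ hθ D Hk hHk φ hφ hcompat hsurj
  exact (key Sig hSig θ hθ D Hk hHk φ hφ hcompat hsurj).1

end Main

end Fermat.Agent.MLT
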