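/-
MLT stream Crit/StepP (helper6): **the step at `p`**: from the numerical invariant of the FLAT problem
at the level `N0` prime to `p` to the numerical invariant of the ORDINARY problem at the level
`N0 p`, both at `Σ = ∅`.

* `mltc_flat_frob`   : at the flat level, the specialisation `ρ_x` of the universal flat deformation at
  the point `x = π ∘ φ` is ordinary; a place `P ∣ p`, an ordinary line, a Frobenius element and its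
  eigenvalue `z` on the unramified quotient, with `z · T_p = z² + p` on `X^fl(a)` (from (D-fl)),
  `z² ≠ 1` (from (7)) and no `p`-new `a`-eigenclass at the level `N0 p` (from (D-new));
* `mltc_inv_stepP`   : `MltcInv B a d ∅ → MltcInv (B.toOrd lamp) a d ∅` when `lamp` is the unit root
  (`lamp · T_p = lamp² + p` on `X^fl(a)`);
* `mltc_exists_lamp` : such a `lamp` exists.
-/
import Mathlib
import Fermat.Agent.Lib.MLT.Crit.StepPAux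
import Fermat.Agent.Lib.MLT.Crit.StepMain
import Fermat.Agent.Lib.MLT.Crit.StepGen
import Fermat.Agent.Lib.MLT.Crit.RPBetti

set_option autoImplicit false
set_option linter.unusedSectionVars false
set_option linter.unusedVariables false
set_option linter.style.haveILetI false

open IsLocalRing Polynomial Fermat.Agent.TW Fermat.Agent.Ihara GaloisRep

namespace Fermat.Agent.MLT

set_option maxSynthPendingDepth 3

local notation "Qbar" => AlgebraicClosure ℚ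
local notation "GQ" => (AlgebraicClosure ℚ ≃ₐ[ℚ] AlgebraicClosure ℚ)

variable {𝒪 : Type} [CommRing 𝒪] [IsDomain 𝒪] [IsDiscreteValuationRing 𝒪] [CharZero 𝒪]
  [IsAdicComplete (maximalIdeal 𝒪) 𝒪] [Finite (ResidueField 𝒪)]

/-! ### The Frobenius eigenvalue at the flat level -/

section FlatFrob

variable (B : MltBase 𝒪) (hB : B.Valid) (hfl : B.flat = true) [NeZero (B.level ∅)]
  (θ : CuspForm.heckeAlgebra (B.level ∅) 2 (↑(B.bad ∅) : Set ℕ) →+* ResidueField 𝒪)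
  (D : DeformationRingData 𝒪 B.ρbar (B.cond ∅))
  (Hk : CuspForm.HeckeGaloisRepDatum (B.level ∅) (↑(B.bad ∅) : Set ℕ) 𝒪 θ (IhdT 𝒪 θ))
  (hHk : Hk.π = ihdPi 𝒪 θ)
  (φ : D.R →ₐ[𝒪] IhdT 𝒪 θ) (hφ : IsLocalHom (φ : D.R →+* IhdT 𝒪 θ))
  (hcompat : (D.ρ.baseChangeAlong (φ : D.R →+* IhdT 𝒪 θ) hφ).IsEquiv Hk.ρ)
  (a : ℕ → 𝒪) (π : IhdT 𝒪 θ →ₐ[𝒪] 𝒪) (hπa : MltcPoint B ∅ θ a π)

/-- the data at the place `p` of the specialisation `ρ_x`, `x = π ∘ φ`, of the universal flat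
deformation -/
structure MltcFlatFrob (z : 𝒪) : Prop where
  unit : IsUnit z
  ne_one : z ^ 2 - 1 ≠ 0
  hT : ∀ x ∈ mltcEig B ∅ a, z • ih4Op 𝒪 (B.level ∅) B.p (x : Ih4H 𝒪 𝒪 (B.level ∅))
    = (z ^ 2 + (B.p : 𝒪)) • (x : Ih4H 𝒪 𝒪 (B.level ∅))
  line : ∃ (hx : IsLocalHom ((π.comp φ : D.R →ₐ[𝒪] 𝒪) : D.R →+* 𝒪))
    (P : ValuationSubring Qbar) (_ : P.LiesOverPrime B.p)
    (L : Submodule 𝒪 (D.ρ.baseChangeAlong ((π.comp φ : D.R →ₐ[𝒪] 𝒪) : D.R →+* 𝒪) hx).V)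
    (σ : GQ), P.IsFrobeniusAt σ B.p ∧
      MltcOrdLine (D.ρ.baseChangeAlong ((π.comp φ : D.R →ₐ[𝒪] 𝒪) : D.R →+* 𝒪) hx) P L ∧
      MltcFrobOn (D.ρ.baseChangeAlong ((π.comp φ : D.R →ₐ[𝒪] 𝒪) : D.R →+* 𝒪) hx) L σ z
  new : ∀ [NeZero B.N0] [Fact B.p.Prime] (h : ¬ B.p ∣ B.N0) (c : Ih4H 𝒪 𝒪 (B.N0 * B.p)),
    (∀ ℓ : ℕ, ℓ.Prime → ℓ ∉ B.S0 → ih4Op 𝒪 (B.N0 * B.p) ℓ c = a ℓ • c) →
    c ∈ ih4K (ih4Cor B.N0 B.p h 𝒪 𝒪) (ih4W B.N0 B.p h 𝒪 𝒪) → c = 0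

include hB hfl hHk hcompat hπa in
/-- **the Frobenius eigenvalue at the flat level**, from (D-fl), (D-new), (G1a) and (7) -/
theorem mltc_flat_frob (hDfl : MltcFrobFlContract) (hDnew : MltcFrobNewContract)
    (hbar : ∀ lamp : 𝒪, (B.toOrd lamp).cond ∅ (GaloisRepAdic.ofResidualGaloisRep B.ρbar))
    (hFO : MltcFlatOrdAt 𝒪 B) (hX : mltcEig B ∅ a ≠ ⊥) :
    ∃ z : 𝒪, MltcFlatFrob B θ D φ a π z := by
  classical
  have hpp := hB.prime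
  haveI : Fact B.p.Prime := ⟨hpp⟩
  have hSig : B.IsAux ∅ := fun q hq => absurd hq (Finset.notMem_empty q)
  have hpN0 : ¬ B.p ∣ B.N0 := mltc_not_dvd_N0 B hB hfl
  have hpN : ¬ B.p ∣ B.level ∅ := by
    rw [B.level_empty]
    exact hpN0
  have hpS : B.p ∈ B.bad ∅ := by
    rw [B.bad_empty]
    exact hB.Smin_sub hB.p_mem_Smin
  have hNS := mltc_hNS B hB ∅ hSig
  -- the specialisation
  set x : D.R →ₐ[𝒪] 𝒪 := π.comp φ with hxdef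
  have hx : IsLocalHom (x : D.R →+* 𝒪) := mltc_isLocalHom_point_gen D x
  set ρx := D.ρ.baseChangeAlong (x : D.R →+* 𝒪) hx with hρx
  have hcondD : (B.toOrd 1).cond ∅ D.ρ := hFO hB hfl 1 (hbar 1) D
  have hcondx : (B.toOrd 1).cond ∅ ρx :=
    mltc_cond_bc (B.toOrd 1) ∅ x hx (fun o => ⟨algebraMap 𝒪 D.R o, by simp⟩) D.ρ hcondD
  have hord : ρx.IsOrdinaryAt B.p := hcondx.1.2.1
  have hres : ρx.residual.IsEquiv
      (B.ρbar.baseChangeAlong (ResidueField.map (algebraMap 𝒪 𝒪))) := mlto_residual_bc D x hx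
  have hfrob : ∀ ℓ : ℕ, ℓ.Prime → ℓ ∉ B.bad ∅ → ∀ P : ValuationSubring Qbar, P.LiesOverPrime ℓ →
      ∀ σ : GQ, P.IsFrobeniusAt σ ℓ →
        LinearMap.charpoly (ρx.ρ σ) = X ^ 2 - C (a ℓ) * X + C ((ℓ : 𝒪)) :=
    mltc_frob_point_gen hNS θ D Hk hHk φ hφ hcompat a π hπa hx
  -- the place, the line, the Frobenius element
  obtain ⟨P, σ, hP, hσ⟩ := Fermat.Agent.Lib.Helper6.exists_frobenius B.p hpp
  obtain ⟨L, hL⟩ := hord P hP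
  have hσD : σ ∈ P.decompositionSubgroup ℚ := hσ.mem_decompositionSubgroup
  obtain ⟨z, hz⟩ := mltc_exists_frobOn ρx hL hσD
  have hzU : IsUnit z := mltc_frobOn_isUnit ρx hL hσD hz
  -- (D-fl)
  have hT : ∀ y ∈ mltcEig B ∅ a, z • ih4Op 𝒪 (B.level ∅) B.p (y : Ih4H 𝒪 𝒪 (B.level ∅))
      = (z ^ 2 + (B.p : 𝒪)) • (y : Ih4H 𝒪 𝒪 (B.level ∅)) := by
    intro y hy
    exact hDfl 𝒪 B.p hpp hB.odd hB.mem (B.level ∅) hpN (B.bad ∅) hpS hNS B.ρbar hB.absIrr a ρx hres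
      hcondx.1.1 hfrob P hP L hL σ hσ z hz (y : Ih4H 𝒪 𝒪 (B.level ∅)) (fun ℓ hℓ hℓS => hy ℓ hℓ hℓS)
  -- (7): `z² ≠ 1`
  obtain ⟨y, hy0, hy⟩ := mltc_exists_mem_eig B ∅ hX
  have hyv0 : (y : Ih4H 𝒪 𝒪 (B.level ∅)) ≠ 0 := fun h0 => hy0 (Subtype.ext h0)
  have hne : z ^ 2 - 1 ≠ 0 := by
    intro h1
    have hz2 : z ^ 2 = 1 := sub_eq_zero.mp h1
    have hTy : ih4Op 𝒪 (B.level ∅) B.p (y : Ih4H 𝒪 𝒪 (B.level ∅))
        = (z * (1 + (B.p : 𝒪))) • (y : Ih4H 𝒪 𝒪 (B.level ∅)) := by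
      have h2 := hT y (by
        rw [mem_mltcEig]
        exact hy)
      have h3 : z • (z • ih4Op 𝒪 (B.level ∅) B.p (y : Ih4H 𝒪 𝒪 (B.level ∅)))
          = z • ((z ^ 2 + (B.p : 𝒪)) • (y : Ih4H 𝒪 𝒪 (B.level ∅))) := by rw [h2]
      rw [smul_smul, smul_smul, ← pow_two, hz2, one_smul] at h3
      rw [h3]
    have h7 := mltc_rp_betti_cq 𝒪 (B.level ∅) hpp hpN (z * (1 + (B.p : 𝒪)))
      (y : Ih4H 𝒪 𝒪 (B.level ∅)) hyv0 hTy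
    apply h7
    have : ((B.p : 𝒪) + 1) ^ 2 - (z * (1 + (B.p : 𝒪))) ^ 2 = (1 - z ^ 2) * ((B.p : 𝒪) + 1) ^ 2 := by
      ring
    rw [this, hz2, sub_self, zero_mul, mul_zero]
  refine ⟨z, ⟨hzU, hne, hT, ⟨hx, P, hP, L, σ, hσ, hL, hz⟩, ?_⟩⟩
  -- (D-new)
  intro _ _ h c hc hcK
  by_contra hc0
  apply hne
  have hS' : ∀ r : ℕ, r.Prime → r ∣ B.N0 → r ∈ B.bad ∅ := by
    intro r hr hd
    rw [B.bad_empty]
    exact hB.N0_sub r hr hd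
  have hfrob' : ∀ ℓ : ℕ, ℓ.Prime → ℓ ∉ B.bad ∅ → ∀ P : ValuationSubring Qbar, P.LiesOverPrime ℓ →
      ∀ σ : GQ, P.IsFrobeniusAt σ ℓ →
        LinearMap.charpoly (ρx.ρ σ) = X ^ 2 - C (a ℓ) * X + C ((ℓ : 𝒪)) := hfrob
  have h2 := hDnew 𝒪 B.p hB.odd hB.mem B.N0 h (B.bad ∅) hpS hS' B.ρbar hB.absIrr a ρx hres
    hcondx.1.1 hfrob' P hP L hL σ hσ z hz c hc0 (fun ℓ hℓ hℓS => hc ℓ hℓ (by rwa [B.bad_empty] at hℓS)) hcK
  rw [h2, sub_self]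

end FlatFrob

/-! ### The step at `p` -/

section StepP

variable (B : MltBase 𝒪) (lamp : 𝒪) (hB : B.Valid) (hB' : (B.toOrd lamp).Valid)
  (hfl : B.flat = true) (hp : B.p = 3 ∨ B.p = 5) (hS0 : B.S0 = B.Smin ∪ B.cut)
  [NeZero (B.level ∅)] [NeZero ((B.toOrd lamp).level ∅)]

include hB hB' hfl hp hS0 in
/-- **the step at `p`**: the numerical invariant passes from the flat problem at the level `N0` to
the ordinary problem at the level `N0 p`, when `lamp` is the unit root of `X² - T_p X + p` on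
`X^fl(a)` -/
theorem mltc_inv_stepP (a : ℕ → 𝒪) (d : ℕ) (hd0 : 0 < d)
    (hlampU : IsUnit lamp)
    (hlamp : ∀ x ∈ mltcEig B ∅ a, lamp • ih4Op 𝒪 (B.level ∅) B.p (x : Ih4H 𝒪 𝒪 (B.level ∅))
      = (lamp ^ 2 + (B.p : 𝒪)) • (x : Ih4H 𝒪 𝒪 (B.level ∅)))
    (hθex : ∃ θ : CuspForm.heckeAlgebra (B.level ∅) 2 (↑(B.bad ∅) : Set ℕ) →+* ResidueField 𝒪,
      B.IsTheta ∅ θ)
    (hDex : Nonempty (DeformationRingData 𝒪 B.ρbar (B.cond ∅)))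
    (hCmp : ∀ (θ : CuspForm.heckeAlgebra (B.level ∅) 2 (↑(B.bad ∅) : Set ℕ) →+*
        ResidueField 𝒪), B.IsTheta ∅ θ → ∀ D : DeformationRingData 𝒪 B.ρbar (B.cond ∅),
      ∃ (Hk : CuspForm.HeckeGaloisRepDatum (B.level ∅) (↑(B.bad ∅) : Set ℕ) 𝒪 θ (IhdT 𝒪 θ))
        (φ : D.R →ₐ[𝒪] IhdT 𝒪 θ) (hφ : IsLocalHom (φ : D.R →+* IhdT 𝒪 θ)),
        Hk.π = ihdPi 𝒪 θ ∧
        (D.ρ.baseChangeAlong (φ : D.R →+* IhdT 𝒪 θ) hφ).IsEquiv Hk.ρ ∧ Function.Surjective φ)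
    (hAct' : MltcActAt 𝒪 (B.toOrd lamp))
    (hDfl : MltcFrobFlContract) (hDnew : MltcFrobNewContract)
    (hFO : MltcFlatOrdAt 𝒪 B) (hPhi : MltcPhiPAt 𝒪 B lamp) (hEig : MltcEigPAt 𝒪 B lamp)
    (hOmega : MltcOmegaPAt 𝒪 B lamp)
    (hbar : ∀ lamp' : 𝒪, (B.toOrd lamp').cond ∅ (GaloisRepAdic.ofResidualGaloisRep B.ρbar))
    (hInv : MltcInv B a d ∅) :
    MltcInv (B.toOrd lamp) a d ∅ := by
  classical
  intro θ' hθ' D' Hk' hHk' φ' hφ' hcompat' hsurj'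
  have hpp := hB.prime
  haveI : Fact B.p.Prime := ⟨hpp⟩
  have hpN0 : ¬ B.p ∣ B.N0 := mltc_not_dvd_N0 B hB hfl
  have hN0 : B.N0 ≠ 0 := hB.N0_sqfree.ne_zero
  haveI : NeZero B.N0 := ⟨hN0⟩
  have hSig : B.IsAux ∅ := mltc_isAux_empty B
  have hSig' : (B.toOrd lamp).IsAux ∅ := mltc_isAux_empty _
  have hS0' := mltc_toOrd_S0 B lamp hB hS0
  have hpnu : ¬ IsUnit (B.p : 𝒪) := fun h => (mem_maximalIdeal _).1 hB.mem h
  -- the data at the flat level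
  obtain ⟨θ, hθ⟩ := hθex
  obtain ⟨D⟩ := hDex
  obtain ⟨Hk, φ, hφ, hHk, hcompat, hsurj⟩ := hCmp θ hθ D
  obtain ⟨hbij, π, instM, instT, hπ, hcompatM, hdX, hE, hΦ, hΩ⟩ :=
    hInv θ hθ D Hk hHk φ hφ hcompat hsurj
  letI := instM
  haveI := instT
  have hX : mltcEig B ∅ a ≠ ⊥ := by
    intro h0
    rw [h0, finrank_bot] at hdX
    omega
  -- the Frobenius eigenvalue is `lamp`
  obtain ⟨z, hzU, hzne, hzT, ⟨hx, P, hP, L, σ, hσ, hL, hzL⟩, hznew⟩ :=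
    mltc_flat_frob B hB hfl θ D Hk hHk φ hφ hcompat a π hπ hDfl hDnew hbar hFO hX
  obtain ⟨y, hy0, hy⟩ := mltc_exists_mem_eig B ∅ hX
  have hyv0 : (y : Ih4H 𝒪 𝒪 (B.level ∅)) ≠ 0 := fun h0 => hy0 (Subtype.ext h0)
  have hymem : y ∈ mltcEig B ∅ a := by
    rw [mem_mltcEig]
    exact hy
  haveI := Fermat.Agent.T1.tdm_isTorsionFree_homG (G := CongruenceSubgroup.Gamma0 (B.level ∅)) 𝒪
  haveI : Module.IsTorsionFree 𝒪 (Ih4H 𝒪 𝒪 (B.level ∅)) := inferInstance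
  have hzl : z = lamp := mltc_frobOn_eq hpnu hzU hlampU hyv0 (hzT y hymem) (hlamp y hymem)
  subst hzl
  have hzm : z - z ∈ maximalIdeal 𝒪 := by
    rw [sub_self]
    exact Submodule.zero_mem _
  -- the eigenspaces
  obtain ⟨hU, hrk⟩ := hEig hB hzU hfl hpN0 a z hzU hzm hzne hX hzT
    (fun c hc hcK => hznew hpN0 c hc hcK)
  have hdX' : Module.finrank 𝒪 (mltcEig (B.toOrd z) ∅ a) = d := hrk.trans hdX
  have hX' : mltcEig (B.toOrd z) ∅ a ≠ ⊥ := by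
    intro h0
    rw [h0, finrank_bot] at hdX'
    omega
  -- the point and the module structure at the ordinary level
  obtain ⟨π', hπ'⟩ := mltc_exists_point (B.toOrd z) hB' ∅ hSig' θ' hθ' hX'
  obtain ⟨act', hact'⟩ := hAct' hB' hS0' ∅ hSig' θ' hθ'
  letI instM' : Module (IhdT 𝒪 θ') ↥((B.toOrd z).H ∅) :=
    Module.compHom _ (act' : IhdT 𝒪 θ' →+* Module.End 𝒪 ↥((B.toOrd z).H ∅))
  have hsmul : ∀ (t : IhdT 𝒪 θ') (x : ↥((B.toOrd z).H ∅)), t • x = act' t x := fun _ _ => rfl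
  haveI instT' : IsScalarTower 𝒪 (IhdT 𝒪 θ') ↥((B.toOrd z).H ∅) := ⟨fun o t x => by
    rw [hsmul, hsmul, map_smul, LinearMap.smul_apply]⟩
  have hcompatM' : MltcCompat (B.toOrd z) ∅ θ' := fun ℓ hℓ hℓN hℓS x => by
    rw [hsmul]
    exact hact' ℓ hℓ hℓN hℓS x
  -- the canonical map `R^ord → R^fl`
  have hcondD : (B.toOrd z).cond ∅ D.ρ := hFO hB hfl z (hbar z) D
  obtain ⟨πR, ⟨hπR, hπρ⟩, -⟩ := D'.universal D.R D.residue_surjective D.ρ hcondD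
    D.residual_isEquiv
  -- rigidity
  have hNS := mltc_hNS B hB ∅ hSig
  have hNS' := mltc_hNS (B.toOrd z) hB' ∅ hSig'
  have hrig : π'.comp φ' = (π.comp φ).comp πR :=
    mltc_rigid_gen (𝒟 := B.cond ∅) (𝒟' := (B.toOrd z).cond ∅)
      (fun A A' _ _ _ _ _ _ ψ hψ hs ρ h => mltc_cond_bc (B.toOrd z) ∅ ψ hψ hs ρ h)
      (Finset.Subset.refl (B.bad ∅)) hNS hNS' θ θ' D D' Hk Hk' hHk hHk' φ hφ hcompat φ' hφ'
      hcompat' a π hπ π' hπ' πR hπR hπρ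
  -- the growth of `Φ`
  have hx' : IsLocalHom (((π.comp φ).comp πR : D'.R →ₐ[𝒪] 𝒪) : D'.R →+* 𝒪) :=
    mltc_isLocalHom_point_gen D' _
  have e2 : (D'.ρ.baseChangeAlong (((π.comp φ).comp πR : D'.R →ₐ[𝒪] 𝒪) : D'.R →+* 𝒪) hx').IsEquiv
      (D.ρ.baseChangeAlong ((π.comp φ : D.R →ₐ[𝒪] 𝒪) : D.R →+* 𝒪) hx) := by
    have h2 := mlto_bc_comp (πR : D'.R →+* D.R) hπR
      ((π.comp φ : D.R →ₐ[𝒪] 𝒪) : D.R →+* 𝒪) hx hx' D'.ρ
    exact mlto_isEquiv_trans (mlto_isEquiv_symm h2) (mlto_isEquiv_bc hπρ _ hx)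
  obtain ⟨e⟩ := e2
  obtain ⟨hsurjR, hgrowΦ⟩ := hPhi hB hB' hfl D D' πR hπR hπρ (π.comp φ) hx' P hP _
    (MltcOrdLine.of_equiv e hL) σ hσ z (MltcFrobOn.of_equiv e hzL) hzne
  rw [hΦ] at hgrowΦ
  rw [← hrig] at hgrowΦ
  -- the growth of `Ω`
  have hgrowΩ := hOmega hB hB' hfl a θ θ' hθ hθ' π π' hπ hπ' hcompatM hcompatM' z hzU hzm hzne hX
    hzT (le_of_eq hrk)
  rw [hΩ, hdX] at hgrowΩ
  -- the criterion
  have hL' : Module.length 𝒪 (𝒪 ⧸ Ideal.span {z ^ 2 - 1}) ≠ ⊤ :=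
    mltc_length_quot_span_ne_top hzne
  have hdP' : Module.finrank 𝒪 (mltc_torsP π' ↥((B.toOrd z).H ∅)) = d := by
    rw [mltc_torsP_eq_eig (B.toOrd z) hB' ∅ hSig' θ' a π' hπ' hcompatM']
    exact hdX'
  obtain ⟨hinj, h1, h2, h3⟩ := mltc_step_abs.{0, 0, 0, 0} φ' π' d hsurj' hd0 hdP'
    (Module.length 𝒪 (𝒪 ⧸ mltc_eta π)) (Module.length 𝒪 (𝒪 ⧸ Ideal.span {z ^ 2 - 1}))
    hE hL' hgrowΦ hgrowΩ
  exact ⟨⟨hinj, hsurj'⟩, π', instM', instT', hπ', hcompatM', hdX', h2, h1, h3⟩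

end StepP

/-! ### The choice of `lamp` and the ordinary problem at every `Σ` -/

section Main

variable (B : MltBase 𝒪) (hB : B.Valid) (hfl : B.flat = true) (hp : B.p = 3 ∨ B.p = 5)
  (hS0 : B.S0 = B.Smin ∪ B.cut)

/-- a non-zero eigenspace forces `H_∅ ≠ 0` -/
theorem mltc_H_ne_bot_of_eig (B' : MltBase 𝒪) [NeZero (B'.level ∅)] {a : ℕ → 𝒪}
    (h : mltcEig B' ∅ a ≠ ⊥) : B'.H ∅ ≠ ⊥ := by
  intro h0
  apply h
  rw [Submodule.eq_bot_iff]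
  intro x _
  apply Subtype.ext
  have hx : (x : Ih4H 𝒪 𝒪 (B'.level ∅)) ∈ B'.H ∅ := x.2
  have hx' : (x : Ih4H 𝒪 𝒪 (B'.level ∅)) ∈ (⊥ : Submodule 𝒪 (Ih4H 𝒪 𝒪 (B'.level ∅))) := h0 ▸ hx
  exact (Submodule.mem_bot 𝒪).1 hx'

include hB hfl hp hS0 in
/-- **the numerical invariant of the ordinary problem at `Σ = ∅`**, for a given eigensystem `a` of the
minimal flat level: there is a unit `lamp` (the unit
root of `X² - T_p X + p` on the eigenspace of the minimal flat level) such that the ordinary datum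
`B.toOrd lamp` is valid and carries the numerical invariant at `Σ = ∅` -/
theorem mltc_inv_toOrd_eig
    (hMin : ∀ [NeZero (B.level ∅)], MltRT B ∅)
    (hRing : Nonempty (DeformationRingData 𝒪 B.ρbar (B.cond ∅)))
    (hCmp : ∀ [NeZero (B.level ∅)]
      (θ : CuspForm.heckeAlgebra (B.level ∅) 2 (↑(B.bad ∅) : Set ℕ) →+* ResidueField 𝒪),
      B.IsTheta ∅ θ → ∀ D : DeformationRingData 𝒪 B.ρbar (B.cond ∅),
      ∃ (Hk : CuspForm.HeckeGaloisRepDatum (B.level ∅) (↑(B.bad ∅) : Set ℕ) 𝒪 θ (IhdT 𝒪 θ))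
        (φ : D.R →ₐ[𝒪] IhdT 𝒪 θ) (hφ : IsLocalHom (φ : D.R →+* IhdT 𝒪 θ)),
        Hk.π = ihdPi 𝒪 θ ∧
        (D.ρ.baseChangeAlong (φ : D.R →+* IhdT 𝒪 θ) hφ).IsEquiv Hk.ρ ∧ Function.Surjective φ)
    (hTheta : ∀ [NeZero (B.level ∅)],
      ∃ θ : CuspForm.heckeAlgebra (B.level ∅) 2 (↑(B.bad ∅) : Set ℕ) →+* ResidueField 𝒪,
        B.IsTheta ∅ θ)
    (a : ℕ → 𝒪) (ha0 : ∀ [NeZero (B.level ∅)], mltcEig B ∅ a ≠ ⊥)
    (hbar : ∀ lamp : 𝒪, (B.toOrd lamp).cond ∅ (GaloisRepAdic.ofResidualGaloisRep B.ρbar))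
    (hDfl : MltcFrobFlContract) (hDnew : MltcFrobNewContract) (hFO : MltcFlatOrdAt 𝒪 B)
    (hPhi : ∀ lamp : 𝒪, MltcPhiPAt 𝒪 B lamp) (hEig : ∀ lamp : 𝒪, MltcEigPAt 𝒪 B lamp)
    (hOmega : ∀ lamp : 𝒪, MltcOmegaPAt 𝒪 B lamp)
    (hAct' : ∀ lamp : 𝒪, MltcActAt 𝒪 (B.toOrd lamp)) :
    ∃ lamp : 𝒪, (B.toOrd lamp).Valid ∧
      (∀ [NeZero ((B.toOrd lamp).level ∅)], mltcEig (B.toOrd lamp) ∅ a ≠ ⊥) ∧ ∃ d : ℕ, 0 < d ∧
      ∀ [NeZero ((B.toOrd lamp).level ∅)], MltcInv (B.toOrd lamp) a d ∅ := by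
  classical
  have hN0 : B.N0 ≠ 0 := hB.N0_sqfree.ne_zero
  haveI inst0 : NeZero (B.level ∅) := mltc_neZero_level B hN0 (mltc_isAux_empty B)
  haveI : Fact B.p.Prime := ⟨hB.prime⟩
  haveI : NeZero B.N0 := ⟨hN0⟩
  have hpN0 : ¬ B.p ∣ B.N0 := mltc_not_dvd_N0 B hB hfl
  -- the eigensystem and the invariant at the flat level
  have ha : mltcEig B ∅ a ≠ ⊥ := ha0
  have hd0 : 0 < Module.finrank 𝒪 (mltcEig B ∅ a) := by
    have hnt : Nontrivial ↥(mltcEig B ∅ a) := Submodule.nontrivial_iff_ne_bot.2 ha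
    exact Module.finrank_pos
  have hInv : MltcInv B a (Module.finrank 𝒪 (mltcEig B ∅ a)) ∅ := mltc_inv_base B hB hMin a ha
  -- the Frobenius eigenvalue
  obtain ⟨θ, hθ⟩ := hTheta
  obtain ⟨D⟩ := hRing
  obtain ⟨Hk, φ, hφ, hHk, hcompat, hsurj⟩ := hCmp θ hθ D
  obtain ⟨hbij, π, instM, instT, hπ, hcompatM, hdX, hE, hΦ, hΩ⟩ :=
    hInv θ hθ D Hk hHk φ hφ hcompat hsurj
  obtain ⟨z, hzU, hzne, hzT, hline, hznew⟩ :=
    mltc_flat_frob B hB hfl θ D Hk hHk φ hφ hcompat a π hπ hDfl hDnew hbar hFO ha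
  have hzm : z - z ∈ maximalIdeal 𝒪 := by
    rw [sub_self]
    exact Submodule.zero_mem _
  -- the ordinary datum is valid
  have hN0' : (B.toOrd z).N0 ≠ 0 := Nat.mul_ne_zero hN0 hB.prime.ne_zero
  haveI inst0' : NeZero ((B.toOrd z).level ∅) :=
    mltc_neZero_level (B.toOrd z) hN0' (mltc_isAux_empty _)
  obtain ⟨hU, hrk⟩ := hEig z hB hzU hfl hpN0 a z hzU hzm hzne ha hzT
    (fun c hc hcK => hznew hpN0 c hc hcK)
  have hX' : mltcEig (B.toOrd z) ∅ a ≠ ⊥ := by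
    intro h0
    rw [h0, finrank_bot] at hrk
    omega
  have hB' : (B.toOrd z).Valid := by
    refine mltc_toOrd_valid B z hB hfl hzU (hbar z) ?_
    intro inst
    have hinst : inst = inst0' := Subsingleton.elim _ _
    subst hinst
    exact mltc_H_ne_bot_of_eig (B.toOrd z) hX'
  refine ⟨z, hB', ?_, Module.finrank 𝒪 (mltcEig B ∅ a), hd0, ?_⟩
  · intro inst
    have hinst : inst = inst0' := Subsingleton.elim _ _
    subst hinst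
    exact hX'
  intro inst
  have hinst : inst = inst0' := Subsingleton.elim _ _
  subst hinst
  exact mltc_inv_stepP B z hB hB' hfl hp hS0 a _ hd0 hzU hzT ⟨θ, hθ⟩ ⟨D⟩
    (fun θ hθ D => hCmp θ hθ D) (hAct' z) hDfl hDnew hFO (hPhi z) (hEig z) (hOmega z) hbar hInv

include hB hfl hp hS0 in
/-- the same with the eigensystem chosen by `MltcEigenAt` -/
theorem mltc_inv_toOrd
    (hMin : ∀ [NeZero (B.level ∅)], MltRT B ∅)
    (hRing : Nonempty (DeformationRingData 𝒪 B.ρbar (B.cond ∅)))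
    (hCmp : ∀ [NeZero (B.level ∅)]
      (θ : CuspForm.heckeAlgebra (B.level ∅) 2 (↑(B.bad ∅) : Set ℕ) →+* ResidueField 𝒪),
      B.IsTheta ∅ θ → ∀ D : DeformationRingData 𝒪 B.ρbar (B.cond ∅),
      ∃ (Hk : CuspForm.HeckeGaloisRepDatum (B.level ∅) (↑(B.bad ∅) : Set ℕ) 𝒪 θ (IhdT 𝒪 θ))
        (φ : D.R →ₐ[𝒪] IhdT 𝒪 θ) (hφ : IsLocalHom (φ : D.R →+* IhdT 𝒪 θ)),
        Hk.π = ihdPi 𝒪 θ ∧
        (D.ρ.baseChangeAlong (φ : D.R →+* IhdT 𝒪 θ) hφ).IsEquiv Hk.ρ ∧ Function.Surjective φ)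
    (hTheta : ∀ [NeZero (B.level ∅)],
      ∃ θ : CuspForm.heckeAlgebra (B.level ∅) 2 (↑(B.bad ∅) : Set ℕ) →+* ResidueField 𝒪,
        B.IsTheta ∅ θ)
    (hEigen : MltcEigenAt 𝒪 B)
    (hbar : ∀ lamp : 𝒪, (B.toOrd lamp).cond ∅ (GaloisRepAdic.ofResidualGaloisRep B.ρbar))
    (hDfl : MltcFrobFlContract) (hDnew : MltcFrobNewContract) (hFO : MltcFlatOrdAt 𝒪 B)
    (hPhi : ∀ lamp : 𝒪, MltcPhiPAt 𝒪 B lamp) (hEig : ∀ lamp : 𝒪, MltcEigPAt 𝒪 B lamp)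
    (hOmega : ∀ lamp : 𝒪, MltcOmegaPAt 𝒪 B lamp)
    (hAct' : ∀ lamp : 𝒪, MltcActAt 𝒪 (B.toOrd lamp)) :
    ∃ lamp : 𝒪, (B.toOrd lamp).Valid ∧ ∃ (a : ℕ → 𝒪) (d : ℕ), 0 < d ∧
      ∀ [NeZero ((B.toOrd lamp).level ∅)], MltcInv (B.toOrd lamp) a d ∅ := by
  have hN0 : B.N0 ≠ 0 := hB.N0_sqfree.ne_zero
  haveI inst0 : NeZero (B.level ∅) := mltc_neZero_level B hN0 (mltc_isAux_empty B)
  obtain ⟨a, ha⟩ := hEigen
  have ha0 : ∀ [NeZero (B.level ∅)], mltcEig B ∅ a ≠ ⊥ := by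
    intro inst
    have hinst : inst = inst0 := Subsingleton.elim _ _
    subst hinst
    exact ha
  obtain ⟨lamp, hB', -, d, hd0, hInv⟩ := mltc_inv_toOrd_eig B hB hfl hp hS0 hMin hRing hCmp hTheta a
    ha0 hbar hDfl hDnew hFO hPhi hEig hOmega hAct'
  exact ⟨lamp, hB', a, d, hd0, hInv⟩

end Main

end Fermat.Agent.MLT
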