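/-
MLT stream Crit/StepP (helper6): **auxiliary lemmas for the step at `p`**.

* `mltc_not_dvd_N0`      : a valid FLAT base datum has level prime to `p`;
* `mltc_toOrd_S0`        : `S0 = Smin ∪ cut` for the ordinary datum;
* `mltc_toOrd_valid`     : the ordinary datum `B.toOrd lamp` is valid (`lamp` a unit, `ρbar` of ordinary
  type, `H^ord_∅ ≠ 0`);
* `MltcOrdLine.of_equiv`, `MltcFrobOn.of_equiv` : transport of ordinary lines along equivalences;
* `mltc_exists_frobOn`   : the eigenvalue of an element of the decomposition group on `V / L`;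
* `mltc_frobOn_isUnit`   : it is a unit;
* `mltc_frobOn_eq`       : two unit solutions `z`, `z'` of `z T x = (z² + p) x` on a non-zero
  torsion-free vector coincide.
-/
import Mathlib
import Fermat.Agent.Lib.MLT.Contracts.StepP
import Fermat.Agent.Lib.MLT.Crit.StepGal

set_option autoImplicit false
set_option linter.unusedSectionVars false
set_option linter.unusedVariables false
set_option linter.style.haveILetI false

open IsLocalRing Polynomial Fermat.Agent.TW Fermat.Agent.Ihara GaloisRep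

namespace Fermat.Agent.MLT

local notation "Qbar" => AlgebraicClosure ℚ
local notation "GQ" => (AlgebraicClosure ℚ ≃ₐ[ℚ] AlgebraicClosure ℚ)

/-! ### Validity of the ordinary datum -/

section Valid

variable {𝒪 : Type} [CommRing 𝒪] [IsDomain 𝒪] [IsDiscreteValuationRing 𝒪] [CharZero 𝒪]
  [IsAdicComplete (maximalIdeal 𝒪) 𝒪] [Finite (ResidueField 𝒪)]
  (B : MltBase 𝒪) (lamp : 𝒪)

/-- a valid flat base datum has level prime to `p` -/
theorem mltc_not_dvd_N0 (hB : B.Valid) (hfl : B.flat = true) : ¬ B.p ∣ B.N0 := by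
  intro hd
  rcases (hB.N0_dvd_iff B.p hB.prime).1 hd with h | h | h
  · exact h.2 rfl
  · rw [hfl] at h
    exact absurd h.2 (by decide)
  · have := hB.p_mem_cut_iff.1 h
    rw [hfl] at this
    exact absurd this (by decide)

/-- `S0 = Smin ∪ cut` for the ordinary datum -/
theorem mltc_toOrd_S0 (hB : B.Valid) (hS0 : B.S0 = B.Smin ∪ B.cut) :
    (B.toOrd lamp).S0 = (B.toOrd lamp).Smin ∪ (B.toOrd lamp).cut := by
  show B.S0 = B.Smin ∪ insert B.p B.cut
  rw [hS0]
  ext x
  simp only [Finset.mem_union, Finset.mem_insert]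
  constructor
  · rintro (h | h)
    · exact Or.inl h
    · exact Or.inr (Or.inr h)
  · rintro (h | h | h)
    · exact Or.inl h
    · exact Or.inl (h ▸ hB.p_mem_Smin)
    · exact Or.inr h

/-- **the ordinary datum is valid** -/
theorem mltc_toOrd_valid (hB : B.Valid) (hfl : B.flat = true) (hlamp : IsUnit lamp)
    (hbar : (B.toOrd lamp).cond ∅ (GaloisRepAdic.ofResidualGaloisRep B.ρbar))
    (hmod : ∀ [NeZero ((B.toOrd lamp).level ∅)], (B.toOrd lamp).H ∅ ≠ ⊥) :
    (B.toOrd lamp).Valid := by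
  classical
  have hpN0 := mltc_not_dvd_N0 B hB hfl
  have hpp := hB.prime
  refine
    { prime := hB.prime
      odd := hB.odd
      mem := hB.mem
      absIrr := hB.absIrr
      det := hB.det
      split := hB.split
      tw := hB.tw
      p_mem_Smin := hB.p_mem_Smin
      Smin_sub := hB.Smin_sub
      S0_prime := hB.S0_prime
      Smin_iff := hB.Smin_iff
      N0_sqfree := ?_
      N0_dvd_iff := ?_
      N0_sub := ?_
      cut_sub := ?_
      p_mem_cut_iff := ?_
      cut_unit := ?_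
      cut_aux := ?_
      no_torsion := ?_
      frob := hB.frob
      bar := hbar
      modular := hmod }
  · -- squarefree
    show Squarefree (B.N0 * B.p)
    have hcop : Nat.Coprime B.N0 B.p :=
      ((Nat.Prime.coprime_iff_not_dvd hpp).mpr hpN0).symm
    exact (Nat.squarefree_mul hcop).mpr ⟨hB.N0_sqfree, hpp.prime.squarefree⟩
  · -- the primes of the level
    intro q hq
    show q ∣ B.N0 * B.p ↔ ((q ∈ B.Smin ∧ q ≠ B.p) ∨ (q = B.p ∧ false = false) ∨
      q ∈ insert B.p B.cut)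
    rw [Nat.Prime.dvd_mul hq, hB.N0_dvd_iff q hq, hfl, Finset.mem_insert,
      Nat.prime_dvd_prime_iff_eq hq hpp]
    constructor
    · rintro ((h | h | h) | h)
      · exact Or.inl h
      · exact absurd h.2 (by decide)
      · exact Or.inr (Or.inr (Or.inr h))
      · exact Or.inr (Or.inl ⟨h, rfl⟩)
    · rintro (h | h | h | h)
      · exact Or.inl (Or.inl h)
      · exact Or.inr h.1
      · exact Or.inr h
      · exact Or.inl (Or.inr (Or.inr h))
  · -- the primes of the level are bad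
    intro q hq hd
    show q ∈ B.S0
    rcases (Nat.Prime.dvd_mul hq).1 hd with h | h
    · exact hB.N0_sub q hq h
    · rw [(Nat.prime_dvd_prime_iff_eq hq hpp).1 h]
      exact hB.Smin_sub hB.p_mem_Smin
  · intro c hc
    show c.Prime ∧ c ∈ B.S0
    rcases Finset.mem_insert.1 hc with h | h
    · rw [h]
      exact ⟨hpp, hB.Smin_sub hB.p_mem_Smin⟩
    · exact hB.cut_sub c h
  · show B.p ∈ insert B.p B.cut ↔ false = false
    exact ⟨fun _ => rfl, fun _ => Finset.mem_insert_self _ _⟩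
  · intro c hc
    show IsUnit (Function.update B.lam B.p lamp c)
    by_cases hcp : c = B.p
    · rw [hcp, Function.update_self]
      exact hlamp
    · rw [Function.update_of_ne hcp]
      rcases Finset.mem_insert.1 hc with h | h
      · exact absurd h hcp
      · exact hB.cut_unit c h
  · intro c hc hcp
    have hcp' : c ≠ B.p := hcp
    have hc' : c ∈ B.cut := by
      rcases Finset.mem_insert.1 hc with h | h
      · exact absurd h hcp'
      · exact h
    show c ∉ B.Smin ∧ ∃ b : 𝒪, Function.update B.lam B.p lamp c * b = (c : 𝒪) ∧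
      IsUnit (Function.update B.lam B.p lamp c - b) ∧
      IsUnit (Function.update B.lam B.p lamp c - (c : 𝒪) * b) ∧
      IsUnit (b - (c : 𝒪) * Function.update B.lam B.p lamp c) ∧
      ∀ P : ValuationSubring Qbar, P.LiesOverPrime c → ∀ σ : GQ, P.IsFrobeniusAt σ c →
        LinearMap.charpoly (B.ρbar.ρ σ) =
          (X - C (residue 𝒪 (Function.update B.lam B.p lamp c))) * (X - C (residue 𝒪 b))
    rw [Function.update_of_ne hcp']
    exact hB.cut_aux c hc' hcp'
  · intro h3
    obtain ⟨r, hr, hrd, hr3⟩ := hB.no_torsion h3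
    exact ⟨r, hr, Dvd.dvd.mul_right hrd _, hr3⟩

end Valid

/-! ### Ordinary lines -/

section Lines

variable {A : Type} [CommRing A] [IsLocalRing A]

/-- transport of an ordinary line along an equivalence -/
theorem MltcOrdLine.of_equiv {ρ₁ ρ₂ : GaloisRepAdic A} (e : GaloisRepAdic.Equiv ρ₁ ρ₂)
    {P : ValuationSubring Qbar} {L : Submodule A ρ₂.V} (h : MltcOrdLine ρ₂ P L) :
    MltcOrdLine ρ₁ P (L.map (e.toLinearEquiv.symm : ρ₂.V →ₗ[A] ρ₁.V)) := by
  obtain ⟨⟨b, hb⟩, hD, hI⟩ := h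
  have hsymm : ∀ (σ : GQ) (w : ρ₂.V),
      ρ₁.ρ σ (e.toLinearEquiv.symm w) = e.toLinearEquiv.symm (ρ₂.ρ σ w) := by
    intro σ w
    apply e.toLinearEquiv.injective
    rw [e.map_apply, LinearEquiv.apply_symm_apply, LinearEquiv.apply_symm_apply]
  refine ⟨⟨b.map e.toLinearEquiv.symm, ?_⟩, ?_, ?_⟩
  · rw [hb, Submodule.map_span, Set.image_singleton]
    rfl
  · rintro σ hσ v ⟨w, hw, rfl⟩
    refine ⟨ρ₂.ρ σ w, hD σ hσ w hw, ?_⟩
    exact (hsymm σ w).symm
  · intro σ hσ v
    refine ⟨ρ₂.ρ σ (e.toLinearEquiv v) - e.toLinearEquiv v, hI σ hσ _, ?_⟩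
    show e.toLinearEquiv.symm (ρ₂.ρ σ (e.toLinearEquiv v) - e.toLinearEquiv v) = _
    rw [map_sub, ← hsymm, LinearEquiv.symm_apply_apply]

/-- transport of the Frobenius eigenvalue along an equivalence -/
theorem MltcFrobOn.of_equiv {ρ₁ ρ₂ : GaloisRepAdic A} (e : GaloisRepAdic.Equiv ρ₁ ρ₂)
    {L : Submodule A ρ₂.V} {φ : GQ} {z : A} (h : MltcFrobOn ρ₂ L φ z) :
    MltcFrobOn ρ₁ (L.map (e.toLinearEquiv.symm : ρ₂.V →ₗ[A] ρ₁.V)) φ z := by
  intro v
  refine ⟨ρ₂.ρ φ (e.toLinearEquiv v) - z • e.toLinearEquiv v, h _, ?_⟩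
  show e.toLinearEquiv.symm (ρ₂.ρ φ (e.toLinearEquiv v) - z • e.toLinearEquiv v) = _
  have hsymm : ρ₁.ρ φ (e.toLinearEquiv.symm (e.toLinearEquiv v))
      = e.toLinearEquiv.symm (ρ₂.ρ φ (e.toLinearEquiv v)) := by
    apply e.toLinearEquiv.injective
    rw [e.map_apply, LinearEquiv.apply_symm_apply, LinearEquiv.apply_symm_apply]
  rw [map_sub, ← hsymm, map_smul, LinearEquiv.symm_apply_apply]

/-- **the eigenvalue on the quotient**: an element of the decomposition group acts on `V / L` through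
a scalar -/
theorem mltc_exists_frobOn (ρ : GaloisRepAdic A) {P : ValuationSubring Qbar}
    {L : Submodule A ρ.V} (h : MltcOrdLine ρ P L) {φ : GQ} (hφ : φ ∈ P.decompositionSubgroup ℚ) :
    ∃ z : A, MltcFrobOn ρ L φ z := by
  obtain ⟨⟨b, hb⟩, hD, -⟩ := h
  refine ⟨b.repr (ρ.ρ φ (b 1)) 1, fun v => ?_⟩
  set z := b.repr (ρ.ρ φ (b 1)) 1 with hz
  have hb0 : b 0 ∈ L := by
    rw [hb]
    exact Submodule.mem_span_singleton_self _
  have h0 : ρ.ρ φ (b 0) - z • b 0 ∈ L :=
    L.sub_mem (hD φ hφ _ hb0) (L.smul_mem _ hb0)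
  have h1 : ρ.ρ φ (b 1) - z • b 1 ∈ L := by
    have e1 : ρ.ρ φ (b 1) = b.repr (ρ.ρ φ (b 1)) 0 • b 0 + z • b 1 := by
      conv_lhs => rw [← b.sum_repr (ρ.ρ φ (b 1))]
      rw [Fin.sum_univ_two]
    rw [e1, add_sub_cancel_right]
    exact L.smul_mem _ hb0
  have e2 : v = b.repr v 0 • b 0 + b.repr v 1 • b 1 := by
    conv_lhs => rw [← b.sum_repr v]
    rw [Fin.sum_univ_two]
  have e3 : ρ.ρ φ v - z • v = b.repr v 0 • (ρ.ρ φ (b 0) - z • b 0)
      + b.repr v 1 • (ρ.ρ φ (b 1) - z • b 1) := by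
    conv_lhs => rw [e2]
    rw [map_add, map_smul, map_smul, smul_add, smul_sub, smul_sub, smul_comm z, smul_comm z]
    abel
  rw [e3]
  exact L.add_mem (L.smul_mem _ h0) (L.smul_mem _ h1)

/-- the eigenvalue on the quotient is a unit -/
theorem mltc_frobOn_isUnit (ρ : GaloisRepAdic A) {P : ValuationSubring Qbar}
    {L : Submodule A ρ.V} (h : MltcOrdLine ρ P L) {φ : GQ} (hφ : φ ∈ P.decompositionSubgroup ℚ)
    {z : A} (hz : MltcFrobOn ρ L φ z) : IsUnit z := by
  have hφ' : φ⁻¹ ∈ P.decompositionSubgroup ℚ := Subgroup.inv_mem _ hφ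
  obtain ⟨z', hz'⟩ := mltc_exists_frobOn ρ h hφ'
  obtain ⟨⟨b, hb⟩, hD, -⟩ := h
  -- `(1 - z z') b 1 ∈ L`
  have h1 : ρ.ρ φ (ρ.ρ φ⁻¹ (b 1)) = b 1 := by
    rw [← Module.End.mul_apply, ← map_mul, mul_inv_cancel, map_one, Module.End.one_apply]
  have h2 : ρ.ρ φ (ρ.ρ φ⁻¹ (b 1) - z' • b 1) ∈ L := hD φ hφ _ (hz' (b 1))
  rw [map_sub, h1, map_smul] at h2
  have h3 : z' • (ρ.ρ φ (b 1) - z • b 1) ∈ L := L.smul_mem _ (hz (b 1))
  have h4 : b 1 - (z' * z) • b 1 ∈ L := by
    have := L.add_mem h2 h3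
    have e : b 1 - z' • ρ.ρ φ (b 1) + z' • (ρ.ρ φ (b 1) - z • b 1) = b 1 - (z' * z) • b 1 := by
      rw [smul_sub, mul_smul]
      abel
    rwa [e] at this
  rw [hb, Submodule.mem_span_singleton] at h4
  obtain ⟨c, hc⟩ := h4
  have h5 : (1 - z' * z) • b 1 + (-c) • b 0 = 0 := by
    rw [sub_smul, one_smul, neg_smul, hc]
    abel
  have hli := b.linearIndependent
  rw [Fintype.linearIndependent_iff] at hli
  have h6 := hli (fun i => if i = 1 then 1 - z' * z else -c) (by
    rw [Fin.sum_univ_two]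
    simp only [Fin.isValue, zero_ne_one, ↓reduceIte]
    rw [add_comm]
    exact h5) 1
  simp only [Fin.isValue, ↓reduceIte] at h6
  exact IsUnit.of_mul_eq_one z' (by
    rw [mul_comm]
    exact (sub_eq_zero.mp h6).symm)

end Lines

/-! ### The quadratic relation -/

section Quad

variable {O : Type*} [CommRing O] [IsDomain O] {M : Type*} [AddCommGroup M] [Module O M]
  [Module.IsTorsionFree O M]

/-- two unit solutions `z`, `z'` of `z T x = (z² + p) x` on a non-zero vector coincide (`p` not a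
unit) -/
theorem mltc_frobOn_eq {p z z' : O} (hp : ¬ IsUnit p) (hz : IsUnit z) (hz' : IsUnit z')
    {x y : M} (hx : x ≠ 0) (h : z • y = (z ^ 2 + p) • x) (h' : z' • y = (z' ^ 2 + p) • x) :
    z = z' := by
  have e1 : (z' * (z ^ 2 + p)) • x = (z * (z' ^ 2 + p)) • x := by
    rw [mul_smul, ← h, mul_smul, ← h', smul_comm]
  have e2 : ((z - z') * (z * z' - p)) • x = 0 := by
    have : (z - z') * (z * z' - p) = z' * (z ^ 2 + p) - z * (z' ^ 2 + p) := by ring
    rw [this, sub_smul, e1, sub_self]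
  rcases smul_eq_zero.mp e2 with h0 | h0
  · rcases mul_eq_zero.mp h0 with h1 | h1
    · exact sub_eq_zero.mp h1
    · exfalso
      apply hp
      rw [← sub_eq_zero.mp h1]
      exact hz.mul hz'
  · exact absurd h0 hx

end Quad

end Fermat.Agent.MLT
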